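import Fermat.Agent.SetzerNeumann.Common
import Fermat.Agent.Root.SummaryConductor

/-!
# The integral model of a curve with good reduction away from one prime
-/

set_option autoImplicit false

noncomputable section

open WeierstrassCurve

namespace FA.SetzerNeumann

/-- A semistable curve with good reduction away from `p` has bad reduction at `p`, there being no
cusp form of level one. -/
theorem exists_oneBad {p : ℕ} (hp : p.Prime) (E : WeierstrassCurve ℚ) [E.IsElliptic]
    (h : ∀ q : ℕ, ∀ [Fact q.Prime], ∃ C : VariableChange ℚ_[q],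
      HasGoodReduction ℤ_[q] (C • E.map (algebraMap ℚ ℚ_[q])) ∨
        HasMultiplicativeReduction ℤ_[q] (C • E.map (algebraMap ℚ ℚ_[q])))
    (hgood : ∀ q : ℕ, ∀ [Fact q.Prime], q ≠ p → ∃ C : VariableChange ℚ_[q],
      HasGoodReduction ℤ_[q] (C • E.map (algebraMap ℚ ℚ_[q]))) :
    ∃ W : WeierstrassCurve ℤ, OneBadPrime W p ∧ W.IsIntegralModelOf E := by
  obtain ⟨W, N, f, hW, hs, hsq, hN, hf, -⟩ := FA.Root.exists_newform_LFunction E h
  have hΔ := FA.Frob.Δ_ne_zero_of_model hW
  have hbad : ∀ q : ℕ, q.Prime → ((q : ℤ) ∣ W.Δ → q = p) := fun q hq hd => by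
    by_contra hne
    have := Fact.mk hq
    obtain ⟨C, hC⟩ := hgood q hne
    exact FA.Root.not_hasGoodReduction_of_bad hW hd (hs q hq hd) C hC
  have hpΔ : (p : ℤ) ∣ W.Δ := by
    by_contra hnot
    have hN1 : N = 1 := Nat.eq_one_iff_not_exists_prime_dvd.2 fun q hq hd =>
      hnot (hbad q hq ((hN q hq).1 hd) ▸ (hN q hq).1 hd)
    have : NeZero N := ⟨hsq.ne_zero⟩
    refine hf.ne_zero (FA.Ribet.cuspForm_eq_zero_of_genusFormula ?_ f)
    rw [hN1]
    exact FA.Ribet.genusFormula_eq_zero (Or.inl rfl) (one_dvd 6)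
  exact ⟨W, ⟨hp, hs, hΔ, fun q hq => ⟨hbad q hq, fun e => e ▸ hpΔ⟩⟩, hW⟩

end FA.SetzerNeumann

end
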