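import Fermat.Agent.SetzerNeumann.PrimePower
import Fermat.Agent.Root.Semistable.ParamFive

/-!
# A reducible `5`-torsion with one bad prime

The parameters give a square `(x + 11 y)² + 4 y²` with `x` or `y` a unit and the other a prime
power; this leaves `x y = -11` only.
-/

set_option autoImplicit false

noncomputable section

open WeierstrassCurve

namespace FA.SetzerNeumann

/-- `x = ±1` and `|y| = p ^ j`: only `x y = -11`. -/
theorem five_square_fst {p j : ℕ} (hp : p.Prime) (h11 : 11 ≤ p) (hj : j ≠ 0) {x y : ℤ}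
    (hx : x.natAbs = 1) (hy : y.natAbs = p ^ j)
    (h : IsSquare ((x + 11 * y) ^ 2 + 4 * y ^ 2)) : p = 11 ∧ j = 1 ∧ x * y = -11 := by
  have hpi := Nat.prime_iff_prime_int.1 hp
  have hp2 : Odd (p ^ j) := (hp.odd_of_ne_two (by omega)).pow
  have hxo : Odd x := Int.natAbs_odd.1 (by rw [hx]; exact odd_one)
  have hyo : Odd y := Int.natAbs_odd.1 (by rw [hy]; exact hp2)
  obtain ⟨b, hb⟩ := hxo.add_odd ((show Odd (11 : ℤ) by decide).mul hyo)
  obtain ⟨w, hw⟩ := h
  obtain ⟨c, rfl⟩ : Even w := by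
    have : Even (w * w) := ⟨2 * b ^ 2 + 2 * y ^ 2, by rw [← hw, hb]; ring⟩
    simpa [Int.even_mul] using this
  have hcb : c.natAbs ^ 2 = b.natAbs ^ 2 + (p ^ j) ^ 2 := by
    rw [← hy]
    zify
    simp only [sq_abs]
    rw [hb] at hw
    linarith
  have hlt : b.natAbs < c.natAbs := lt_of_pow_lt_pow_left' 2
    (by rw [hcb]; exact Nat.lt_add_of_pos_right (by have := hp.pos; positivity))
  obtain ⟨t, ht⟩ := Nat.exists_eq_add_of_le hlt.le
  have hprod : t * (2 * b.natAbs + t) = p ^ (2 * j) := by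
    rw [ht] at hcb
    rw [mul_comm 2 j, pow_mul]
    linarith [add_sq b.natAbs t, sq t]
  have hpb : ¬p ∣ b.natAbs := fun hd => by
    have hd' : (p : ℤ) ∣ x + 11 * y := hb ▸ dvd_add (Int.natCast_dvd.2 hd) (Int.natCast_dvd.2 hd)
    have hpy : (p : ℤ) ∣ 11 * y :=
      (Int.natCast_dvd.2 (hy ▸ dvd_pow_self p hj)).mul_left 11
    have := Int.natCast_dvd.1 ((dvd_add_left hpy).1 hd')
    rw [hx, Nat.dvd_one] at this
    omega
  have ht1 : t = 1 := by
    by_contra ht1
    obtain ⟨i, hi, rfl⟩ := (Nat.dvd_prime_pow hp).1 (Dvd.intro _ hprod)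
    obtain ⟨i', hi', e⟩ := (Nat.dvd_prime_pow hp).1 (Dvd.intro_left _ hprod)
    have hi0 : i ≠ 0 := fun e => ht1 (by rw [e, pow_zero])
    have hi'0 : i' ≠ 0 := fun e0 => by
      rw [e0, pow_zero] at e
      have : 2 ≤ p ^ i := (Nat.one_lt_pow hi0 hp.one_lt)
      omega
    have h2 : p ∣ 2 * b.natAbs := (Nat.dvd_add_left (dvd_pow_self p hi0)).1
      (e ▸ dvd_pow_self p hi'0)
    rcases (Nat.Prime.dvd_mul hp).1 h2 with h2 | h2
    · have := Nat.le_of_dvd (by norm_num) h2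
      omega
    · exact hpb h2
  subst ht1
  rw [one_mul, mul_comm 2 j, pow_mul] at hprod
  have hbound : 2 * b.natAbs ≤ 11 * p ^ j + 1 := by
    have : (x + 11 * y).natAbs ≤ x.natAbs + (11 * y).natAbs := Int.natAbs_add_le _ _
    rw [hb, Int.natAbs_mul, hx, hy] at this
    omega
  have hP : 11 ≤ p ^ j := h11.trans (Nat.le_self_pow hj p)
  have h11' : p ^ j = 11 := by
    refine le_antisymm (not_lt.1 fun hlt' => ?_) hP
    nlinarith
  obtain ⟨rfl, rfl⟩ := eq_of_pow_eq (by norm_num) h11'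
  refine ⟨rfl, rfl, ?_⟩
  have hb60 : b.natAbs = 60 := by norm_num at hprod; omega
  norm_num at hy
  rcases Int.natAbs_eq_iff.1 hx with e | e <;> rcases Int.natAbs_eq_iff.1 hy with e' | e' <;>
    subst e e' <;> simp only [Nat.cast_ofNat, Nat.cast_one] at hb ⊢ <;> omega

/-- `y = ±1`: only `|x| = 11`. -/
theorem five_square_snd {x y : ℤ} (hy : y.natAbs = 1)
    (h : IsSquare ((x + 11 * y) ^ 2 + 4 * y ^ 2)) : x.natAbs = 11 := by
  obtain ⟨w, hw⟩ := h
  have hy2 : y ^ 2 = 1 := by rw [← Int.natAbs_sq, hy]; rfl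
  set a := x + 11 * y with ha
  rw [hy2] at hw
  have h0 : a.natAbs < w.natAbs := lt_of_pow_lt_pow_left' 2 (by
    zify
    simp only [sq_abs]
    linarith [sq w])
  have hle : (a.natAbs + 1) ^ 2 ≤ w.natAbs ^ 2 := Nat.pow_le_pow_left h0 2
  zify at hle
  rw [sq_abs] at hle
  have ha1 : |a| ≤ 1 := by nlinarith [sq_abs a]
  rcases abs_le.1 ha1 with ⟨ha2, ha3⟩
  interval_cases hav : a
  · exact absurd hw fun e => (show ∀ z : ZMod 8, z * z ≠ 5 by decide) (w : ZMod 8)
      (by rw [← Int.cast_mul, ← e]; rfl)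
  · rcases Int.natAbs_eq_iff.1 hy with e | e <;> omega
  · exact absurd hw fun e => (show ∀ z : ZMod 8, z * z ≠ 5 by decide) (w : ZMod 8)
      (by rw [← Int.cast_mul, ← e]; rfl)

/-- **Reducible `E[5]`**: only `11`, with discriminant `-11` or `-11⁵`. -/
theorem reducible_five {W : WeierstrassCurve ℤ} {p : ℕ} (h : OneBadPrime W p)
    (hred : ¬ W.ModRepIsIrreducible 5) : p = 11 ∧ (W.Δ = -11 ∨ W.Δ = -11 ^ 5) := by
  have hp := h.prime
  have h11 := h.bound.1
  obtain ⟨n, hn, hk⟩ := exists_exponent h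
  obtain ⟨u, v, e, huv, he5, hprod, hQ⟩ := FA.SS.exists_int_param h.semistable h.ne_zero hred
  have hv : v ≠ 0 := fun e0 => by
    rw [e0, zero_pow (by norm_num), mul_zero] at hprod
    rcases mul_eq_zero.1 hprod.symm with e1 | e1
    · rw [pow_eq_zero_iff (by norm_num)] at e1
      exact absurd (e1 ▸ he5) (by norm_num)
    · exact h.ne_zero e1
  have hid : e ^ 3 * W.c₆ ^ 2 =
      (u ^ 2 + 22 * u * v + 125 * v ^ 2) * (u ^ 2 + 4 * u * v - v ^ 2) ^ 2 := by
    linear_combination (e ^ 3) * W.c_relation -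
      ((e * W.c₄) ^ 2 + e * W.c₄ * (u ^ 2 + 10 * u * v + 5 * v ^ 2) +
        (u ^ 2 + 10 * u * v + 5 * v ^ 2) ^ 2) * hQ + 1728 * hprod
  have hE : u ^ 2 + 4 * u * v - v ^ 2 ≠ 0 := fun e0 => by
    have h5 : IsSquare (5 : ℤ) := isSquare_of_mul_sq (a := v) (b := u + 2 * v) (fun e1 => hv (by
      have : u = -2 * v := by linarith
      subst this
      nlinarith)) (by linear_combination -e0)
    exact absurd h5 (by
      rintro ⟨r, hr⟩
      have : r.natAbs ^ 2 = 5 := by rw [sq, ← Int.natAbs_mul, ← hr]; rfl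
      have : r.natAbs < 3 := by nlinarith
      interval_cases r.natAbs <;> simp at *)
  have hepos : 0 < e := by
    have hG : 0 < u ^ 2 + 22 * u * v + 125 * v ^ 2 := by
      nlinarith [sq_nonneg (u + 11 * v), mul_pos_iff.2 (hv.lt_or_gt.symm.imp
        (fun h => And.intro h h) fun h => And.intro h h)]
    by_contra hle
    nlinarith [mul_pos hG (pow_two_pos_of_ne_zero hE), mul_nonneg (neg_nonneg.2 (not_lt.1 hle))
      (mul_nonneg (sq_nonneg e) (sq_nonneg W.c₆))]
  have hsq : IsSquare (e * (u ^ 2 + 22 * u * v + 125 * v ^ 2)) :=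
    isSquare_of_mul_sq (a := u ^ 2 + 4 * u * v - v ^ 2) (b := e ^ 2 * W.c₆) (fun e0 => hE (by
      have : W.c₆ = 0 := (mul_eq_zero.1 e0).resolve_left (pow_ne_zero 2 hepos.ne')
      rw [this] at hid
      rcases mul_eq_zero.1 (by linarith : (u ^ 2 + 22 * u * v + 125 * v ^ 2) *
        (u ^ 2 + 4 * u * v - v ^ 2) ^ 2 = 0) with e1 | e1
      · nlinarith [sq_nonneg (u + 11 * v), pow_two_pos_of_ne_zero hv]
      · exact pow_eq_zero_iff two_ne_zero |>.1 e1))
      (by linear_combination -e * hid)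
  have he15 : e = 1 ∨ e = 5 := by
    have := (Nat.dvd_prime Nat.prime_five).1 (Int.natAbs_dvd_natAbs.2 he5)
    rcases this with e1 | e1 <;> omega
  rcases he15 with rfl | rfl
  · rw [one_pow, one_mul] at hprod
    rw [one_mul, show u ^ 2 + 22 * u * v + 125 * v ^ 2 = (u + 11 * v) ^ 2 + 4 * v ^ 2 by ring]
      at hsq
    rcases split_prime_pow hp (show (5 : ℕ) ≠ 0 by norm_num) huv (by rw [hprod, hk]) with
      ⟨h1, j, hj, h2⟩ | ⟨h1, h2⟩
    · obtain ⟨rfl, rfl, hxy⟩ := five_square_fst hp h11 (by omega) h1 h2 hsq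
      refine ⟨rfl, Or.inr ?_⟩
      rcases Int.natAbs_eq_iff.1 h1 with e1 | e1 <;> subst e1
      · obtain rfl : v = -11 := by push_cast at hxy; linarith
        rw [← hprod]
        norm_num
      · obtain rfl : v = 11 := by push_cast at hxy; linarith
        rw [← hprod]
        norm_num
    · have h11' := five_square_snd h1 hsq
      rw [h2] at h11'
      obtain ⟨rfl, -⟩ := eq_of_pow_eq (by norm_num) h11'
      refine ⟨rfl, Or.inl ?_⟩
      obtain ⟨w, hw⟩ := hsq
      rw [h11'] at h2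
      rw [← hprod]
      rcases Int.natAbs_eq_iff.1 h1 with e1 | e1 <;> rcases Int.natAbs_eq_iff.1 h2 with e2 | e2 <;>
        subst e1 e2 <;> norm_num at hw ⊢
      all_goals exact absurd (congrArg (Int.cast : ℤ → ZMod 5) hw) (by
        push_cast
        exact fun e => (show ∀ z : ZMod 5, z * z ≠ 488 by decide) _ e.symm)
  · have h5Δ : ¬((5 : ℕ) : ℤ) ∣ W.Δ := fun hd => by
      have := (h.bad 5 Nat.prime_five).1 hd
      omega
    have h5i : Prime (5 : ℤ) := Nat.prime_iff_prime_int.1 Nat.prime_five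
    have h125 : (125 : ℤ) ∣ u := by
      have h5v : ¬(5 : ℤ) ∣ v := fun hd => h5Δ (by
        have h' : (5 : ℤ) ^ 4 ∣ u * v ^ 5 :=
          (((pow_dvd_pow_of_dvd hd 4).trans (pow_dvd_pow v (by norm_num))).mul_left u)
        rw [hprod, show ((5 : ℤ) ^ 4) = 5 ^ 3 * 5 by norm_num] at h'
        simpa using (mul_dvd_mul_iff_left (by norm_num)).1 h')
      have h3 : (5 : ℤ) ^ 3 ∣ u * v ^ 5 := hprod ▸ dvd_mul_right _ W.Δ
      exact ((h5i.coprime_iff_not_dvd.2 h5v).pow (m := 3) (n := 5)).dvd_of_dvd_mul_right h3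
    obtain ⟨u', rfl⟩ := h125
    have hprod' : u' * v ^ 5 = W.Δ := by
      refine mul_left_cancel₀ (show (125 : ℤ) ≠ 0 by norm_num) ?_
      linear_combination hprod
    have huv' : IsCoprime u' v := huv.of_mul_left_right
    have hu' : u' ≠ 0 := fun e0 => h.ne_zero (by rw [← hprod', e0, zero_mul])
    have hsq' : IsSquare ((v + 11 * u') ^ 2 + 4 * u' ^ 2) := by
      obtain ⟨r, hr⟩ := hsq
      refine isSquare_of_mul_sq (a := 25) (b := r) ?_ (by linear_combination hr)
      rintro rfl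
      nlinarith [sq_nonneg (v + 11 * u'), pow_two_pos_of_ne_zero hu']
    rcases split_prime_pow hp (show (5 : ℕ) ≠ 0 by norm_num) huv' (by rw [hprod', hk]) with
      ⟨h1, j, hj, h2⟩ | ⟨h1, h2⟩
    · have h11' := five_square_snd h1 hsq'
      rw [h2] at h11'
      obtain ⟨rfl, rfl⟩ := eq_of_pow_eq (by norm_num) h11'
      refine ⟨rfl, Or.inr ?_⟩
      obtain ⟨w, hw⟩ := hsq'
      rw [← hprod']
      norm_num at h2
      rcases Int.natAbs_eq_iff.1 h1 with e1 | e1 <;> rcases Int.natAbs_eq_iff.1 h2 with e2 | e2 <;>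
        subst e1 e2 <;> norm_num at hw ⊢
      all_goals exact absurd (congrArg (Int.cast : ℤ → ZMod 5) hw) (by
        push_cast
        exact fun e => (show ∀ z : ZMod 5, z * z ≠ 488 by decide) _ e.symm)
    · obtain ⟨rfl, rfl, hxy⟩ := five_square_fst hp h11 hn h1 h2 hsq'
      refine ⟨rfl, Or.inl ?_⟩
      rcases Int.natAbs_eq_iff.1 h1 with e1 | e1 <;> subst e1
      · rw [← hprod']
        push_cast at hxy ⊢
        linarith
      · rw [← hprod']
        push_cast at hxy ⊢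
        linarith

end FA.SetzerNeumann

end
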