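import Fermat.Agent.SetzerNeumann.PrimePower
import Fermat.Agent.EC.IsogenySeven
import Fermat.Agent.MordellCurve.Cubic

/-!
# No reducible `7`-torsion with one bad prime

The parameters give a cube `49 y² + 13 y + 1` or `y² + 13 y + 49` with `y` a prime power. The first
has none; the second is a point of `Y² = X³ - 432` and gives `y = -11`, where three is not
semistable.
-/

set_option autoImplicit false

noncomputable section

open WeierstrassCurve

namespace FA.SetzerNeumann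

/-- Witnesses that the discriminants for the small values are not squares. -/
theorem seven_small : ∀ x < 64, 0 < x → ∃ q ∈ [5, 8, 9, 11, 13, 17, 19, 25],
    ∀ t < q, t * t % q ≠ (169 + 4 * x * (49 * (x * x + 3 * x + 3))) % q := by decide

/-- Witnesses for the small values of the second parameter. -/
theorem seven_small_snd : ∀ r ∈ Finset.Icc (-14 : ℤ) 14, r ≠ 0 →
    ∃ q ∈ [5, 7, 8, 9, 11, 17, 19], ∀ t < q, ((t * t % q : ℕ) : ℤ) ≠
      ((294 * r + 8281) ^ 2 + 4 * r ^ 2 * (169 * r + 3234)) % (q : ℤ) := by decide +kernel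

/-- A square has a square residue. -/
theorem exists_residue {q : ℕ} (hq : q ≠ 0) (z : ℤ) :
    ∃ t < q, ((t * t % q : ℕ) : ℤ) = z ^ 2 % (q : ℤ) := by
  refine ⟨(z % q).toNat, ?_, ?_⟩
  · have := Int.emod_lt_of_pos z (Int.natCast_pos.2 (Nat.pos_of_ne_zero hq))
    have := Int.emod_nonneg z (Int.natCast_ne_zero.2 hq)
    omega
  · push_cast
    rw [Int.toNat_of_nonneg (Int.emod_nonneg z (Int.natCast_ne_zero.2 hq)), ← Int.mul_emod, sq]

/-- The finite check: `49 (x² + 3 x + 3) = m² x - 13 m` has no solution with `x ≥ 1`. -/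
theorem seven_finite {x m : ℤ} (hx : 1 ≤ x)
    (h : 49 * (x ^ 2 + 3 * x + 3) = m ^ 2 * x - 13 * m) : False := by
  rcases lt_or_ge x 64 with hlt | hge
  · obtain ⟨n, rfl⟩ := Int.eq_ofNat_of_zero_le (show 0 ≤ x by omega)
    obtain ⟨q, hq, hwit⟩ := seven_small n (by omega) (by omega)
    obtain ⟨t, ht, e⟩ := exists_residue (q := q) (by rintro rfl; simp at hq) (2 * n * m - 13)
    refine hwit t ht (by
      rw [show (2 * (n : ℤ) * m - 13) ^ 2 =
        ((169 + 4 * n * (49 * (n * n + 3 * n + 3)) : ℕ) : ℤ) by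
          push_cast; linear_combination -4 * (n : ℤ) * h] at e
      exact_mod_cast e)
  set r := m ^ 2 - 49 * x - 147 with hr
  have h1 : x * r = 147 + 13 * m := by rw [hr]; linear_combination -h
  have h2 : x * (r ^ 2 * x - 294 * r - 8281) = 169 * r + 3234 := by
    linear_combination (-169) * hr + (r * x - 147 + 13 * m) * h1
  have hr0 : r ≠ 0 := by
    rintro e
    rw [e] at h1
    omega
  have hb : |r| ≤ 14 := by
    by_contra hgt
    push Not at hgt
    have hr15 : 15 ≤ |r| := by omega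
    have hle : r ^ 2 * x - 294 * r - 8281 ≤ 169 * |r| + 3234 := by
      by_contra hlt'
      push Not at hlt'
      have h0 : 0 < r ^ 2 * x - 294 * r - 8281 := by linarith [abs_nonneg r]
      nlinarith [le_abs_self r]
    have h64 : r ^ 2 * 64 ≤ r ^ 2 * x := by gcongr
    nlinarith [le_abs_self r, sq_abs r, hr15]
  obtain ⟨q, hq, hwit⟩ := seven_small_snd r (by simpa [abs_le] using hb) hr0
  obtain ⟨t, ht, e⟩ := exists_residue (q := q) (by rintro rfl; simp at hq)
    (2 * r ^ 2 * x - (294 * r + 8281))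
  refine hwit t ht ?_
  rw [e]
  congr 1
  linear_combination 4 * r ^ 2 * h2

/-- `49 y² + 13 y + 1` is no cube at a prime power. -/
theorem seven_hard {p j : ℕ} (hp : p.Prime) (h11 : 11 ≤ p) (hj : j ≠ 0) {y w : ℤ}
    (hy : y.natAbs = p ^ j) (h : w ^ 3 = 49 * y ^ 2 + 13 * y + 1) : False := by
  have hpi := Nat.prime_iff_prime_int.1 hp
  have hy11 : 11 ≤ |y| := by
    rw [← Int.natCast_natAbs, hy]
    exact_mod_cast h11.trans (Nat.le_self_pow hj p)
  have hy0 : y ≠ 0 := fun e => by norm_num [e] at hy11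
  have hprod : (w - 1) * (w ^ 2 + w + 1) = y * (49 * y + 13) := by linear_combination h
  have hcop : ∀ z : ℤ, ¬(p : ℤ) ∣ z → IsCoprime y z := fun z hz => by
    have h1 : IsCoprime ((p : ℤ) ^ j) z := (hpi.coprime_iff_not_dvd.2 hz).pow_left
    refine h1.of_isCoprime_of_dvd_left ?_
    rw [← Int.natAbs_dvd_natAbs, hy, Int.natAbs_pow, Int.natAbs_natCast]
  by_cases hpw : (p : ℤ) ∣ w - 1
  · have hnot : ¬(p : ℤ) ∣ w ^ 2 + w + 1 := fun hd => by
      have h3 : (p : ℤ) ∣ ((3 : ℕ) : ℤ) := by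
        have := dvd_sub hd (hpw.mul_right (w + 2))
        ring_nf at this ⊢
        simpa using this
      have := Nat.le_of_dvd (by norm_num) (Int.natCast_dvd_natCast.1 h3)
      omega
    obtain ⟨t, ht⟩ := (hcop _ hnot).dvd_of_dvd_mul_right (Dvd.intro _ hprod.symm)
    have hw : w = 1 + y * t := by linarith
    subst hw
    have e : t * (t ^ 2 * y ^ 2 + 3 * t * y + 3) = 49 * y + 13 :=
      mul_left_cancel₀ hy0 (by linear_combination hprod)
    have ht1 : |t| ≤ 1 := by
      by_contra hgt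
      have ht2 : 2 ≤ |t| := by omega
      have hA : |t ^ 3 * y ^ 2| ≤ |3 * t ^ 2 - 49| * |y| + |3 * t - 13| := by
        rw [show t ^ 3 * y ^ 2 = -((3 * t ^ 2 - 49) * y) - (3 * t - 13) by linear_combination e]
        exact (abs_sub _ _).trans (by rw [abs_neg, abs_mul])
      have hB : |3 * t ^ 2 - 49| ≤ 3 * t ^ 2 + 49 := (abs_sub _ _).trans (by simp [abs_mul])
      have hC : |3 * t - 13| ≤ 3 * |t| + 13 := (abs_sub _ _).trans (by simp [abs_mul])
      rw [abs_mul, abs_pow, abs_pow] at hA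
      have h1 : 11 * |t| ^ 3 * |y| ≤ |t| ^ 3 * |y| ^ 2 := by
        nlinarith [mul_le_mul_of_nonneg_left hy11 (mul_nonneg (pow_nonneg (abs_nonneg t) 3)
          (abs_nonneg y))]
      have h2 : (11 * |t| ^ 3) * |y| ≤ (3 * t ^ 2 + 3 * |t| + 62) * |y| := by
        nlinarith [mul_le_mul_of_nonneg_right hB (abs_nonneg y), abs_nonneg t,
          mul_nonneg (by linarith [abs_nonneg t] : (0 : ℤ) ≤ 3 * |t| + 13)
            (by linarith : (0 : ℤ) ≤ |y| - 1)]
      have hD : 11 * |t| ^ 3 ≤ 3 * |t| ^ 2 + 3 * |t| + 62 := by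
        rw [sq_abs]
        exact le_of_mul_le_mul_right h2 (by linarith)
      nlinarith [mul_le_mul_of_nonneg_right ht2 (sq_nonneg |t|)]
    have hsmall : ∀ z : ℤ, y * z = 10 ∨ y * z = -16 → |y| ≤ 16 := fun z hz => by
      rcases hz with e' | e'
      · exact (Int.le_of_dvd (by norm_num) ((abs_dvd _ _).2 (Dvd.intro _ e'))).trans (by norm_num)
      · refine Int.le_of_dvd (by norm_num) ((abs_dvd _ _).2 ?_)
        exact dvd_neg.1 (Dvd.intro _ e')
    obtain ⟨h1, h2⟩ := abs_le.1 ht1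
    interval_cases t
    · have := abs_le.1 (hsmall (y + 46) (Or.inr (by linarith)))
      rcases le_abs.1 hy11 with h' | h' <;> obtain ⟨a, b⟩ := this <;> interval_cases y <;> omega
    · omega
    · have := abs_le.1 (hsmall (y - 46) (Or.inl (by linarith)))
      rcases le_abs.1 hy11 with h' | h' <;> obtain ⟨a, b⟩ := this <;> interval_cases y <;> omega
  · obtain ⟨m, hm⟩ := (hcop _ hpw).dvd_of_dvd_mul_left (Dvd.intro _ hprod.symm)
    have hw0 : 2 ≤ w := by
      have hpos : 1 < w ^ 3 := by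
        nlinarith [sq_abs y, neg_abs_le y, le_abs_self y]
      by_contra hlt
      rcases le_or_gt w 0 with h0 | h0
      · nlinarith [sq_nonneg w]
      · rw [show w = 1 by omega] at hpos
        norm_num at hpos
    have e : m * (w - 1) = 49 * y + 13 :=
      mul_left_cancel₀ hy0 (by linear_combination hprod - (w - 1) * hm)
    exact seven_finite (x := w - 1) (m := m) (by omega) (by linear_combination 49 * hm - m * e)

/-- `y² + 13 y + 49` is a cube at a prime power only for `y = -11`. -/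
theorem seven_easy {y w : ℤ} (hy : 11 ≤ y.natAbs) (h : w ^ 3 = y ^ 2 + 13 * y + 49) : y = -11 := by
  have hc : ((8 * y + 52 : ℤ) : ℚ) ^ 2 = ((4 * w : ℤ) : ℚ) ^ 3 - 432 := by
    have := congrArg (Int.cast : ℤ → ℚ) h
    push_cast at this ⊢
    linear_combination (-64) * this
  obtain ⟨-, e | e⟩ := FA.Summary.rational_points_curve27 hc <;>
    (norm_cast at e; omega)

/-- A cube cofactor. -/
theorem exists_cube {c a b : ℤ} (hb : b ≠ 0) (h : c ^ 3 = a * b ^ 3) : ∃ w, w ^ 3 = a := by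
  obtain ⟨w, rfl⟩ : b ∣ c := (Int.pow_dvd_pow_iff three_ne_zero).1 (h ▸ dvd_mul_left _ _)
  exact ⟨w, mul_left_cancel₀ (pow_ne_zero 3 hb) (by linear_combination h)⟩

/-- **No reducible `E[7]`**. -/
theorem reducible_seven {W : WeierstrassCurve ℤ} {p : ℕ} (h : OneBadPrime W p)
    (hred : ¬ W.ModRepIsIrreducible 7) : False := by
  have hp := h.prime
  have h11 := h.bound.1
  obtain ⟨n, hn, hk⟩ := exists_exponent h
  have hPn : 11 ≤ p ^ n := h11.trans (Nat.le_self_pow hn p)
  have := FA.Frob.ratCurve_isElliptic_of_Δ h.ne_zero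
  obtain ⟨s, hs0, hs⟩ :=
    FA.EC.exists_param_seven (E := W.map (Int.castRingHom ℚ)) hred
  rw [map_c₄, map_Δ, eq_intCast, eq_intCast] at hs
  set u := s.num with hudef
  set v : ℤ := (s.den : ℤ) with hvdef
  have huv : IsCoprime u v := Int.isCoprime_iff_nat_coprime.2 s.reduced
  have hts : (v : ℚ) * s = (u : ℚ) := by
    rw [hudef, hvdef, Int.cast_natCast]; exact Rat.den_mul_eq_num s
  set A := u ^ 2 + 13 * u * v + 49 * v ^ 2 with hA
  set B := u ^ 2 + 5 * u * v + v ^ 2 with hB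
  set C := u ^ 4 + 14 * u ^ 3 * v + 63 * u ^ 2 * v ^ 2 + 70 * u * v ^ 3 - 7 * v ^ 4 with hCdef
  have main : W.c₄ ^ 3 * (u * v ^ 7) = A * B ^ 3 * W.Δ := by
    apply Int.cast_injective (α := ℚ)
    push_cast [hA, hB]
    rw [← hts]
    linear_combination (v : ℚ) ^ 8 * hs
  obtain ⟨κ, hκ⟩ : W.Δ ∣ u * v ^ 7 :=
    ((FA.Switch.isCoprime_c₄_Δ h.ne_zero h.semistable).pow_right (n := 3)).dvd_of_dvd_mul_left
      (Dvd.intro_left _ main.symm)
  have main' : W.c₄ ^ 3 * κ = A * B ^ 3 :=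
    mul_right_cancel₀ h.ne_zero (by rw [← main, hκ]; ring)
  have hκu : κ ∣ u := by
    refine (IsCoprime.pow_right (n := 7) ?_).dvd_of_dvd_mul_right (Dvd.intro_left W.Δ hκ.symm)
    have hco : IsCoprime (A * B ^ 3) v := by
      rw [hA, hB, show u ^ 2 + 13 * u * v + 49 * v ^ 2 = u ^ 2 + (13 * u + 49 * v) * v by ring,
        show u ^ 2 + 5 * u * v + v ^ 2 = u ^ 2 + (5 * u + v) * v by ring]
      exact (huv.pow_left.add_mul_right_left _).mul_left
        (huv.pow_left.add_mul_right_left _).pow_left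
    exact hco.of_isCoprime_of_dvd_left (Dvd.intro_left _ main')
  have hκ49 : κ ∣ 49 := by
    have h1 : κ ∣ 49 * v ^ 8 := by
      rw [show 49 * v ^ 8 = A * B ^ 3 - u * (748 * v ^ 7 + 4018 * u * v ^ 6 +
        8624 * u ^ 2 * v ^ 5 + 5915 * u ^ 3 * v ^ 4 + 1904 * u ^ 4 * v ^ 3 + 322 * u ^ 5 * v ^ 2 +
        28 * u ^ 6 * v + u ^ 7) by rw [hA, hB]; ring]
      exact dvd_sub (Dvd.intro_left _ main') (hκu.mul_right _)
    exact ((huv.of_isCoprime_of_dvd_left hκu).pow_right).dvd_of_dvd_mul_right h1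
  have hne2 : (u : ZMod 2) ≠ 0 ∨ (v : ZMod 2) ≠ 0 := by
    by_contra hcon
    push Not at hcon
    exact Int.prime_two.not_isUnit (huv.isUnit_of_dvd'
      ((ZMod.intCast_zmod_eq_zero_iff_dvd _ 2).1 hcon.1)
      ((ZMod.intCast_zmod_eq_zero_iff_dvd _ 2).1 hcon.2))
  obtain ⟨hB2, hC2⟩ : (B : ZMod 2) ≠ 0 ∧ (C : ZMod 2) ≠ 0 := by
    rw [hB, hCdef]
    push_cast
    exact (show ∀ a b : ZMod 2, (a ≠ 0 ∨ b ≠ 0) → a ^ 2 + 5 * a * b + b ^ 2 ≠ 0 ∧
      a ^ 4 + 14 * a ^ 3 * b + 63 * a ^ 2 * b ^ 2 + 70 * a * b ^ 3 - 7 * b ^ 4 ≠ 0 by decide)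
        _ _ hne2
  have hB0 : B ≠ 0 := fun e => hB2 (by rw [e, Int.cast_zero])
  have hC0 : C ≠ 0 := fun e => hC2 (by rw [e, Int.cast_zero])
  have hC6 : κ * W.c₆ ^ 2 = C ^ 2 := by
    simp only [hA, hB] at main'
    rw [hCdef]
    linear_combination κ * W.c_relation + main' - 1728 * (-hκ)
  obtain ⟨i, hi⟩ := isSquare_of_mul_sq hC0 hC6
  have hi7 : i.natAbs = 1 ∨ i.natAbs = 7 := by
    refine (Nat.dvd_prime (by norm_num)).1 ?_
    have h2 : i ^ 2 ∣ (7 : ℤ) ^ 2 := by rw [sq, ← hi]; simpa using hκ49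
    simpa using Int.natAbs_dvd_natAbs.2 ((Int.pow_dvd_pow_iff two_ne_zero).1 h2)
  have hκval : κ = 1 ∨ κ = 49 := by
    rw [hi, ← abs_mul_abs_self i, ← Int.natCast_natAbs]
    rcases hi7 with e | e <;> rw [e] <;> norm_num
  rcases hκval with rfl | rfl
  · obtain ⟨w, hw⟩ := exists_cube hB0 (show W.c₄ ^ 3 = A * B ^ 3 by linarith)
    have hprod : u * v ^ 7 = W.Δ := by linarith
    rcases split_prime_pow hp (show (7 : ℕ) ≠ 0 by norm_num) huv (by rw [hprod, hk]) with
      ⟨h1, j, hj, h2⟩ | ⟨h1, h2⟩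
    · have hu2 : u ^ 2 = 1 := by rw [← Int.natAbs_sq, h1]; rfl
      exact seven_hard hp h11 (show j ≠ 0 by omega) (y := u * v) (w := w)
        (by rw [Int.natAbs_mul, h1, h2, one_mul])
        (by rw [hw, hA]; linear_combination (1 - 49 * v ^ 2) * hu2)
    · have hv2 : v ^ 2 = 1 := by rw [← Int.natAbs_sq, h1]; rfl
      have habs : (u * v).natAbs = p ^ n := by rw [Int.natAbs_mul, h1, h2, mul_one]
      have hz := seven_easy (y := u * v) (w := w) (by omega)
        (by rw [hw, hA]; linear_combination (49 - u ^ 2) * hv2)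
      have hu : u = -11 * v := by linear_combination v * hz - u * hv2
      have hCval : C = 2853 := by
        rw [hCdef, hu]
        linear_combination 2853 * (v ^ 2 + 1) * hv2
      have hc3 : (3 : ℤ) ∣ W.c₄ := by
        refine Int.prime_three.dvd_of_dvd_pow (n := 3) ⟨9 * B ^ 3, ?_⟩
        rw [hA, hu] at main'
        linear_combination main' + 27 * B ^ 3 * hv2
      obtain ⟨t, ht⟩ := dvd_c₆_of_three_dvd hc3
      rw [hCval, ht] at hC6
      have h7 : (27 * t - 2853) * (27 * t + 2853) = 0 := by linear_combination hC6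
      rcases mul_eq_zero.1 h7 with e | e <;> omega
  · obtain ⟨u', hu'⟩ : (49 : ℤ) ∣ u := hκu
    have hprod : u' * v ^ 7 = W.Δ := by rw [hu'] at hκ; linarith
    obtain ⟨w, hw⟩ := exists_cube hB0
      (show W.c₄ ^ 3 = (49 * u' ^ 2 + 13 * u' * v + v ^ 2) * B ^ 3 by
        rw [hA, hu'] at main'; linarith)
    have huv' : IsCoprime u' v := (hu' ▸ huv).of_mul_left_right
    rcases split_prime_pow hp (show (7 : ℕ) ≠ 0 by norm_num) huv' (by rw [hprod, hk]) with
      ⟨h1, j, hj, h2⟩ | ⟨h1, h2⟩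
    · have hu2 : u' ^ 2 = 1 := by rw [← Int.natAbs_sq, h1]; rfl
      have habs : (u' * v).natAbs = p ^ j := by rw [Int.natAbs_mul, h1, h2, one_mul]
      have hPj : 11 ≤ p ^ j := h11.trans (Nat.le_self_pow (show j ≠ 0 by omega) p)
      have hz := seven_easy (y := u' * v) (w := w) (by omega)
        (by rw [hw]; linear_combination (49 - v ^ 2) * hu2)
      have hv : v = -11 * u' := by linear_combination u' * hz - v * hu2
      have hCval : C = 1281861 := by
        rw [hCdef, hu', hv]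
        linear_combination 1281861 * (u' ^ 2 + 1) * hu2
      have hc3 : (3 : ℤ) ∣ W.c₄ := by
        refine Int.prime_three.dvd_of_dvd_pow (n := 3) ⟨9 * B ^ 3, ?_⟩
        rw [hA, hu', hv] at main'
        have e' : W.c₄ ^ 3 = (49 * u' ^ 2 + 13 * u' * (-11 * u') + (-11 * u') ^ 2) * B ^ 3 := by
          linarith
        linear_combination e' + 27 * B ^ 3 * hu2
      obtain ⟨t, ht⟩ := dvd_c₆_of_three_dvd hc3
      rw [hCval, ht] at hC6
      have h7 : (7 * (27 * t) - 1281861) * (7 * (27 * t) + 1281861) = 0 := by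
        linear_combination hC6
      rcases mul_eq_zero.1 h7 with e | e <;> omega
    · have hv2 : v ^ 2 = 1 := by rw [← Int.natAbs_sq, h1]; rfl
      exact seven_hard hp h11 hn
        (y := u' * v) (w := w)
        (by rw [Int.natAbs_mul, h1, h2, mul_one])
        (by rw [hw]; linear_combination (1 - 49 * u' ^ 2) * hv2)

end FA.SetzerNeumann

end
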