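import Fermat.Agent.SetzerNeumann.PrimePower
import Fermat.Agent.EC.S51Aux

/-!
# A reducible `3`-torsion with one bad prime

The parameters give a cube `x + 27 y` with `x` or `y` a unit and the other a prime power; this
leaves `x y = 37` and `x y = -19`.
-/

set_option autoImplicit false

noncomputable section

open WeierstrassCurve

namespace FA.SetzerNeumann

/-- `x = ±1`, `|y| = p ^ j` and `x + 27 y` a cube: `x y = 37` or `-19`. -/
theorem three_cube_fst {p j : ℕ} (hp : p.Prime) (hj : j ≠ 0) {x y c : ℤ} (hx : x.natAbs = 1)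
    (hy : y.natAbs = p ^ j) (hc : c ^ 3 = x + 27 * y) : x * y = 37 ∨ x * y = -19 := by
  have hx2 : x ^ 2 = 1 := by rw [← Int.natAbs_sq, hx]; rfl
  set z := x * y with hz
  have hzabs : z.natAbs = p ^ j := by rw [hz, Int.natAbs_mul, hx, hy, one_mul]
  have hd : (x * c) ^ 3 = 1 + 27 * z := by
    rw [hz]
    linear_combination x ^ 3 * hc + (x ^ 2 + 1 + 27 * x * y) * hx2
  obtain ⟨d, hd9⟩ : (9 : ℤ) ∣ x * c - 1 := by
    refine (ZMod.intCast_zmod_eq_zero_iff_dvd _ 9).1 ?_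
    have h27 := congrArg (Int.cast : ℤ → ZMod 27) hd
    push_cast at h27
    rw [show (27 : ZMod 27) = 0 from rfl, zero_mul, add_zero] at h27
    have key : ∀ t : ZMod 27, t ^ 3 = 1 →
        ZMod.castHom (show 9 ∣ 27 by norm_num) (ZMod 9) t = 1 := by decide
    have := key _ h27
    rw [map_mul, map_intCast, map_intCast] at this
    push_cast
    rw [this, sub_self]
  have hzd : z = d * (27 * d ^ 2 + 9 * d + 1) := by
    rw [show x * c = 9 * d + 1 by linarith] at hd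
    linarith
  have hpi := Nat.prime_iff_prime_int.1 hp
  have hpz : (p : ℤ) ∣ z := Int.natCast_dvd.2 (hzabs ▸ dvd_pow_self p hj)
  by_cases hpd : (p : ℤ) ∣ d
  · have hnot : ¬(p : ℤ) ∣ 27 * d ^ 2 + 9 * d + 1 := fun h => hpi.not_isUnit <|
      isUnit_of_dvd_one ((Int.dvd_add_right (dvd_add ((dvd_pow hpd two_ne_zero).mul_left 27)
        (hpd.mul_left 9))).1 h)
    exfalso
    rcases unit_of_dvd_pow hp hzabs (hzd ▸ dvd_mul_left _ _) hnot with e | e
    · have : d = 0 := by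
        rcases mul_eq_zero.1 (show d * (3 * d + 1) = 0 by linarith) with h | h <;> omega
      rw [this, zero_mul] at hzd
      rw [hzd, Int.natAbs_zero] at hzabs
      exact pow_ne_zero j hp.ne_zero hzabs.symm
    · nlinarith [sq_nonneg (6 * d + 1)]
  · rcases unit_of_dvd_pow hp hzabs (hzd ▸ dvd_mul_right _ _) hpd with rfl | rfl <;>
      norm_num at hzd <;> omega

/-- `y = ±1`, `|x| = p ^ j` and `x + 27 y` a cube: `x y = 37` or `-19`. -/
theorem three_cube_snd {p j : ℕ} (hp : p.Prime) (h11 : 11 ≤ p) {x y c : ℤ} (hy : y.natAbs = 1)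
    (hx : x.natAbs = p ^ j) (hc : c ^ 3 = x + 27 * y) : x * y = 37 ∨ x * y = -19 := by
  have hy2 : y ^ 2 = 1 := by rw [← Int.natAbs_sq, hy]; rfl
  set z := x * y with hz
  have hzabs : z.natAbs = p ^ j := by rw [hz, Int.natAbs_mul, hx, hy, mul_one]
  set d := y * c with hd
  have hzd : z = (d - 3) * (d ^ 2 + 3 * d + 9) := by
    rw [hz, hd]
    linear_combination (-(y ^ 3)) * hc - (x * y + 27 * y ^ 2 + 27) * hy2
  have hpi := Nat.prime_iff_prime_int.1 hp
  by_cases hpd : (p : ℤ) ∣ d - 3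
  · have hnot : ¬(p : ℤ) ∣ d ^ 2 + 3 * d + 9 := fun h => by
      have h27 : (p : ℤ) ∣ ((3 ^ 3 : ℕ) : ℤ) := by
        have := dvd_sub h (hpd.mul_right (d + 6))
        ring_nf at this ⊢
        simpa using this
      have := Nat.le_of_dvd (by norm_num) (hp.dvd_of_dvd_pow (Int.natCast_dvd_natCast.1 h27))
      omega
    exfalso
    rcases unit_of_dvd_pow hp hzabs (hzd ▸ dvd_mul_left _ _) hnot with e | e <;>
      nlinarith [sq_nonneg (2 * d + 3)]
  · rcases unit_of_dvd_pow hp hzabs (hzd ▸ dvd_mul_right _ _) hpd with e | e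
    · rw [e, show d = 4 by linarith] at hzd
      norm_num at hzd
      exact Or.inl hzd
    · rw [e, show d = 2 by linarith] at hzd
      norm_num at hzd
      exact Or.inr hzd

/-- Only `k = 1, 9, 81, 729` are squares dividing `729`. -/
theorem square_dvd_729 {k : ℤ} (h : IsSquare k) (hk : k ∣ 729) :
    k = 1 ∨ k = 9 ∨ k = 81 ∨ k = 729 := by
  obtain ⟨r, rfl⟩ := h
  have h2 : r ^ 2 ∣ (27 : ℤ) ^ 2 := by simpa [sq] using hk
  have h27 : r.natAbs ∣ 3 ^ 3 := by
    simpa using Int.natAbs_dvd_natAbs.2 ((Int.pow_dvd_pow_iff two_ne_zero).1 h2)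
  obtain ⟨i, hi, e⟩ := (Nat.dvd_prime_pow Nat.prime_three).1 h27
  rw [← abs_mul_abs_self r, ← Int.natCast_natAbs, e]
  interval_cases i <;> norm_num

/-- The discriminants from the sign data. -/
theorem three_conclusion {p : ℕ} {W : WeierstrassCurve ℤ} (h : OneBadPrime W p) {z : ℤ}
    (hz : W.Δ = z ^ 3 ∨ W.Δ = z) (hl : z = 37 ∨ z = -19) :
    p = 19 ∧ (W.Δ = -19 ∨ W.Δ = -19 ^ 3) ∨ p = 37 ∧ (W.Δ = 37 ∨ W.Δ = 37 ^ 3) := by
  rcases hl with rfl | rfl
  · refine Or.inr ⟨((h.bad 37 (by norm_num)).1 ?_).symm, hz.symm⟩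
    rcases hz with e | e <;> rw [e] <;> norm_num
  · refine Or.inl ⟨((h.bad 19 (by norm_num)).1 ?_).symm,
      hz.symm.imp_right fun e => by rw [e]; norm_num⟩
    rcases hz with e | e <;> rw [e] <;> norm_num

/-- **Reducible `E[3]`**: only `19` and `37`, with discriminants `-19`, `-19³`, `37`, `37³`. -/
theorem reducible_three {W : WeierstrassCurve ℤ} {p : ℕ} (h : OneBadPrime W p)
    (hred : ¬ W.ModRepIsIrreducible 3) :
    p = 19 ∧ (W.Δ = -19 ∨ W.Δ = -19 ^ 3) ∨ p = 37 ∧ (W.Δ = 37 ∨ W.Δ = 37 ^ 3) := by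
  have hp := h.prime
  have h11 := h.bound.1
  obtain ⟨n, hn, hk⟩ := exists_exponent h
  have := FA.Frob.ratCurve_isElliptic_of_Δ h.ne_zero
  obtain ⟨x, hx⟩ := FA.EC.exists_root_Ψ₃ (W.map (Int.castRingHom ℚ)) hred
  obtain ⟨s, hs0, hs⟩ := FA.EC.exists_param_three _ x hx
  rw [map_c₄, map_Δ, eq_intCast, eq_intCast] at hs
  set u := s.num with hudef
  set v : ℤ := (s.den : ℤ) with hvdef
  have huv : IsCoprime u v := Int.isCoprime_iff_nat_coprime.2 s.reduced
  have hts : (v : ℚ) * s = (u : ℚ) := by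
    rw [hudef, hvdef, Int.cast_natCast]; exact Rat.den_mul_eq_num s
  have main : W.c₄ ^ 3 * (u * v ^ 3) = (u + 27 * v) * (u + 3 * v) ^ 3 * W.Δ := by
    apply Int.cast_injective (α := ℚ)
    push_cast
    rw [← hts]
    linear_combination (v : ℚ) ^ 4 * hs
  have hcd := FA.Switch.isCoprime_c₄_Δ h.ne_zero h.semistable
  obtain ⟨κ, hκ⟩ : W.Δ ∣ u * v ^ 3 :=
    (hcd.pow_right (n := 3)).dvd_of_dvd_mul_left (Dvd.intro_left _ main.symm)
  have main' : W.c₄ ^ 3 * κ = (u + 27 * v) * (u + 3 * v) ^ 3 :=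
    mul_right_cancel₀ h.ne_zero (by rw [← main, hκ]; ring)
  have hκu : κ ∣ u := by
    refine (IsCoprime.pow_right (n := 3) ?_).dvd_of_dvd_mul_right (Dvd.intro_left W.Δ hκ.symm)
    have hco : IsCoprime ((u + 27 * v) * (u + 3 * v) ^ 3) v :=
      (huv.add_mul_right_left 27).mul_left (huv.add_mul_right_left 3).pow_left
    exact hco.of_isCoprime_of_dvd_left (Dvd.intro_left _ main')
  have hκ729 : κ ∣ 729 := by
    have h1 : κ ∣ 729 * v ^ 4 := by
      rw [show 729 * v ^ 4 = (u + 27 * v) * (u + 3 * v) ^ 3 -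
        u * (u ^ 3 + 36 * u ^ 2 * v + 270 * u * v ^ 2 + 756 * v ^ 3) by ring]
      exact dvd_sub (Dvd.intro_left _ main') (hκu.mul_right _)
    exact ((huv.of_isCoprime_of_dvd_left hκu).pow_right).dvd_of_dvd_mul_right h1
  have hC : u ^ 2 + 18 * u * v - 27 * v ^ 2 ≠ 0 := fun e0 => by
    have hv1 : v = 1 := by
      have hd : v ∣ u ^ 2 := ⟨27 * v - 18 * u, by linear_combination e0⟩
      rcases Int.isUnit_iff.1 (huv.symm.pow_right.isUnit_of_dvd hd) with e | e
      · exact e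
      · omega
    rw [hv1] at e0
    have : -40 < u ∧ u < 40 := ⟨by nlinarith, by nlinarith⟩
    obtain ⟨h1, h2⟩ := this
    interval_cases u <;> omega
  have hC6 : κ * W.c₆ ^ 2 = (u ^ 2 + 18 * u * v - 27 * v ^ 2) ^ 2 := by
    linear_combination κ * W.c_relation + main' - 1728 * (-hκ)
  have h3Δ : ¬(3 : ℤ) ∣ W.Δ := fun hd => by
    have := (h.bad 3 Nat.prime_three).1 (by exact_mod_cast hd)
    omega
  have hsplit : ∀ {U V : ℤ}, IsCoprime U V → U * V ^ 3 = W.Δ →
      (U.natAbs = 1 ∧ (∃ j, n = 3 * j ∧ V.natAbs = p ^ j) ∨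
        V.natAbs = 1 ∧ U.natAbs = p ^ n) := fun hUV e =>
    split_prime_pow hp (by norm_num) hUV (by rw [e, hk])
  -- the two cases giving the curves
  rcases square_dvd_729 (isSquare_of_mul_sq hC hC6) hκ729 with rfl | rfl | rfl | rfl
  · rw [mul_one] at hκ main'
    have h3v : u + 3 * v ∣ W.c₄ :=
      (Int.pow_dvd_pow_iff three_ne_zero).1 (main' ▸ dvd_mul_left _ _)
    obtain ⟨c, hc⟩ := h3v
    have hz0 : u + 3 * v ≠ 0 := fun e0 => h.c₄_ne_zero (by rw [hc, e0, zero_mul])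
    have hc3 : c ^ 3 = u + 27 * v := by
      refine mul_left_cancel₀ (pow_ne_zero 3 hz0) ?_
      rw [hc] at main'
      linear_combination main'
    rcases hsplit huv hκ with ⟨h1, j, hj, h2⟩ | ⟨h1, h2⟩
    · refine three_conclusion h (z := u * v) (Or.inl ?_)
        (three_cube_fst hp (by omega) h1 h2 hc3)
      have hu2 : u ^ 2 = 1 := by rw [← Int.natAbs_sq, h1]; rfl
      rw [← hκ]
      linear_combination (-(u * v ^ 3)) * hu2
    · refine three_conclusion h (z := u * v) (Or.inr ?_) (three_cube_snd hp h11 h1 h2 hc3)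
      have hv2 : v ^ 2 = 1 := by rw [← Int.natAbs_sq, h1]; rfl
      rw [← hκ]
      linear_combination (u * v) * hv2
  all_goals obtain ⟨u', hu'⟩ := hκu
  all_goals rw [hu'] at hκ main' huv hC6
  all_goals have huv' : IsCoprime u' v := huv.of_mul_left_right
  all_goals have hprod : u' * v ^ 3 = W.Δ :=
              mul_right_cancel₀ (by norm_num) (Eq.trans (by ring) hκ)
  all_goals have h3v : ¬(3 : ℤ) ∣ v :=
              fun hd => h3Δ (hprod ▸ ((dvd_pow hd three_ne_zero).mul_left _))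
  all_goals have h3p := Int.prime_three
  · exfalso
    have e : W.c₄ ^ 3 = 27 * ((u' + 3 * v) * (3 * u' + v) ^ 3) :=
      mul_left_cancel₀ (show (9 : ℤ) ≠ 0 by norm_num) (by linear_combination main')
    have hc : (3 : ℤ) ∣ W.c₄ := h3p.dvd_of_dvd_pow (n := 3)
      ⟨9 * ((u' + 3 * v) * (3 * u' + v) ^ 3), by linear_combination e⟩
    obtain ⟨t, ht⟩ := dvd_c₆_of_three_dvd hc
    have e6 : 9 * t ^ 2 = (3 * u' ^ 2 + 6 * u' * v - v ^ 2) ^ 2 := by
      rw [ht] at hC6
      linarith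
    have h3 : (3 : ℤ) ∣ 3 * u' ^ 2 + 6 * u' * v - v ^ 2 :=
      h3p.dvd_of_dvd_pow (n := 2) ⟨3 * t ^ 2, by linear_combination -e6⟩
    refine h3v (h3p.dvd_of_dvd_pow (n := 2) ?_)
    have := dvd_sub (dvd_mul_right (3 : ℤ) (u' ^ 2 + 2 * u' * v)) h3
    ring_nf at this ⊢
    exact this
  · exfalso
    have e : W.c₄ ^ 3 = 9 * ((3 * u' + v) * (27 * u' + v) ^ 3) :=
      mul_left_cancel₀ (show (81 : ℤ) ≠ 0 by norm_num) (by linear_combination main')
    have hc : (3 : ℤ) ∣ W.c₄ := h3p.dvd_of_dvd_pow (n := 3)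
      ⟨3 * ((3 * u' + v) * (27 * u' + v) ^ 3), by linear_combination e⟩
    have h27 : (27 : ℤ) ∣ W.c₄ ^ 3 := by simpa using pow_dvd_pow_of_dvd hc 3
    rw [e, show (27 : ℤ) = 9 * 3 by norm_num] at h27
    have hnot : ∀ a : ℤ, 3 ∣ a * u' + v → 3 ∣ a → False := fun a ha ha' =>
      h3v ((dvd_add_right (ha'.mul_right u')).1 ha)
    rcases h3p.dvd_or_dvd ((mul_dvd_mul_iff_left (by norm_num)).1 h27) with h' | h'
    · exact hnot 3 h' dvd_rfl
    · exact hnot 27 (h3p.dvd_of_dvd_pow h') (by norm_num)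
  · have e : W.c₄ ^ 3 = (27 * u' + v) * (243 * u' + v) ^ 3 :=
      mul_left_cancel₀ (show (729 : ℤ) ≠ 0 by norm_num) (by linear_combination main')
    obtain ⟨c, hc⟩ : 243 * u' + v ∣ W.c₄ :=
      (Int.pow_dvd_pow_iff three_ne_zero).1 (e ▸ dvd_mul_left _ _)
    have hz0 : 243 * u' + v ≠ 0 := fun e0 => h.c₄_ne_zero (by rw [hc, e0, zero_mul])
    have hc3 : c ^ 3 = v + 27 * u' := by
      refine mul_left_cancel₀ (pow_ne_zero 3 hz0) ?_
      rw [hc] at e
      linear_combination e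
    rcases hsplit huv' hprod with ⟨h1, j, hj, h2⟩ | ⟨h1, h2⟩
    · refine three_conclusion h (z := v * u') (Or.inl ?_) (three_cube_snd hp h11 h1 h2 hc3)
      have hu2 : u' ^ 2 = 1 := by rw [← Int.natAbs_sq, h1]; rfl
      rw [← hprod]
      linear_combination (-(u' * v ^ 3)) * hu2
    · refine three_conclusion h (z := v * u') (Or.inr ?_) (three_cube_fst hp hn h1 h2 hc3)
      have hv2 : v ^ 2 = 1 := by rw [← Int.natAbs_sq, h1]; rfl
      rw [← hprod]
      linear_combination (u' * v) * hv2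

end FA.SetzerNeumann

end
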