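import Fermat.Agent.SetzerNeumann.Common

/-!
# A point of order five or seven: only `p = 11`, at order five

Tate's normal forms with coprime parameters, compared through `j`.
-/

set_option autoImplicit false

noncomputable section

open WeierstrassCurve FA.Frob
open FA.Thirteen (tateCurve)

namespace FA.SetzerNeumann

theorem five_residue : ∀ x y : ZMod 5, x ^ 2 - 11 * x * y - y ^ 2 = 0 → (x ≠ 0 ∨ y ≠ 0) →
    y ^ 3 * (11 * x + y) ≠ 0 := by
  decide

theorem two_residue : ∀ x y : ZMod 2, (x ≠ 0 ∨ y ≠ 0) →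
    x ^ 2 * (x - y) * y ^ 3 = 0 ∧ y ^ 2 - x ^ 2 + x * y = 1 := by
  decide

/-- Equal `j`-invariants, cross-multiplied. -/
theorem j_cross {W V : WeierstrassCurve ℚ} [W.IsElliptic] [V.IsElliptic] (h : V.j = W.j) :
    V.c₄ ^ 3 * W.Δ = W.c₄ ^ 3 * V.Δ := by
  have hW := W.isUnit_Δ.ne_zero
  have hV := V.isUnit_Δ.ne_zero
  rw [j, j, Units.val_inv_eq_inv_val, Units.val_inv_eq_inv_val, coe_Δ', coe_Δ'] at h
  field_simp at h
  linarith

variable {W : WeierstrassCurve ℤ} {p : ℕ}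

/-- The bad primes of a proportional integral pair. -/
theorem eq_of_dvd (h : OneBadPrime W p) {c D : ℤ} (hj : c ^ 3 * W.Δ = W.c₄ ^ 3 * D) {q : ℕ}
    (hq : q.Prime) (hD : (q : ℤ) ∣ D) (hc : ¬(q : ℤ) ∣ c) : q = p := by
  have hqi := Nat.prime_iff_prime_int.1 hq
  refine (h.bad q hq).1 ((hqi.dvd_or_dvd (hj ▸ hD.mul_left (W.c₄ ^ 3))).resolve_left fun h' => ?_)
  exact hc (hqi.dvd_of_dvd_pow h')

/-- The parameters `m / n` of the normal form with a point of order five. -/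
theorem five_params (h : OneBadPrime W p) {m n : ℤ} (hn : 0 < n) (hmn : IsCoprime m n)
    (hm : m ≠ 0)
    (hj : (m ^ 4 - 12 * m ^ 3 * n + 14 * m ^ 2 * n ^ 2 + 12 * m * n ^ 3 + n ^ 4) ^ 3 * W.Δ =
      W.c₄ ^ 3 * ((m * n) ^ 5 * (m ^ 2 - 11 * m * n - n ^ 2))) : p = 11 := by
  obtain ⟨h11, h13⟩ := h.bound
  set c := m ^ 4 - 12 * m ^ 3 * n + 14 * m ^ 2 * n ^ 2 + 12 * m * n ^ 3 + n ^ 4 with hcdef
  set Q := m ^ 2 - 11 * m * n - n ^ 2 with hQdef
  have hdec : c = (m ^ 2 - m * n + 4 * n ^ 2) * Q + 5 * (n ^ 3 * (11 * m + n)) := by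
    rw [hcdef, hQdef]; ring
  have hboth : ∀ q : ℕ, q.Prime → (q : ℤ) ∣ m → (q : ℤ) ∣ n → False := fun q hq h1 h2 =>
    (Nat.prime_iff_prime_int.1 hq).not_isUnit (hmn.isUnit_of_dvd' h1 h2)
  have hm_supp : ∀ q : ℕ, q.Prime → (q : ℤ) ∣ m → q = p := fun q hq hd =>
    eq_of_dvd h hj hq (((hd.mul_right n).trans (dvd_pow_self _ (by norm_num))).mul_right _)
      fun hc => hboth q hq hd ((Nat.prime_iff_prime_int.1 hq).dvd_of_dvd_pow (n := 4) (by
        have := dvd_sub hc (hd.mul_right (m ^ 3 - 12 * m ^ 2 * n + 14 * m * n ^ 2 + 12 * n ^ 3))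
        convert this using 1
        rw [hcdef]; ring))
  have hn_supp : ∀ q : ℕ, q.Prime → (q : ℤ) ∣ n → q = p := fun q hq hd =>
    eq_of_dvd h hj hq (((hd.mul_left m).trans (dvd_pow_self _ (by norm_num))).mul_right _)
      fun hc => hboth q hq ((Nat.prime_iff_prime_int.1 hq).dvd_of_dvd_pow (n := 4) (by
        have := dvd_sub hc (hd.mul_right (n ^ 3 + 12 * m * n ^ 2 + 14 * m ^ 2 * n - 12 * m ^ 3))
        convert this using 1
        rw [hcdef]; ring)) hd
  have hQ_supp : ∀ q : ℕ, q.Prime → (q : ℤ) ∣ Q → q = 5 ∨ q = p := fun q hq hd => by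
    by_cases hc : (q : ℤ) ∣ c
    swap
    · exact Or.inr (eq_of_dvd h hj hq (hd.mul_left _) hc)
    left
    have hqi := Nat.prime_iff_prime_int.1 hq
    have h5 : (q : ℤ) ∣ 5 * (n ^ 3 * (11 * m + n)) := by
      have := dvd_sub hc (hd.mul_left (m ^ 2 - m * n + 4 * n ^ 2))
      rwa [hdec, add_sub_cancel_left] at this
    rcases hqi.dvd_or_dvd h5 with h' | h'
    · exact (Nat.prime_dvd_prime_iff_eq hq (by norm_num)).1 (by exact_mod_cast h')
    · exfalso
      rcases hqi.dvd_or_dvd h' with h'' | h''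
      · have hqn := hqi.dvd_of_dvd_pow h''
        refine hboth q hq (hqi.dvd_of_dvd_pow (n := 2) ?_) hqn
        have := dvd_add hd (hqn.mul_right (11 * m + n))
        convert this using 1
        rw [hQdef]; ring
      · have hqm : (q : ℤ) ∣ m := hqi.dvd_of_dvd_pow (n := 2) (by
          have := dvd_add hd (h''.mul_right n)
          convert this using 1
          rw [hQdef]; ring)
        exact hboth q hq hqm (by simpa using dvd_sub h'' (hqm.mul_left 11))
  by_cases hp : (p : ℤ) ∣ m * n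
  · have hpQ : ¬(p : ℤ) ∣ Q := fun hd => by
      have hpi := Nat.prime_iff_prime_int.1 h.prime
      rcases hpi.dvd_or_dvd hp with h' | h'
      · refine hboth p h.prime h' (hpi.dvd_of_dvd_pow (n := 2) ?_)
        have := dvd_sub (h'.mul_right (m - 11 * n)) hd
        convert this using 1
        rw [hQdef]; ring
      · refine hboth p h.prime (hpi.dvd_of_dvd_pow (n := 2) ?_) h'
        have := dvd_add hd (h'.mul_right (11 * m + n))
        convert this using 1
        rw [hQdef]; ring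
    have hQ125 : Q ∣ 125 := by
      have hQ0 : Q ≠ 0 := fun e => hpQ (e ▸ dvd_zero _)
      have h5Δ : ¬((5 : ℕ) : ℤ) ∣ W.Δ := fun hd => by
        have := (h.bad 5 (by norm_num)).1 hd
        omega
      obtain ⟨i, hi⟩ := exists_natAbs_eq_pow (p := 5) hQ0 fun q hq hd =>
        (hQ_supp q hq hd).resolve_right fun e => hpQ (e ▸ hd)
      rcases le_or_gt i 3 with hi3 | hi3
      · exact Int.natAbs_dvd_natAbs.1 (hi ▸ pow_dvd_pow 5 hi3 : Q.natAbs ∣ (125 : ℤ).natAbs)
      exfalso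
      have hQ4 : (5 : ℤ) ^ 4 ∣ Q := Int.dvd_natAbs.1 (by
        rw [hi]; exact_mod_cast pow_dvd_pow 5 hi3)
      have hc3 : (5 : ℤ) ^ 4 ∣ c ^ 3 := IsCoprime.dvd_of_dvd_mul_right
        (((Int.prime_iff_natAbs_prime.2 (by norm_num)).coprime_iff_not_dvd.2
          (by exact_mod_cast h5Δ)).pow_left)
        (hj ▸ ((hQ4.mul_left ((m * n) ^ 5)).mul_left _))
      obtain ⟨t, ht⟩ := (pow_dvd_pow (5 : ℤ) (show 2 ≤ 4 by norm_num)).trans hQ4
      rw [hdec, ht, show (m ^ 2 - m * n + 4 * n ^ 2) * (5 ^ 2 * t) + 5 * (n ^ 3 * (11 * m + n)) =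
        5 * ((m ^ 2 - m * n + 4 * n ^ 2) * (5 * t) + n ^ 3 * (11 * m + n)) by ring, mul_pow,
        show (5 : ℤ) ^ 4 = 5 ^ 3 * 5 by norm_num, mul_dvd_mul_iff_left (by norm_num)] at hc3
      have hc1 := (Int.prime_iff_natAbs_prime.2 (by norm_num : Nat.Prime (5 : ℤ).natAbs))
        |>.dvd_of_dvd_pow hc3
      have hz : ((n : ZMod 5) ^ 3 * (11 * (m : ZMod 5) + n)) = 0 := by
        have h' := (ZMod.intCast_zmod_eq_zero_iff_dvd _ 5).2 (by exact_mod_cast hc1 :
          ((5 : ℕ) : ℤ) ∣ (m ^ 2 - m * n + 4 * n ^ 2) * (5 * t) + n ^ 3 * (11 * m + n))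
        push_cast at h'
        rwa [show (5 : ZMod 5) = 0 from rfl, zero_mul, mul_zero, zero_add] at h'
      refine five_residue m n ?_ ?_ hz
      · have h' := (ZMod.intCast_zmod_eq_zero_iff_dvd Q 5).2
          (by exact_mod_cast (dvd_pow_self (5 : ℤ) (by norm_num : 4 ≠ 0)).trans hQ4)
        rw [hQdef] at h'
        push_cast at h'
        exact h'
      · by_contra hcon
        push Not at hcon
        exact hboth 5 (by norm_num) ((ZMod.intCast_zmod_eq_zero_iff_dvd _ 5).1 hcon.1)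
          ((ZMod.intCast_zmod_eq_zero_iff_dvd _ 5).1 hcon.2)
    have hb : -125 ≤ Q ∧ Q ≤ 125 := abs_le.1 (Int.le_of_dvd (by norm_num) ((abs_dvd _ _).2 hQ125))
    have key : ∀ t : ℤ, (p : ℤ) ∣ t → t ≠ 0 → -125 ≤ t ^ 2 - 11 * t - 1 →
        t ^ 2 - 11 * t - 1 ≤ 125 → (t ^ 2 - 11 * t - 1) ∣ 125 → p = 11 := by
      rintro t ⟨s, rfl⟩ ht0 h1 h2 h3
      have hb : -18 ≤ (p : ℤ) * s ∧ (p : ℤ) * s ≤ 18 := ⟨by nlinarith, by nlinarith⟩
      have hs0 : s ≠ 0 := right_ne_zero_of_mul ht0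
      have hs : s = 1 ∨ s = -1 := by
        rcases lt_or_gt_of_ne hs0 with hs | hs
        · exact Or.inr (by nlinarith)
        · exact Or.inl (by nlinarith)
      have hp18 : p ≤ 18 := by rcases hs with rfl | rfl <;> omega
      have hpp := h.prime
      interval_cases p
      all_goals first
        | rfl
        | omega
        | (exfalso; rcases hs with rfl | rfl <;> revert h1 h2 h3 <;> norm_num; done)
        | exact absurd hpp (by norm_num)
    by_cases hpm : (p : ℤ) ∣ m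
    · have hn1 : n = 1 := by
        rcases natAbs_eq_one hn_supp (fun hd => hboth p h.prime hpm hd) with e | e <;> omega
      rw [hQdef, hn1] at hb hQ125
      exact key m hpm hm (by linarith [hb.1]) (by linarith [hb.2])
        ((dvd_of_eq (by ring)).trans hQ125)
    · have hpn := ((Nat.prime_iff_prime_int.1 h.prime).dvd_or_dvd hp).resolve_left hpm
      rcases natAbs_eq_one hm_supp hpm with e | e <;> rw [hQdef, e] at hb hQ125
      · refine key (-n) (dvd_neg.2 hpn) (neg_ne_zero.2 hn.ne') ?_ ?_ ?_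
        · linarith [hb.2]
        · linarith [hb.1]
        · exact neg_dvd.1 ((dvd_of_eq (by ring)).trans hQ125)
      · refine key n hpn hn.ne' ?_ ?_ ?_
        · linarith [hb.2]
        · linarith [hb.1]
        · exact neg_dvd.1 ((dvd_of_eq (by ring)).trans hQ125)
  · have hm1 := natAbs_eq_one hm_supp fun hd => hp (hd.mul_right n)
    have hn1 : n = 1 := by
      rcases natAbs_eq_one hn_supp (fun hd => hp (hd.mul_left m)) with e | e <;> omega
    refine (eq_of_dvd h hj (q := 11) (by norm_num) ?_ ?_).symm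
    · refine Dvd.dvd.mul_left ?_ _
      rcases hm1 with e | e <;> rw [hQdef, e, hn1] <;> norm_num
    · rcases hm1 with e | e <;> rw [hcdef, e, hn1] <;> norm_num

/-- **A point of order five only for `11`.** -/
theorem prime_of_five (h : OneBadPrime W p) (P : (ratCurve W).toAffine.Point)
    (hP : addOrderOf P = 5) : p = 11 := by
  have := ratCurve_isElliptic_of_Δ h.ne_zero
  have hne : ∀ k : ℕ, 0 < k → k < 5 → k • P ≠ 0 := fun k hk hk' e =>
    Nat.not_dvd_of_pos_of_lt hk (hP ▸ hk') (addOrderOf_dvd_of_nsmul_eq_zero e)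
  obtain ⟨b, c, h0, hE, e, he, hj⟩ :=
    FA.Torsion.exists_tate_j P (hne 2 (by norm_num) (by norm_num))
      (hne 3 (by norm_num) (by norm_num))
  have hO := (FA.Torsion.addOrderOf_equiv he).trans hP
  set O : (tateCurve b c).toAffine.Point := Affine.Point.some 0 0 h0
  have h5 : (3 : ℕ) • O = -((2 : ℕ) • O) := by
    rw [eq_neg_iff_add_eq_zero, ← add_nsmul, show 3 + 2 = addOrderOf O from hO.symm,
      addOrderOf_nsmul_eq_zero]
  obtain ⟨h3', e3⟩ := FA.Torsion.tate_three (b := b) (c := c) (h0 := h0)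
  obtain ⟨h2', e2⟩ := FA.Torsion.tate_two (b := b) (c := c) (h0 := h0)
  rw [e3, e2, Affine.Point.neg_some, Affine.Point.some.injEq] at h5
  obtain rfl := h5.1
  have hc0 : c ≠ 0 := FA.Torsion.tate_b_ne_zero c c
  have hn : (c.den : ℚ) ≠ 0 := Nat.cast_ne_zero.2 c.den_nz
  refine five_params h (m := c.num) (n := c.den) (by exact_mod_cast c.pos)
    (Int.isCoprime_iff_nat_coprime.2 c.reduced) (Rat.num_ne_zero.2 hc0) ?_
  refine Int.cast_injective (α := ℚ) ?_
  have hx := j_cross hj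
  rw [(cast_invariants W).1, (cast_invariants W).2] at hx
  have hm : (c.num : ℚ) = c * c.den := c.mul_den_eq_num.symm
  push_cast
  rw [hm]
  simp only [tateCurve, c₄, Δ, b₂, b₄, b₆, b₈] at hx ⊢
  linear_combination (c.den : ℚ) ^ 12 * hx

/-- **No point of order seven.** -/
theorem no_seven (h : OneBadPrime W p) (P : (ratCurve W).toAffine.Point) :
    addOrderOf P ≠ 7 := fun hP => by
  have := ratCurve_isElliptic_of_Δ h.ne_zero
  have hne : ∀ k : ℕ, 0 < k → k < 7 → k • P ≠ 0 := fun k hk hk' e =>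
    Nat.not_dvd_of_pos_of_lt hk (hP ▸ hk') (addOrderOf_dvd_of_nsmul_eq_zero e)
  obtain ⟨b, c, h0, hE, e, he, hj⟩ :=
    FA.Torsion.exists_tate_j P (hne 2 (by norm_num) (by norm_num))
      (hne 3 (by norm_num) (by norm_num))
  have hO := (FA.Torsion.addOrderOf_equiv he).trans hP
  set O : (tateCurve b c).toAffine.Point := Affine.Point.some 0 0 h0
  obtain ⟨h3', e3⟩ := FA.Torsion.tate_three (b := b) (c := c) (h0 := h0)
  have hc : c ≠ 0 := by
    rintro rfl
    obtain ⟨hn', en⟩ := FA.Torsion.tate_neg (b := b) (c := (0 : ℚ)) (h0 := h0)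
    have h4 : (4 : ℕ) • O = 0 := by
      rw [succ_nsmul, e3, ← eq_neg_iff_add_eq_zero, en, Affine.Point.some.injEq]
      exact ⟨rfl, sub_zero b⟩
    exact Nat.not_dvd_of_pos_of_lt (by norm_num) (by rw [hO]; norm_num)
      (addOrderOf_dvd_of_nsmul_eq_zero h4)
  have h7 : (4 : ℕ) • O = -((3 : ℕ) • O) := by
    rw [eq_neg_iff_add_eq_zero, ← add_nsmul, show 4 + 3 = addOrderOf O from hO.symm,
      addOrderOf_nsmul_eq_zero]
  obtain ⟨h4', e4⟩ := FA.Torsion.tate_four (b := b) (c := c) (h0 := h0) hc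
  rw [e4, e3, Affine.Point.neg_some, Affine.Point.some.injEq] at h7
  obtain ⟨r, rfl⟩ : ∃ r, b = r * c := ⟨b / c, (div_mul_cancel₀ b hc).symm⟩
  have hr : c = r * (r - 1) := by
    have := h7.1
    rw [mul_div_cancel_right₀ r hc] at this
    exact this.symm
  set m := r.num
  set n : ℤ := (r.den : ℤ)
  have hmn : IsCoprime m n := Int.isCoprime_iff_nat_coprime.2 r.reduced
  obtain ⟨V, hV⟩ : ∃ V : WeierstrassCurve ℤ,
      V = ⟨n ^ 2 - m ^ 2 + m * n, -(m ^ 2 * (m - n) * n), -(m ^ 2 * (m - n) * n ^ 3), 0, 0⟩ :=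
    ⟨_, rfl⟩
  have hjV : V.c₄ ^ 3 * W.Δ = W.c₄ ^ 3 * V.Δ := by
    refine Int.cast_injective (α := ℚ) ?_
    have hx := j_cross hj
    rw [(cast_invariants W).1, (cast_invariants W).2, hr] at hx
    have hm : (m : ℚ) = r * r.den := r.mul_den_eq_num.symm
    have hn : (n : ℚ) = r.den := Int.cast_natCast r.den
    set E := tateCurve (r * (r * (r - 1))) (r * (r - 1)) with hE'
    have e4 : (V.c₄ : ℚ) = (r.den : ℚ) ^ 8 * E.c₄ := by
      rw [hE', hV, c₄, c₄, b₂, b₂, b₄, b₄]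
      simp only [tateCurve]
      push_cast
      rw [hm, hn]
      ring
    have eD : (V.Δ : ℚ) = (r.den : ℚ) ^ 24 * E.Δ := by
      rw [hE', hV, FA.Thirteen.Δ_tateCurve, Δ, b₂, b₄, b₆, b₈]
      push_cast
      rw [hm, hn]
      ring
    push_cast
    rw [e4, eD]
    linear_combination (r.den : ℚ) ^ 24 * hx
  have hne2 : (m : ZMod 2) ≠ 0 ∨ (n : ZMod 2) ≠ 0 := by
    by_contra hcon
    push Not at hcon
    exact Int.prime_two.not_isUnit (hmn.isUnit_of_dvd'
      ((ZMod.intCast_zmod_eq_zero_iff_dvd _ 2).1 hcon.1)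
      ((ZMod.intCast_zmod_eq_zero_iff_dvd _ 2).1 hcon.2))
  obtain ⟨k1, k2⟩ := two_residue m n hne2
  have h2 : (2 : ZMod 2) = 0 := rfl
  have hD : ((2 : ℕ) : ℤ) ∣ V.Δ := (ZMod.intCast_zmod_eq_zero_iff_dvd _ 2).1 (by
    rw [hV]
    simp only [Δ, b₂, b₄, b₆, b₈]
    push_cast
    rw [k1]
    simp)
  have hC : ¬((2 : ℕ) : ℤ) ∣ V.c₄ := fun hd => by
    have h' := (ZMod.intCast_zmod_eq_zero_iff_dvd _ 2).2 hd
    rw [hV] at h'
    simp only [c₄, b₂, b₄] at h'
    push_cast at h'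
    rw [k2, k1, show (4 : ZMod 2) = 0 from rfl, show (24 : ZMod 2) = 0 from rfl] at h'
    simp at h'
  have := eq_of_dvd h hjV Nat.prime_two hD hC
  have := h.bound.1
  omega

end FA.SetzerNeumann

end
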