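import Fermat.Agent.Curve17.Descent
import Fermat.Agent.CongruentNumber.Prime
import Mathlib.Tactic.LinearCombination

/-!
# The square classes of the abscissae on the curves of Setzer and Neumann

For a prime `p = a² + 64` with `a ≡ 1 (mod 4)` the abscissae on `y² = x (x² + a x - 16)` are squares
up to sign, the classes `± 2` being impossible modulo `16`, and those on `y² = x (x² - 2 a x + p)`
are squares or `p` times squares, being positive.
-/

set_option autoImplicit false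

noncomputable section

namespace FA.SetzerNeumann

/-- The numerator and denominator of an abscissa. -/
theorem exists_numerator {A B : ℤ} {x y : ℚ}
    (e : y ^ 2 = x ^ 3 + (A : ℚ) * x ^ 2 + (B : ℚ) * x) (hx : x ≠ 0) :
    ∃ N r f : ℤ, IsCoprime N r ∧ r ≠ 0 ∧ N ≠ 0 ∧ x = (N : ℚ) / (r : ℚ) ^ 2 ∧
      N * (N ^ 2 + A * N * r ^ 2 + B * r ^ 4) = f ^ 2 := by
  have hd : (0 : ℤ) < x.den := by exact_mod_cast x.den_pos
  have hnd : (x.num : ℚ) = x * ((x.den : ℤ) : ℚ) := by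
    exact_mod_cast (Rat.mul_den_eq_num x).symm
  have hco : IsCoprime x.num (x.den : ℤ) := by
    rw [Int.isCoprime_iff_gcd_eq_one, Int.gcd, Int.natAbs_natCast]
    exact x.reduced
  set N := x.num with hN
  set d : ℤ := (x.den : ℤ)
  obtain ⟨W, hW⟩ : IsSquare (d * (N * (N ^ 2 + A * N * d + B * d ^ 2))) := by
    refine Rat.isSquare_intCast_iff.1 ⟨y * ((d : ℤ) : ℚ) ^ 2, ?_⟩
    push_cast
    rw [hnd]
    linear_combination -((d : ℤ) : ℚ) ^ 4 * e
  rw [← sq] at hW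
  have hc : IsCoprime d (N * (N ^ 2 + A * N * d + B * d ^ 2)) := by
    refine hco.symm.mul_right ?_
    have := (hco.pow_left (m := 2)).symm.add_mul_left_right (A * N + B * d)
    rwa [show N ^ 2 + d * (A * N + B * d) = N ^ 2 + A * N * d + B * d ^ 2 by ring] at this
  obtain ⟨r, hr⟩ := FA.CongruentNumber.sq_of_coprime_pos hc hd hW
  have hr0 : r ≠ 0 := fun e0 => hd.ne' (by rw [hr, e0]; norm_num)
  obtain ⟨g, rfl⟩ : r ∣ W :=
    (Int.pow_dvd_pow_iff two_ne_zero).1 (hW ▸ hr ▸ dvd_mul_right _ _)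
  refine ⟨N, r, g, ?_, hr0, Rat.num_ne_zero.2 hx, ?_, ?_⟩
  · exact (IsCoprime.pow_right_iff two_pos).1 (hr ▸ hco)
  · rw [eq_div_iff (pow_ne_zero 2 (Int.cast_ne_zero.2 hr0)), ← Int.cast_pow, ← hr, ← hnd]
  · rw [hr] at hW
    exact mul_left_cancel₀ (pow_ne_zero 2 hr0) (by linear_combination hW)

/-- A prime dividing both factors divides `B`. -/
theorem dvd_of_common {A B N r q : ℤ} (hq : Prime q) (hco : IsCoprime N r) (h1 : q ∣ N)
    (h2 : q ∣ N ^ 2 + A * N * r ^ 2 + B * r ^ 4) : q ∣ B := by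
  have h : q ∣ B * r ^ 4 := by
    have h1' : q ∣ N ^ 2 + A * N * r ^ 2 :=
      dvd_add (dvd_pow h1 two_ne_zero) ((h1.mul_left A).mul_right _)
    have := dvd_sub h2 h1'
    rwa [add_sub_cancel_left] at this
  exact (hq.dvd_or_dvd h).resolve_right fun h' =>
    hq.not_isUnit (hco.isUnit_of_dvd' h1 (hq.dvd_of_dvd_pow h'))

/-- No square `± (2 c⁴) + (4 k + 1) c² r² ∓ 8 r⁴` with `r` odd, read modulo `16`. -/
theorem residue_two : ∀ s : ZMod 16, s = 1 ∨ s = -1 → ∀ t : ZMod 16, t = 1 ∨ t = 9 →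
    ∀ k c w : ZMod 16, w * w ≠ s * (2 * c ^ 4) + (4 * k + 1) * c ^ 2 * t - s * 8 := by
  decide +kernel

/-- **The classes `± 1` only.** -/
theorem classes_one {a : ℤ} (ha : a % 4 = 1) {x y : ℚ}
    (e : y ^ 2 = x ^ 3 + (a : ℚ) * x ^ 2 + ((-16 : ℤ) : ℚ) * x) (hx : x ≠ 0) :
    IsSquare x ∨ IsSquare (-x) := by
  obtain ⟨N, r, f, hco, hr, hN, hxe, hf⟩ := exists_numerator e hx
  obtain ⟨c, hc⟩ := FA.Curve17.sq_or_prime_mul_sq Int.prime_two _ N _ f le_rfl hN hf
    fun q hq h1 h2 => hq.dvd_of_dvd_pow (n := 4)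
      (by simpa using dvd_of_common hq hco h1 h2)
  have two : ∀ s : ℤ, s = 1 ∨ s = -1 → N = s * (2 * c ^ 2) → False := fun s hs hN2 => by
    have hc0 : c ≠ 0 := by
      rintro rfl
      exact hN (by rw [hN2]; ring)
    have h2N : (2 : ℤ) ∣ N := ⟨s * c ^ 2, by rw [hN2]; ring⟩
    have hrodd : Odd r := Int.not_even_iff_odd.1 fun he =>
      Int.prime_two.not_isUnit (hco.isUnit_of_dvd' h2N he.two_dvd)
    obtain ⟨g, hg⟩ : 2 * c ∣ f := (Int.pow_dvd_pow_iff two_ne_zero).1 ⟨2 * c ^ 4 * s +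
        a * c ^ 2 * r ^ 2 - 8 * r ^ 4 * s, by
      rw [← hf, hN2]
      rcases hs with rfl | rfl <;> ring⟩
    have hg2 : g * g = s * (2 * c ^ 4) + a * c ^ 2 * r ^ 2 - s * 8 * r ^ 4 := by
      refine mul_left_cancel₀ (pow_ne_zero 2 (mul_ne_zero two_ne_zero hc0)) ?_
      rw [hN2, hg] at hf
      rcases hs with rfl | rfl <;> linear_combination -hf
    obtain ⟨k, hk⟩ : ∃ k, a = 4 * k + 1 := ⟨a / 4, by omega⟩
    obtain ⟨m, rfl⟩ := hrodd
    obtain ⟨j, hj⟩ := Int.even_mul_succ_self m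
    have ht : (((2 * m + 1) ^ 2 : ℤ) : ZMod 16) = 1 ∨ (((2 * m + 1) ^ 2 : ℤ) : ZMod 16) = 9 := by
      rw [show (2 * m + 1) ^ 2 = 8 * j + 1 by linear_combination 4 * hj]
      push_cast
      generalize (j : ZMod 16) = z
      decide +revert
    have h4 : (((2 * m + 1) ^ 4 : ℤ) : ZMod 16) = 1 := by
      rw [show (2 * m + 1) ^ 4 = ((2 * m + 1) ^ 2) ^ 2 by ring]
      push_cast at ht ⊢
      rcases ht with h | h <;> rw [h] <;> decide
    have := congrArg (Int.cast : ℤ → ZMod 16) hg2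
    rw [hk, Int.cast_sub, Int.cast_add, Int.cast_mul, Int.cast_mul, Int.cast_mul, Int.cast_mul,
      Int.cast_mul, Int.cast_mul, h4, mul_one] at this
    push_cast at this ht
    exact residue_two (s : ZMod 16) (by rcases hs with rfl | rfl <;> simp) _ ht _ _ _ this
  rcases hc with h | h | h | h
  · exact Or.inl ⟨c / r, by rw [hxe, h]; push_cast; ring⟩
  · exact Or.inr ⟨c / r, by rw [hxe, h]; push_cast; ring⟩
  · exact (two 1 (Or.inl rfl) (by rw [h]; ring)).elim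
  · exact (two (-1) (Or.inr rfl) (by rw [h]; ring)).elim

/-- **The classes `1, p` only.** -/
theorem classes_two {p : ℕ} (hp : p.Prime) {a : ℤ} (hpa : (p : ℤ) = a ^ 2 + 64) {x y : ℚ}
    (e : y ^ 2 = x ^ 3 + ((-2 * a : ℤ) : ℚ) * x ^ 2 + ((p : ℤ) : ℚ) * x) (hx : x ≠ 0) :
    IsSquare x ∨ IsSquare ((p : ℚ) * x) := by
  obtain ⟨N, r, f, hco, hr, hN, hxe, hf⟩ := exists_numerator e hx
  have hM : 0 < N ^ 2 + -2 * a * N * r ^ 2 + (p : ℤ) * r ^ 4 := by
    have : 0 < r ^ 4 := by positivity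
    rw [hpa]
    nlinarith [sq_nonneg (N - a * r ^ 2)]
  have hpos : 0 < N := by
    rcases lt_or_gt_of_ne hN with h | h
    · nlinarith [sq_nonneg f]
    · exact h
  have hpi := Nat.prime_iff_prime_int.1 hp
  obtain ⟨c, h | h | h | h⟩ := FA.Curve17.sq_or_prime_mul_sq hpi _ N _ f le_rfl hN hf
    fun q hq h1 h2 => dvd_of_common hq hco h1 h2
  · exact Or.inl ⟨c / r, by rw [hxe, h]; push_cast; ring⟩
  · nlinarith [sq_nonneg c]
  · exact Or.inr ⟨p * c / r, by rw [hxe, h]; push_cast; ring⟩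
  · nlinarith [mul_nonneg (Int.natCast_nonneg p) (sq_nonneg c)]

end FA.SetzerNeumann

end
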