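import Fermat.Agent.SetzerNeumann.TwoIsogeny
import Fermat.Agent.SetzerNeumann.DescentClasses

/-!
# The curves of Setzer and Neumann have finitely many points

The descent applies to `y² = x (x² + a x - 16)` and its isogenous curve when `a ≡ 1 (mod 4)` and
`a² + 64` is a prime.
-/

set_option autoImplicit false
set_option linter.style.haveILetI false

noncomputable section

open WeierstrassCurve
open FA.CM.Seven (twoCurve twoCurve_equation twoCurve_negY isogHom isogHom_apply isogFun_some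
  isogFun_some_zero)
open FA.Frob (vcEquiv)

namespace FA.SetzerNeumann

variable {a b : ℚ} [(twoCurve a b).IsElliptic] [(twoCurve (-2 * a) (a ^ 2 - 4 * b)).IsElliptic]

/-- Twice `(0, 0)` vanishes. -/
theorem two_nsmul_zeroPoint {a b : ℚ} [(twoCurve a b).IsElliptic] : 2 • zeroPoint a b = 0 := by
  rw [two_nsmul, zeroPoint]
  exact Affine.Point.add_self_of_Y_eq (by simp)

/-- **Finiteness from the smallest images**, on both curves. -/
theorem isOfFinAddOrder_of_classes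
    (h1 : ∀ x y : ℚ, x ≠ 0 → y ^ 2 = x ^ 3 + a * x ^ 2 + b * x → IsSquare x ∨ IsSquare (b * x))
    (h2 : ∀ x y : ℚ, x ≠ 0 → y ^ 2 = x ^ 3 + (-2 * a) * x ^ 2 + (a ^ 2 - 4 * b) * x →
      IsSquare x ∨ IsSquare ((a ^ 2 - 4 * b) * x)) :
    (∀ P : (twoCurve a b).toAffine.Point, IsOfFinAddOrder P) ∧
      ∀ P : (twoCurve (-2 * a) (a ^ 2 - 4 * b)).toAffine.Point, IsOfFinAddOrder P := by
  have h4 : IsSquare (4 : ℚ) := ⟨2, by norm_num⟩
  have hbi : ∀ x y : ℚ, x ≠ 0 → y ^ 2 = x ^ 3 + (-2 * (-2 * a)) * x ^ 2 +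
      ((-2 * a) ^ 2 - 4 * (a ^ 2 - 4 * b)) * x →
      IsSquare x ∨ IsSquare (((-2 * a) ^ 2 - 4 * (a ^ 2 - 4 * b)) * x) := fun x y hx e => by
    rcases h1 (x / 4) (y / 8) (div_ne_zero hx four_ne_zero) (by linear_combination e / 64) with
      h | h
    · exact Or.inl (by simpa [mul_div_cancel₀] using h4.mul h)
    · refine Or.inr ?_
      rw [show ((-2 * a) ^ 2 - 4 * (a ^ 2 - 4 * b)) * x = 4 * 4 * 4 * (b * (x / 4)) by ring]
      exact ((h4.mul h4).mul h4).mul h
  have hhalf : ∀ P : (twoCurve a b).toAffine.Point, ∃ R, IsOfFinAddOrder (P - 2 • R) := fun P => by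
    let v : (twoCurve a b).toAffine.Point ≃+
        (twoCurve (-2 * (-2 * a)) ((-2 * a) ^ 2 - 4 * (a ^ 2 - 4 * b))).toAffine.Point :=
      vcEquiv halveScale (halveScale_smul (a := a) (b := b))
    have hv : ∀ Q, backHom (a := a) (b := b) Q = v.symm (isogHom Q) := fun Q => rfl
    obtain ⟨Q, hQ⟩ := exists_image (a := -2 * a) (b := a ^ 2 - 4 * b) hbi (v P)
    obtain ⟨P₂, hP₂⟩ := exists_image (a := a) (b := b) h2 Q
    obtain ⟨R, hR⟩ := exists_back P₂
    have hRQ : backHom (a := a) (b := b) Q = 2 • R := by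
      rcases hP₂ with e | e <;> rw [e] at hR
      · exact hR
      · rwa [map_add, backHom_zeroPoint, add_zero] at hR
    refine ⟨R, ?_⟩
    rw [← hRQ, hv]
    rcases hQ with e | e <;> rw [e]
    · rw [v.symm_apply_apply, sub_self]
      exact IsOfFinAddOrder.zero
    · rw [map_add, v.symm_apply_apply, sub_add_cancel_left]
      refine (isOfFinAddOrder_iff_nsmul_eq_zero.mpr ⟨2, two_pos, ?_⟩).neg
      rw [← map_nsmul, two_nsmul_zeroPoint, map_zero]
  haveI := FA.MordellWeil.mordell (twoCurve a b)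
  have hfin := isOfFinAddOrder_of_halved hhalf
  refine ⟨hfin, fun P => ?_⟩
  obtain ⟨Q, hQ | hQ⟩ := exists_image (a := a) (b := b) h2 P
  · exact hQ ▸ isogHom.isOfFinAddOrder (hfin Q)
  · have := (isogHom.isOfFinAddOrder (hfin Q)).add
      (isOfFinAddOrder_iff_nsmul_eq_zero.mpr
        ⟨2, two_pos, two_nsmul_zeroPoint (a := -2 * a) (b := a ^ 2 - 4 * b)⟩).neg
    rwa [hQ, add_neg_cancel_right] at this

omit [(twoCurve a b).IsElliptic] [(twoCurve (-2 * a) (a ^ 2 - 4 * b)).IsElliptic] in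
/-- **The descent for the Setzer–Neumann pair.** -/
theorem isOfFinAddOrder_pair {p : ℕ} (hp : p.Prime) {m : ℤ} (hm : m % 4 = 1)
    (hpm : (p : ℤ) = m ^ 2 + 64) :
    (∀ P : (twoCurve (m : ℚ) (-16)).toAffine.Point, IsOfFinAddOrder P) ∧
      ∀ P : (twoCurve (-2 * (m : ℚ)) (p : ℚ)).toAffine.Point, IsOfFinAddOrder P := by
  have hpq : (p : ℚ) = (m : ℚ) ^ 2 + 64 := by exact_mod_cast hpm
  have hp0 : (p : ℚ) ≠ 0 := Nat.cast_ne_zero.2 hp.ne_zero
  rw [show (p : ℚ) = (m : ℚ) ^ 2 - 4 * -16 by rw [hpq]; ring]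
  haveI : (twoCurve (m : ℚ) (-16)).IsElliptic := ⟨isUnit_iff_ne_zero.mpr (by
    rw [show (twoCurve (m : ℚ) (-16)).Δ = 16 * 256 * (p : ℚ) by
      simp [Δ, b₂, b₄, b₆, b₈, hpq]; ring]
    simp [hp0])⟩
  haveI : (twoCurve (-2 * (m : ℚ)) ((m : ℚ) ^ 2 - 4 * -16)).IsElliptic :=
    ⟨isUnit_iff_ne_zero.mpr (by
      rw [show (twoCurve (-2 * (m : ℚ)) ((m : ℚ) ^ 2 - 4 * -16)).Δ = -4096 * (p : ℚ) ^ 2 by
        simp [Δ, b₂, b₄, b₆, b₈, hpq]; ring]
      simp [hp0])⟩
  refine isOfFinAddOrder_of_classes (fun x y hx e => ?_) fun x y hx e => ?_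
  · refine (classes_one hm (y := y) (by push_cast; linear_combination e) hx).imp_right fun h => ?_
    rw [show (-16 : ℚ) * x = 16 * -x by ring]
    exact IsSquare.mul ⟨4, by norm_num⟩ h
  · refine (classes_two hp hpm (y := y) (by push_cast; rw [hpq]; linear_combination e) hx).imp_right
      fun h => ?_
    rwa [show (m : ℚ) ^ 2 - 4 * -16 = (p : ℚ) by rw [hpq]; ring]

end FA.SetzerNeumann

end
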