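import Fermat.Agent.SetzerNeumann.Common
import Fermat.Agent.Switch.SquareDisc

/-!
# Splitting a prime power discriminant between two coprime parameters
-/

set_option autoImplicit false

noncomputable section

open WeierstrassCurve

namespace FA.SetzerNeumann

/-- `|u v ^ e| = p ^ n` with `u`, `v` coprime: one of them is a unit. -/
theorem split_prime_pow {p n e : ℕ} (hp : p.Prime) (he : e ≠ 0) {u v : ℤ} (huv : IsCoprime u v)
    (h : (u * v ^ e).natAbs = p ^ n) :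
    u.natAbs = 1 ∧ (∃ j, n = e * j ∧ v.natAbs = p ^ j) ∨ v.natAbs = 1 ∧ u.natAbs = p ^ n := by
  rw [Int.natAbs_mul, Int.natAbs_pow] at h
  have hco : u.natAbs.Coprime v.natAbs := Int.isCoprime_iff_gcd_eq_one.1 huv
  by_cases hv : p ∣ v.natAbs
  · have hu : u.natAbs = 1 := Nat.eq_one_of_dvd_coprimes
      ((hco.coprime_dvd_right hv).pow_right n) dvd_rfl (Dvd.intro _ h)
    rw [hu, one_mul] at h
    obtain ⟨j, -, hj⟩ := (Nat.dvd_prime_pow hp).1 (h ▸ dvd_pow_self v.natAbs he)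
    rw [hj, ← pow_mul] at h
    exact Or.inl ⟨hu, j, by rw [mul_comm]; exact (Nat.pow_right_injective hp.two_le h).symm, hj⟩
  · have hv1 : v.natAbs = 1 := by
      refine Nat.eq_one_of_dvd_coprimes ((((hp.coprime_iff_not_dvd).2 hv).symm).pow_right n)
        dvd_rfl ?_
      exact (dvd_pow_self _ he).trans (Dvd.intro_left _ h)
    rw [hv1, one_pow, mul_one] at h
    exact Or.inr ⟨hv1, h⟩

/-- The discriminant is a positive power of the bad prime. -/
theorem exists_exponent {W : WeierstrassCurve ℤ} {p : ℕ} (h : OneBadPrime W p) :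
    ∃ n : ℕ, n ≠ 0 ∧ W.Δ.natAbs = p ^ n := by
  obtain ⟨n, hn⟩ := exists_natAbs_eq_pow h.ne_zero fun q hq hd => (h.bad q hq).1 hd
  exact ⟨n, fun e => h.prime.one_lt.ne' (Nat.dvd_one.1 (by
    rw [e, pow_zero] at hn
    simpa [hn] using Int.natCast_dvd.1 h.dvd_Δ)), hn⟩

/-- A prime power that is a prime. -/
theorem eq_of_pow_eq {p j q : ℕ} (hq : q.Prime) (h : p ^ j = q) :
    p = q ∧ j = 1 := by
  have hj : j = 1 := Nat.Prime.eq_one_of_pow (h ▸ hq)
  subst hj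
  exact ⟨by simpa using h, rfl⟩

/-- A divisor of a prime power prime to the prime is a unit. -/
theorem unit_of_dvd_pow {p j : ℕ} (hp : p.Prime) {t z : ℤ} (hz : z.natAbs = p ^ j) (hd : t ∣ z)
    (hpt : ¬(p : ℤ) ∣ t) : t = 1 ∨ t = -1 := by
  refine natAbs_eq_one (fun q hq hq' => ?_) hpt
  have : q ∣ p ^ j := hz ▸ Int.natCast_dvd.1 (hq'.trans hd)
  exact (Nat.prime_dvd_prime_iff_eq hq hp).1 (hq.dvd_of_dvd_pow this)

/-- `k a² = b²` with `b ≠ 0` makes `k` a square. -/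
theorem isSquare_of_mul_sq {k a b : ℤ} (hb : b ≠ 0) (h : k * a ^ 2 = b ^ 2) : IsSquare k := by
  have ha : a ≠ 0 := fun e => hb (pow_eq_zero_iff two_ne_zero |>.1 (by rw [← h, e]; ring))
  obtain ⟨c, rfl⟩ : a ∣ b := (Int.pow_dvd_pow_iff two_ne_zero).1 (Dvd.intro_left _ h)
  refine ⟨c, mul_right_cancel₀ (pow_ne_zero 2 ha) ?_⟩
  rw [h]
  ring

/-- A semistable equation with `3 ∣ c₄` has `27 ∣ c₆`. -/
theorem dvd_c₆_of_three_dvd {W : WeierstrassCurve ℤ} (hc : (3 : ℤ) ∣ W.c₄) :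
    (27 : ℤ) ∣ W.c₆ := by
  have hb : (3 : ℤ) ∣ W.b₂ := Int.prime_three.dvd_of_dvd_pow (n := 2) (by
    rw [show W.b₂ ^ 2 = W.c₄ + 3 * (8 * W.b₄) by simp only [WeierstrassCurve.c₄]; ring]
    exact dvd_add hc (dvd_mul_right _ _))
  obtain ⟨m, hm⟩ := hb
  exact ⟨-m ^ 3 + 4 * m * W.b₄ - 8 * W.b₆, by simp only [WeierstrassCurve.c₆, hm]; ring⟩

end FA.SetzerNeumann

end
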