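import Mathlib.NumberTheory.Pell
import Mathlib.RingTheory.PrincipalIdealDomain
import Mathlib.Algebra.Order.Round
import Mathlib.Tactic

/-!
# Cubes among the values of `a² - 3 b²`

`ℤ[√3]` is Euclidean and its units are cubes times a power of `2 + √3`; so `A² - 3 B² = N³` with
`2 A` prime to `N` and `3 ∣ B` makes `A + B √3` a cube.
-/

set_option autoImplicit false

noncomputable section

namespace FA.SetzerNeumann.SqrtThree

/-- The ring `ℤ[√3]`. -/
abbrev Z3 : Type := ℤ√(3 : ℤ)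

theorem three_ne_mul_self (n : ℤ) : (3 : ℤ) ≠ n * n := fun h => by
  have h1 : -2 < n := by nlinarith
  have h2 : n < 2 := by nlinarith
  interval_cases n <;> omega

theorem norm_ne_zero {y : Z3} (hy : y ≠ 0) : y.norm ≠ 0 :=
  fun e => hy ((Zsqrtd.norm_eq_zero three_ne_mul_self y).1 e)

/-- The rounded quotient. -/
def quot (x y : Z3) : Z3 :=
  ⟨round (((x * star y).re : ℚ) / y.norm), round (((x * star y).im : ℚ) / y.norm)⟩

/-- The norm of the remainder is smaller. -/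
theorem norm_rem_lt (x : Z3) {y : Z3} (hy : y ≠ 0) :
    (x - y * quot x y).norm.natAbs < y.norm.natAbs := by
  have hN : (y.norm : ℚ) ≠ 0 := Int.cast_ne_zero.2 (norm_ne_zero hy)
  set X := x * star y with hX
  set a : ℚ := (X.re : ℚ) / y.norm with ha
  set b : ℚ := (X.im : ℚ) / y.norm with hb
  have e1 : (x - y * quot x y) * star y = X - (y.norm : Z3) * quot x y := by
    rw [Zsqrtd.norm_eq_mul_conj, hX]
    ring
  have e2 := congrArg Zsqrtd.norm e1
  rw [Zsqrtd.norm_mul, Zsqrtd.norm_conj] at e2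
  have e3 : ((x - y * quot x y).norm : ℚ) * y.norm =
      (y.norm : ℚ) ^ 2 * ((a - round a) ^ 2 - 3 * (b - round b) ^ 2) := by
    have := congrArg (Int.cast : ℤ → ℚ) e2
    push_cast at this
    rw [this]
    have hqre : (quot x y).re = round a := rfl
    have hqim : (quot x y).im = round b := rfl
    have hA : (X.re : ℚ) = a * y.norm := by rw [ha, div_mul_cancel₀ _ hN]
    have hB : (X.im : ℚ) = b * y.norm := by rw [hb, div_mul_cancel₀ _ hN]
    generalize y.norm = N at hA hB ⊢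
    rw [Zsqrtd.norm_def]
    simp only [Zsqrtd.re_sub, Zsqrtd.im_sub, Zsqrtd.re_mul, Zsqrtd.im_mul, Zsqrtd.re_intCast,
      Zsqrtd.im_intCast, hqre, hqim]
    push_cast
    rw [hA, hB]
    ring
  have h1 : |(a - round a) ^ 2 - 3 * (b - round b) ^ 2| ≤ 3 / 4 := by
    have u1 := abs_le.1 (abs_sub_round a)
    have u2 := abs_le.1 (abs_sub_round b)
    rw [abs_le]
    constructor <;> nlinarith [sq_nonneg (a - round a), sq_nonneg (b - round b)]
  have h2 : |((x - y * quot x y).norm : ℚ)| < |(y.norm : ℚ)| := by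
    have h3 := congrArg abs e3
    rw [abs_mul, abs_mul, abs_pow] at h3
    have hpos : 0 < |(y.norm : ℚ)| := abs_pos.2 hN
    by_contra hle
    push Not at hle
    nlinarith [mul_le_mul_of_nonneg_left h1 (sq_nonneg |(y.norm : ℚ)|),
      mul_le_mul_of_nonneg_right hle hpos.le]
  have h4 : (((x - y * quot x y).norm.natAbs : ℕ) : ℤ) < ((y.norm.natAbs : ℕ) : ℤ) := by
    rw [Int.natCast_natAbs, Int.natCast_natAbs]
    exact_mod_cast h2
  exact_mod_cast h4

/-- `ℤ[√3]` is a domain. -/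
theorem isDomain : IsDomain Z3 :=
  have : NoZeroDivisors Z3 := ⟨fun {a b} h => by
    by_contra hcon
    push Not at hcon
    have := congrArg Zsqrtd.norm h
    rw [Zsqrtd.norm_mul, Zsqrtd.norm_zero] at this
    exact mul_ne_zero (norm_ne_zero hcon.1) (norm_ne_zero hcon.2) this⟩
  NoZeroDivisors.to_isDomain _

/-- `ℤ[√3]` is principal, by the division. -/
theorem isPrincipal : IsPrincipalIdealRing Z3 where
  principal I := by
    classical
    by_cases hI : ∀ y ∈ I, y = 0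
    · exact ⟨0, le_antisymm (fun y hy => by simp [hI y hy]) (by simp)⟩
    push Not at hI
    have hex : ∃ n : ℕ, ∃ y ∈ I, y ≠ 0 ∧ (Zsqrtd.norm y).natAbs = n := by
      obtain ⟨y, hy, hy0⟩ := hI
      exact ⟨_, y, hy, hy0, rfl⟩
    obtain ⟨y, hy, hy0, hn⟩ := Nat.find_spec hex
    refine ⟨y, le_antisymm (fun x hx => Submodule.mem_span_singleton.2 ?_)
      ((Submodule.span_singleton_le_iff_mem y I).2 hy)⟩
    refine ⟨quot x y, ?_⟩
    rw [smul_eq_mul, mul_comm]
    by_contra hne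
    refine Nat.find_min hex (hn ▸ norm_rem_lt x hy0) ⟨_, ?_, ?_, rfl⟩
    · exact I.sub_mem hx (I.mul_mem_right _ hy)
    · exact sub_ne_zero.2 (Ne.symm hne)

/-- `2 + √3`. -/
def eps : Pell.Solution₁ (3 : ℤ) := Pell.Solution₁.mk 2 1 (by norm_num)

theorem eps_fundamental : Pell.IsFundamental eps :=
  ⟨by simp [eps], by simp [eps], fun {b} hb => by simp [eps]; omega⟩

/-- Every unit is a cube times `1`, `2 + √3` or `2 - √3`. -/
theorem unit_mod_cubes {u : Z3} (hu : IsUnit u) :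
    ∃ (v : Z3) (e : Z3), u = v ^ 3 * e ∧ (e = 1 ∨ e = ⟨2, 1⟩ ∨ e = ⟨2, -1⟩) := by
  have hn : u.norm = 1 := by
    rcases Int.natAbs_eq_iff.1 ((Zsqrtd.norm_eq_one_iff).2 hu) with e | e
    · exact e
    · exfalso
      rw [Zsqrtd.norm_def] at e
      have h3 := congrArg (Int.cast : ℤ → ZMod 3) e
      push_cast at h3
      rw [show (3 : ZMod 3) = 0 from rfl, zero_mul, zero_mul, sub_zero] at h3
      exact (show ∀ z : ZMod 3, z * z ≠ -1 by decide) _ h3
  rw [Zsqrtd.norm_def] at hn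
  obtain ⟨k, hk⟩ := eps_fundamental.eq_zpow_or_neg_zpow
    (Pell.Solution₁.mk u.re u.im (by linarith))
  obtain ⟨v, e, hve, he⟩ : ∃ v e : Pell.Solution₁ (3 : ℤ),
      Pell.Solution₁.mk u.re u.im (by linarith) = v * v * v * e ∧
        (e = 1 ∨ e = eps ∨ e = eps⁻¹) := by
    have hcases : k % 3 = 0 ∨ k % 3 = 1 ∨ k % 3 = 2 := by omega
    obtain ⟨q, r, hr, hq⟩ : ∃ q r : ℤ, (r = 0 ∨ r = 1 ∨ r = -1) ∧ k = q + q + q + r := by
      rcases hcases with h | h | h
      · exact ⟨k / 3, 0, Or.inl rfl, by omega⟩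
      · exact ⟨k / 3, 1, Or.inr (Or.inl rfl), by omega⟩
      · exact ⟨k / 3 + 1, -1, Or.inr (Or.inr rfl), by omega⟩
    subst hq
    have he : eps ^ r = 1 ∨ eps ^ r = eps ∨ eps ^ r = eps⁻¹ := by
      rcases hr with rfl | rfl | rfl <;> simp
    rcases hk with hk | hk
    · exact ⟨eps ^ q, eps ^ r, by rw [hk, zpow_add, zpow_add, zpow_add], he⟩
    · exact ⟨-eps ^ q, eps ^ r, by rw [hk, zpow_add, zpow_add, zpow_add]; simp, he⟩
  refine ⟨(v : Z3), (e : Z3), ?_, ?_⟩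
  · calc u = (Pell.Solution₁.mk u.re u.im (by linarith) : Pell.Solution₁ (3 : ℤ)) := by simp
      _ = ((v * v * v * e : Pell.Solution₁ (3 : ℤ)) : Z3) := by rw [hve]
      _ = (v : Z3) * v * v * e := rfl
      _ = (v : Z3) ^ 3 * e := by ring
  · rcases he with rfl | rfl | rfl
    · exact Or.inl rfl
    · exact Or.inr (Or.inl rfl)
    · exact Or.inr (Or.inr rfl)

/-- The components of a cube. -/
theorem cube_re_im (γ : Z3) : (γ ^ 3).re = γ.re ^ 3 + 9 * γ.re * γ.im ^ 2 ∧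
    (γ ^ 3).im = 3 * γ.re ^ 2 * γ.im + 3 * γ.im ^ 3 := by
  constructor <;>
  · simp only [pow_succ, pow_zero, one_mul, Zsqrtd.re_mul, Zsqrtd.im_mul]
    ring

/-- **`A² - 3 B² = N³` with `3 ∣ B`**: `A + B √3` is a cube. -/
theorem exists_cube_root {A B N : ℤ} (hN : A ^ 2 - 3 * B ^ 2 = N ^ 3) (h3 : (3 : ℤ) ∣ B)
    (hco : IsCoprime (2 * A) N) : ∃ x y : ℤ,
      A = x ^ 3 + 9 * x * y ^ 2 ∧ B = 3 * x ^ 2 * y + 3 * y ^ 3 ∧ N = x ^ 2 - 3 * y ^ 2 := by
  set α : Z3 := ⟨A, B⟩ with hα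
  have hprod : α * star α = (N : Z3) ^ 3 := by
    rw [← Zsqrtd.norm_eq_mul_conj, ← Int.cast_pow, Zsqrtd.norm_def]
    congr 1
    rw [← hN, hα]
    ring
  have hcop : IsCoprime α (star α) := by
    obtain ⟨a, b, hab⟩ := hco.pow_right (n := 3)
    refine ⟨(a : Z3) + (b : Z3) * star α, (a : Z3), ?_⟩
    calc ((a : Z3) + (b : Z3) * star α) * α + (a : Z3) * star α
        = (a : Z3) * (α + star α) + (b : Z3) * (α * star α) := by ring
      _ = ((a * (2 * A) + b * N ^ 3 : ℤ) : Z3) := by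
        rw [hprod, show α + star α = ((2 * A : ℤ) : Z3) by
          rw [Zsqrtd.ext_iff]; constructor <;> simp [hα, two_mul]]
        push_cast
        ring
      _ = 1 := by rw [hab, Int.cast_one]
  have := isDomain
  have := isPrincipal
  obtain ⟨d, w, hd⟩ := exists_associated_pow_of_mul_eq_pow' hcop hprod
  obtain ⟨v, e, hve, he⟩ := unit_mod_cubes w.isUnit
  set γ := d * v with hγdef
  have hαe : α = γ ^ 3 * e := by rw [← hd, hve, hγdef]; ring
  obtain ⟨hre, him⟩ := cube_re_im γ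
  rcases he with rfl | he
  · rw [mul_one] at hαe
    have hA : A = (γ ^ 3).re := by rw [← hαe]
    have hB : B = (γ ^ 3).im := by rw [← hαe]
    rw [hre] at hA
    rw [him] at hB
    refine ⟨γ.re, γ.im, hA, hB, ?_⟩
    refine (Odd.pow_inj (show Odd 3 by decide)).1 ?_
    rw [← hN, hA, hB]
    ring
  exfalso
  obtain ⟨s, hs, rfl⟩ : ∃ s : ℤ, (s = 1 ∨ s = -1) ∧ e = ⟨2, s⟩ := by
    rcases he with rfl | rfl
    · exact ⟨1, Or.inl rfl, rfl⟩
    · exact ⟨-1, Or.inr rfl, rfl⟩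
  have hA := congrArg Zsqrtd.re hαe
  have hB := congrArg Zsqrtd.im hαe
  simp only [hα, Zsqrtd.re_mul, Zsqrtd.im_mul, hre, him] at hA hB
  have hx : (3 : ℤ) ∣ γ.re := by
    have h1 : (3 : ℤ) ∣ γ.re ^ 3 * s := by
      obtain ⟨b, hb⟩ := h3
      exact ⟨b - 3 * γ.re * γ.im ^ 2 * s - 2 * γ.re ^ 2 * γ.im - 2 * γ.im ^ 3, by
        linear_combination hb - hB⟩
    rcases hs with rfl | rfl
    · exact Int.prime_three.dvd_of_dvd_pow (n := 3) (by simpa using h1)
    · exact Int.prime_three.dvd_of_dvd_pow (n := 3) (by simpa using h1)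
  have hA3 : (3 : ℤ) ∣ A := by
    obtain ⟨t, ht⟩ := hx
    refine ⟨(9 * t ^ 3 + 9 * t * γ.im ^ 2) * 2 + (3 * γ.re ^ 2 * γ.im + 3 * γ.im ^ 3) * s, ?_⟩
    rw [hA, ht]
    ring
  have hN3 : (3 : ℤ) ∣ N := Int.prime_three.dvd_of_dvd_pow (n := 3)
    (hN ▸ dvd_sub (dvd_pow hA3 two_ne_zero) (dvd_mul_right _ _))
  exact Int.prime_three.not_isUnit (hco.isUnit_of_dvd' (hA3.mul_left 2) hN3)

end FA.SetzerNeumann.SqrtThree

end
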