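import Fermat.Agent.SetzerNeumann.Model
import Fermat.Agent.SetzerNeumann.PrimePower
import Fermat.Agent.SetzerNeumann.SqrtThree
import Fermat.Agent.Root.SurjectiveTwo

/-!
# A square discriminant up to sign with one bad prime: a rational point of order two

For `Δ = P²` the image on `E[2]` has no transposition, so it is not everything and is reducible.
For `Δ = -P²` the identity `c₆² - 3 (24 P)² = c₄³` makes `c₆ + 24 P √3`, or its analogue at three,
a cube in `ℤ[√3]`, which gives the root.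
-/

set_option autoImplicit false

noncomputable section

open WeierstrassCurve WeierstrassCurve.Affine.Point Matrix Polynomial FA.EC FA.Frob
open scoped WeierstrassCurve.Affine

namespace FA.SetzerNeumann

local notation "Qb" => AlgebraicClosure ℚ
local notation "GQ" => AlgebraicClosure ℚ ≃ₐ[ℚ] AlgebraicClosure ℚ

/-- Reducibility mod `2` gives a root of the two-division cubic. -/
theorem exists_root_of_reducible_two {W : WeierstrassCurve ℤ} (hΔ : W.Δ ≠ 0)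
    (hred : ¬ W.ModRepIsIrreducible 2) :
    ∃ x : ℚ, 4 * x ^ 3 + (W.b₂ : ℚ) * x ^ 2 + 2 * (W.b₄ : ℚ) * x + (W.b₆ : ℚ) = 0 := by
  have : Fact (Nat.Prime 2) := ⟨Nat.prime_two⟩
  have := ratCurve_isElliptic_of_Δ hΔ
  set E := W.map (Int.castRingHom ℚ) with hE
  obtain ⟨P, hP0, hP2, hσ⟩ := exists_stable_point E hred
  obtain ⟨x, y, h, rfl⟩ := exists_some_of_ne_zero (W := E⁄Qb) hP0
  have hroot : (E⁄Qb).Ψ₂Sq.eval x = 0 := by
    simpa [WeierstrassCurve.ΨSq_two] using (nsmul_eq_zero_iff h 2).mp hP2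
  have hfix : ∀ σ : GQ, σ x = x := fun σ => by
    obtain ⟨k, hk, hkσ⟩ := hσ σ
    have hx := xc_smul E σ (.some x y h)
    rw [hkσ, xc_some] at hx
    interval_cases k
    · exfalso
      rw [zero_nsmul] at hkσ
      have := congrArg (fun Q : (E⁄Qb).Point => σ⁻¹ • Q) hkσ
      simp only [inv_smul_smul, smul_zero] at this
      exact hP0 this
    · rwa [one_nsmul, xc_some, eq_comm] at hx
  obtain ⟨q, rfl⟩ := mem_range_of_fixed hfix
  refine ⟨q, (algebraMap ℚ Qb).injective ?_⟩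
  obtain ⟨e2, e4, e6, -⟩ := FA.Two.baseChange_coeffs W
  replace e2 : (E⁄Qb).b₂ = (W.b₂ : Qb) := e2
  replace e4 : (E⁄Qb).b₄ = (W.b₄ : Qb) := e4
  replace e6 : (E⁄Qb).b₆ = (W.b₆ : Qb) := e6
  simp only [Ψ₂Sq, eval_add, eval_mul, eval_pow, eval_C, eval_X, e2, e4, e6] at hroot
  simp only [map_add, map_mul, map_pow, map_ofNat, map_intCast, _root_.map_zero]
  linear_combination hroot

/-- `Δ = P²`: reducible. -/
theorem reducible_two_of_square {W : WeierstrassCurve ℤ} (hΔ : W.Δ ≠ 0) (hW : W.IsSemistableModel)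
    {P : ℤ} (hP : W.Δ = P ^ 2) : ¬ W.ModRepIsIrreducible 2 := fun hirr => by
  have := ratCurve_isElliptic_of_Δ hΔ
  obtain ⟨σ, hσ⟩ := FA.Two.exists_curveRep_two_eq hΔ hW hirr (M := !![0, 1; 1, 0]) (by decide)
  have hneg := (FA.Two.apply_deltaRoot W σ).2 (by rw [hσ]; decide)
  have hd : FA.Two.deltaRoot W = (P : Qb) ∨ FA.Two.deltaRoot W = -(P : Qb) := by
    rw [← sq_eq_sq_iff_eq_or_eq_neg, FA.Two.deltaRoot_sq, hP]
    push_cast
    rfl
  have hP0 : (P : Qb) ≠ 0 := fun e => hΔ (by rw [hP, Int.cast_eq_zero.1 e]; ring)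
  rcases hd with e | e <;> rw [e] at hneg <;> simp only [map_neg, map_intCast] at hneg
  · exact hP0 (CharZero.eq_neg_self_iff.1 hneg)
  · exact hP0 (CharZero.eq_neg_self_iff.1 (neg_inj.1 hneg))

/-- A root from a root `t` of `t³ - 3 c₄ t - 2 c₆`. -/
theorem exists_root_of_resolvent {W : WeierstrassCurve ℤ} {t : ℤ}
    (ht : t ^ 3 - 3 * W.c₄ * t - 2 * W.c₆ = 0) :
    ∃ x : ℚ, 4 * x ^ 3 + (W.b₂ : ℚ) * x ^ 2 + 2 * (W.b₄ : ℚ) * x + (W.b₆ : ℚ) = 0 := by
  refine ⟨((t : ℚ) - W.b₂) / 12, ?_⟩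
  have h := congrArg (Int.cast : ℤ → ℚ) ht
  simp only [c₄, c₆] at h
  push_cast at h
  linear_combination (1 / 432 : ℚ) * h

/-- With even `a₁` and odd discriminant, `Δ ≡ 5 (mod 8)`. -/
theorem odd_c₄ {W : WeierstrassCurve ℤ} {P : ℤ} (hP : W.Δ = -P ^ 2) (hPodd : Odd P) :
    ¬(2 : ℤ) ∣ W.c₄ := by
  intro h
  obtain ⟨k, hk⟩ : (2 : ℤ) ∣ W.a₁ := by
    rw [show (2 : ℤ) = ((2 : ℕ) : ℤ) from rfl, ← ZMod.intCast_zmod_eq_zero_iff_dvd] at h ⊢
    simp only [c₄, b₂, b₄] at h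
    push_cast at h
    revert h
    generalize (W.a₁ : ZMod 2) = a
    generalize (W.a₂ : ZMod 2) = b
    generalize (W.a₃ : ZMod 2) = c
    generalize (W.a₄ : ZMod 2) = d
    decide +revert
  obtain ⟨r, rfl⟩ := hPodd
  have h8 := congrArg (Int.cast : ℤ → ZMod 8) hP
  simp only [Δ, b₂, b₄, b₆, b₈, hk] at h8
  push_cast at h8
  revert h8
  generalize (k : ZMod 8) = a
  generalize (W.a₂ : ZMod 8) = b
  generalize (W.a₃ : ZMod 8) = c
  generalize (W.a₄ : ZMod 8) = d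
  generalize (W.a₆ : ZMod 8) = e
  generalize (r : ZMod 8) = s
  intro h8
  ring_nf at h8
  reduce_mod_char at h8
  revert h8
  decide +revert

/-- `Δ = -P²`: a root. -/
theorem exists_root_of_neg_square {W : WeierstrassCurve ℤ} (hΔ : W.Δ ≠ 0)
    (hW : W.IsSemistableModel) {P : ℤ} (hP : W.Δ = -P ^ 2) (hPodd : Odd P) :
    ∃ x : ℚ, 4 * x ^ 3 + (W.b₂ : ℚ) * x ^ 2 + 2 * (W.b₄ : ℚ) * x + (W.b₆ : ℚ) = 0 := by
  have hrel := W.c_relation
  have h2c : ¬(2 : ℤ) ∣ W.c₄ := odd_c₄ hP hPodd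
  have hc2 : IsCoprime W.c₄ 2 := (Int.prime_two.coprime_iff_not_dvd.2 h2c).symm
  have hcP : IsCoprime W.c₄ P := by
    have := (FA.Switch.isCoprime_c₄_Δ hΔ hW).symm
    rw [hP, IsCoprime.neg_right_iff] at this
    exact (IsCoprime.pow_right_iff two_pos).1 this
  by_cases h3 : (3 : ℤ) ∣ W.c₄
  · obtain ⟨b, hb⟩ := h3
    obtain ⟨e, he⟩ := dvd_c₆_of_three_dvd ⟨b, hb⟩
    rw [hb] at hc2 hcP hrel
    rw [he, hP] at hrel
    have hco : IsCoprime (2 * (8 * P)) (-b) := by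
      rw [show 2 * (8 * P) = 2 ^ 4 * P by ring]
      exact ((hc2.of_mul_left_right.symm.pow_left).mul_left hcP.of_mul_left_right.symm).neg_right
    obtain ⟨x, y, -, h2, h1⟩ := SqrtThree.exists_cube_root (A := 8 * P) (B := 3 * e) (N := -b)
      (by linarith) ⟨e, rfl⟩ hco
    refine exists_root_of_resolvent (t := 6 * y) ?_
    rw [hb, he]
    linear_combination (-18) * h2 + 54 * y * h1
  · have hc3 : IsCoprime W.c₄ 3 := (Int.prime_three.coprime_iff_not_dvd.2 h3).symm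
    have h6 : IsCoprime W.c₄ W.c₆ := by
      refine (IsCoprime.pow_right_iff two_pos).1 ?_
      rw [show W.c₆ ^ 2 = 2 ^ 6 * (3 ^ 3 * P ^ 2) + W.c₄ * W.c₄ ^ 2 by
        rw [hP] at hrel; linear_combination hrel]
      exact (hc2.pow_right.mul_right (hc3.pow_right.mul_right hcP.pow_right)).add_mul_left_right _
    obtain ⟨x, y, h1, -, hN⟩ := SqrtThree.exists_cube_root (A := W.c₆) (B := 24 * P) (N := W.c₄)
      (by rw [hP] at hrel; linear_combination hrel) ⟨8 * P, by ring⟩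
      ((hc2.symm).mul_left h6.symm)
    refine exists_root_of_resolvent (t := 2 * x) ?_
    linear_combination (-6 * x) * hN - 2 * h1

/-- **Exponent two**: `17` or `u² + 64`. -/
theorem exponent_two {W : WeierstrassCurve ℤ} {p k : ℕ} (h : OneBadPrime W p)
    (hk : W.Δ.natAbs = (p ^ k) ^ 2) :
    p = 17 ∧ (W.Δ = 17 ^ 2 ∨ W.Δ = -17 ^ 4) ∨
      (∃ u : ℤ, (p : ℤ) = u ^ 2 + 64) ∧ W.Δ = -(p : ℤ) ^ 2 := by
  have hodd : Odd ((p ^ k : ℕ) : ℤ) := by
    exact_mod_cast (h.prime.odd_of_ne_two (by have := h.bound.1; omega)).pow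
  have hx : ∃ x : ℚ, 4 * x ^ 3 + (W.b₂ : ℚ) * x ^ 2 + 2 * (W.b₄ : ℚ) * x + (W.b₆ : ℚ) = 0 := by
    rcases Int.natAbs_eq_iff.1 hk with e | e
    · exact exists_root_of_reducible_two h.ne_zero (reducible_two_of_square h.ne_zero h.semistable
        (P := ((p ^ k : ℕ) : ℤ)) (by rw [e]; push_cast; rfl))
    · exact exists_root_of_neg_square h.ne_zero h.semistable (P := ((p ^ k : ℕ) : ℤ))
        (by rw [e]; push_cast; rfl) hodd
  have hne : ∀ {q : ℕ}, q.Prime → W.Δ.natAbs ≠ q := fun {q} hq e => by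
    rw [e, ← pow_mul] at hk
    have := (eq_of_pow_eq hq hk.symm).2
    omega
  rcases classify h.prime h.semistable h.ne_zero h.bad hx with
    ⟨rfl, e | e | e⟩ | ⟨hu, e | e⟩
  · exact absurd (by rw [e]; rfl) (hne (q := 17) (by norm_num))
  · exact Or.inl ⟨rfl, Or.inl e⟩
  · exact Or.inl ⟨rfl, Or.inr e⟩
  · exact absurd (by rw [e]; rfl) (hne h.prime)
  · exact Or.inr ⟨hu, e⟩

end FA.SetzerNeumann

end
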