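import Fermat.Agent.CM.Seven.Isogeny
import Fermat.Agent.Frob.VarChange
import Fermat.Agent.MordellWeil.Structure

/-!
# Descent by two-isogeny with the smallest possible images

If on `y² = x³ + a x² + b x` every abscissa is a square or `b` times one, and likewise on the
isogenous curve, then the group of rational points is finite: up to `(0, 0)` every point is an
image from the other curve, hence twice a point.
-/

set_option autoImplicit false
set_option linter.style.haveILetI false

noncomputable section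

open WeierstrassCurve
open FA.CM.Seven (twoCurve twoCurve_equation twoCurve_negY isogHom isogHom_apply isogFun_some
  isogFun_some_zero)
open FA.Frob (vcEquiv vcEquiv_some vcX vcY)

namespace FA.SetzerNeumann

variable {a b : ℚ}

/-- An elliptic `twoCurve` has `b ≠ 0`. -/
theorem b_ne_zero [(twoCurve a b).IsElliptic] : b ≠ 0 := fun e =>
  (twoCurve a b).isUnit_Δ.ne_zero (by simp [Δ, b₂, b₄, b₆, b₈, e])

/-- The point `(0, 0)`. -/
def zeroPoint (a b : ℚ) [(twoCurve a b).IsElliptic] : (twoCurve a b).toAffine.Point :=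
  .some 0 0 (Affine.equation_iff_nonsingular.mp (twoCurve_equation.mpr (by ring)))

/-- Translation by `(0, 0)` has abscissa `b / x`. -/
theorem add_zeroPoint [(twoCurve a b).IsElliptic] {x y : ℚ}
    (h : (twoCurve a b).toAffine.Nonsingular x y) (hx : x ≠ 0) :
    ∃ y' h', Affine.Point.some x y h + zeroPoint a b = Affine.Point.some (b / x) y' h' := by
  have e := twoCurve_equation.mp h.1
  have eX : (twoCurve a b).toAffine.addX x 0 ((twoCurve a b).toAffine.slope x 0 y 0) = b / x := by
    rw [Affine.slope_of_X_ne hx]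
    simp only [Affine.addX]
    field_simp
    linear_combination x * e
  have hn := Affine.nonsingular_add h (Affine.equation_iff_nonsingular.mp
    (twoCurve_equation.mpr (show (0 : ℚ) ^ 2 = 0 ^ 3 + a * 0 ^ 2 + b * 0 by ring)))
    fun e' => hx e'.1
  refine ⟨_, eX ▸ hn, ?_⟩
  rw [zeroPoint, Affine.Point.add_of_X_ne hx, Affine.Point.some.injEq]
  exact ⟨eX, rfl⟩

variable [(twoCurve a b).IsElliptic] [(twoCurve (-2 * a) (a ^ 2 - 4 * b)).IsElliptic]

/-- A point with square abscissa is an image. -/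
theorem exists_preimage {s Y : ℚ}
    (h : (twoCurve (-2 * a) (a ^ 2 - 4 * b)).toAffine.Nonsingular (s ^ 2) Y) (hs : s ≠ 0) :
    ∃ Q, isogHom (a := a) (b := b) Q = Affine.Point.some (s ^ 2) Y h := by
  have e := twoCurve_equation.mp h.1
  set t := Y / s with ht
  have ht2 : t ^ 2 = (a - s ^ 2) ^ 2 - 4 * b := by
    rw [ht]
    field_simp
    linear_combination e
  set x := (s ^ 2 - a + t) / 2 with hxdef
  have hq : x ^ 2 + (a - s ^ 2) * x + b = 0 := by rw [hxdef]; linear_combination ht2 / 4
  have hx : x ≠ 0 := fun e0 => b_ne_zero (a := a) (b := b) (by rw [e0] at hq; linarith)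
  have hxy : (twoCurve a b).toAffine.Nonsingular x (s * x) :=
    Affine.equation_iff_nonsingular.mp (twoCurve_equation.mpr (by linear_combination -x * hq))
  refine ⟨.some x (s * x) hxy, ?_⟩
  rw [isogHom_apply, isogFun_some hx]
  simp only [Affine.Point.some.injEq]
  refine ⟨by field_simp, ?_⟩
  have hY : Y = s * t := by rw [ht]; field_simp
  rw [hY, div_eq_iff (pow_ne_zero 2 hx)]
  have htx : t = 2 * x - s ^ 2 + a := by rw [hxdef]; ring
  rw [htx]
  linear_combination (-s * x) * hq

/-- Up to `(0, 0)` every point is an image. -/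
theorem exists_image (hcl : ∀ x y : ℚ, x ≠ 0 →
      y ^ 2 = x ^ 3 + (-2 * a) * x ^ 2 + (a ^ 2 - 4 * b) * x →
      IsSquare x ∨ IsSquare ((a ^ 2 - 4 * b) * x))
    (P : (twoCurve (-2 * a) (a ^ 2 - 4 * b)).toAffine.Point) :
    ∃ Q, isogHom (a := a) (b := b) Q = P ∨
      isogHom (a := a) (b := b) Q = P + zeroPoint (-2 * a) (a ^ 2 - 4 * b) := by
  rcases P with _ | ⟨x, y, h⟩
  · exact ⟨0, Or.inl (map_zero _)⟩
  by_cases hx : x = 0
  · subst hx
    obtain rfl : y = 0 := by simpa using twoCurve_equation.mp h.1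
    refine ⟨0, Or.inr ?_⟩
    rw [map_zero, zeroPoint]
    exact (Affine.Point.add_of_Y_eq rfl (by simp)).symm
  rcases hcl x y hx (twoCurve_equation.mp h.1) with ⟨s, rfl⟩ | ⟨s, hs⟩
  · have hs : s ≠ 0 := fun e => hx (by rw [e, mul_zero])
    simp only [← sq] at h ⊢
    obtain ⟨Q, hQ⟩ := exists_preimage h hs
    exact ⟨Q, Or.inl hQ⟩
  obtain ⟨y', h', e'⟩ := add_zeroPoint h hx
  have hb := b_ne_zero (a := -2 * a) (b := a ^ 2 - 4 * b)
  have hsq : (a ^ 2 - 4 * b) / x = (s / x) ^ 2 := by field_simp; linear_combination hs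
  have hs0 : s / x ≠ 0 := fun e0 => div_ne_zero hb hx (by rw [hsq, e0]; ring)
  generalize (a ^ 2 - 4 * b) / x = X at hsq h' e'
  subst hsq
  obtain ⟨Q, hQ⟩ := exists_preimage h' hs0
  exact ⟨Q, Or.inr (hQ.trans e'.symm)⟩

/-- The scaling of the bidual to the curve. -/
def halveScale : VariableChange ℚ := ⟨Units.mk0 2 two_ne_zero, 0, 0, 0⟩

omit [(twoCurve a b).IsElliptic] [(twoCurve (-2 * a) (a ^ 2 - 4 * b)).IsElliptic] in
theorem halveScale_smul :
    halveScale • twoCurve (-2 * (-2 * a)) ((-2 * a) ^ 2 - 4 * (a ^ 2 - 4 * b)) = twoCurve a b := by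
  ext <;> simp [halveScale, variableChange_a₁, variableChange_a₂, variableChange_a₃,
    variableChange_a₄, variableChange_a₆] <;> ring

instance isElliptic_bidual :
    (twoCurve (-2 * (-2 * a)) ((-2 * a) ^ 2 - 4 * (a ^ 2 - 4 * b))).IsElliptic :=
  ⟨isUnit_iff_ne_zero.mpr (by
    have e1 := b_ne_zero (a := a) (b := b)
    have e2 := b_ne_zero (a := -2 * a) (b := a ^ 2 - 4 * b)
    have : (twoCurve (-2 * (-2 * a)) ((-2 * a) ^ 2 - 4 * (a ^ 2 - 4 * b))).Δ =
        16 * (16 * b) ^ 2 * (16 * (a ^ 2 - 4 * b)) := by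
      simp [Δ, b₂, b₄, b₆, b₈]; ring
    rw [this]
    simp [e1, e2])⟩

/-- The isogeny back. -/
def backHom : (twoCurve (-2 * a) (a ^ 2 - 4 * b)).toAffine.Point →+
    (twoCurve a b).toAffine.Point :=
  ((vcEquiv halveScale halveScale_smul).symm.toAddMonoidHom).comp isogHom

theorem backHom_zeroPoint :
    backHom (zeroPoint (-2 * a) (a ^ 2 - 4 * b)) = (0 : (twoCurve a b).toAffine.Point) := by
  show (vcEquiv halveScale halveScale_smul).symm (isogHom _) = 0
  rw [isogHom_apply, zeroPoint, isogFun_some_zero, map_zero]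

/-- The composite is multiplication by two, up to sign. -/
theorem exists_back (P : (twoCurve a b).toAffine.Point) :
    ∃ R, backHom (isogHom (a := a) (b := b) P) = 2 • R := by
  rcases P with _ | ⟨x, y, h⟩
  · exact ⟨0, by rw [← Affine.Point.zero_def, map_zero, map_zero, nsmul_zero]⟩
  by_cases hx : x = 0
  · subst hx
    exact ⟨0, by rw [isogHom_apply, isogFun_some_zero, map_zero, nsmul_zero]⟩
  have e := twoCurve_equation.mp h.1
  by_cases hy : y = 0
  · refine ⟨0, ?_⟩
    have hz : isogHom (a := a) (b := b) (.some x y h) =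
        zeroPoint (-2 * a) (a ^ 2 - 4 * b) := by
      rw [isogHom_apply, isogFun_some hx, zeroPoint, Affine.Point.some.injEq]
      simp [hy]
    rw [hz, backHom_zeroPoint, nsmul_zero]
  have hne : y ≠ (twoCurve a b).toAffine.negY x y := by
    rw [twoCurve_negY]
    exact fun e' => hy (by linarith)
  have hX : (y / x) ^ 2 ≠ 0 := pow_ne_zero 2 (div_ne_zero hy hx)
  rw [isogHom_apply, isogFun_some hx]
  show ∃ R, (vcEquiv halveScale halveScale_smul).symm
    (isogHom (a := -2 * a) (b := a ^ 2 - 4 * b) _) = 2 • R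
  rw [isogHom_apply, isogFun_some hX]
  generalize hQ : (vcEquiv halveScale (halveScale_smul (a := a) (b := b))).symm _ = Q
  rw [AddEquiv.symm_apply_eq] at hQ
  rcases Q with _ | ⟨X, Y, hXY⟩
  · rw [← Affine.Point.zero_def, map_zero] at hQ
    exact absurd hQ (Affine.Point.some_ne_zero _)
  rw [vcEquiv_some] at hQ
  simp only [Affine.Point.some.injEq, vcX, halveScale, Units.val_mk0] at hQ
  have hdbl : X = (twoCurve a b).toAffine.addX x x ((twoCurve a b).toAffine.slope x x y y) := by
    rw [Affine.slope_of_Y_ne rfl hne, twoCurve_negY]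
    simp only [Affine.addX]
    have hX' := hQ.1
    field_simp at hX' ⊢
    linear_combination -hX' + 4 * (2 * x + a) * e
  have hd : 2 • Affine.Point.some x y h =
      Affine.Point.some _ _ (Affine.nonsingular_add h h fun e' => hne e'.2) := by
    rw [two_nsmul, Affine.Point.add_self_of_Y_ne hne]
  subst hdbl
  rcases Affine.Y_eq_of_X_eq hXY.1 (Affine.nonsingular_add h h fun e' => hne e'.2).1 rfl with
    e' | e'
  · exact ⟨.some x y h, by rw [hd, Affine.Point.some.injEq]; exact ⟨rfl, e'⟩⟩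
  · exact ⟨-.some x y h, by
      rw [smul_neg, hd, Affine.Point.neg_some, Affine.Point.some.injEq]; exact ⟨rfl, e'⟩⟩

omit [(twoCurve a b).IsElliptic] [(twoCurve (-2 * a) (a ^ 2 - 4 * b)).IsElliptic] in
/-- A finitely generated group in which every element is twice one up to torsion is torsion. -/
theorem isOfFinAddOrder_of_halved {G : Type*} [AddCommGroup G] [AddGroup.FG G]
    (h : ∀ P : G, ∃ R : G, IsOfFinAddOrder (P - 2 • R)) (P : G) : IsOfFinAddOrder P := by
  obtain ⟨r, ⟨e⟩⟩ := FA.MordellWeil.exists_equiv_torsion_prod G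
  have even : ∀ (P : G) (k : Fin r), (2 : ℤ) ∣ (e P).2 k := fun P k => by
    obtain ⟨R, hR⟩ := h P
    obtain ⟨m, hm, hm0⟩ := isOfFinAddOrder_iff_nsmul_eq_zero.mp
      (((AddMonoidHom.snd _ _).comp e.toAddMonoidHom).isOfFinAddOrder hR)
    have := congrFun hm0 k
    simp [hm.ne', map_nsmul] at this
    exact ⟨(e R).2 k, by linarith⟩
  obtain rfl : r = 0 := by
    by_contra hr
    let k : Fin r := ⟨0, Nat.pos_of_ne_zero hr⟩
    have h1 : (2 : ℤ) ∣ 1 := by simpa using even (e.symm (0, Pi.single k 1)) k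
    omega
  obtain ⟨m, hm, hm0⟩ := isOfFinAddOrder_iff_nsmul_eq_zero.mp
    ((AddCommGroup.mem_torsion _).1 (e P).1.2)
  refine isOfFinAddOrder_iff_nsmul_eq_zero.mpr ⟨m, hm, e.injective ?_⟩
  rw [map_nsmul, map_zero]
  exact Prod.ext (Subtype.ext (by simpa using hm0)) (Subsingleton.elim _ _)

end FA.SetzerNeumann

end
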