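import Fermat.Agent.SetzerNeumann.Diophantine
import Fermat.Agent.Torsion.Flex
import Fermat.Agent.Root.NoGoodReduction
import Fermat.Agent.Ribet.SerreMore

/-!
# A semistable equation with one bad prime

The bad prime is at least `11` and not `13`, and an integral pair of invariants proportional to
those of the equation is an integral multiple of them.
-/

set_option autoImplicit false

noncomputable section

open WeierstrassCurve FA.Frob

namespace FA.SetzerNeumann

/-- A semistable equation whose only bad prime is `p`. -/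
structure OneBadPrime (W : WeierstrassCurve ℤ) (p : ℕ) : Prop where
  prime : p.Prime
  semistable : W.IsSemistableModel
  ne_zero : W.Δ ≠ 0
  bad : ∀ q : ℕ, q.Prime → ((q : ℤ) ∣ W.Δ ↔ q = p)

namespace OneBadPrime

variable {W : WeierstrassCurve ℤ} {p : ℕ} (h : OneBadPrime W p)
include h

theorem dvd_Δ : (p : ℤ) ∣ W.Δ := (h.bad p h.prime).2 rfl

theorem not_dvd_c₄ : ¬(p : ℤ) ∣ W.c₄ := h.semistable p h.prime h.dvd_Δ

/-- By modularity the bad prime is `11` or at least `17`. -/
theorem bound : 11 ≤ p ∧ p ≠ 13 := by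
  have hN : FA.Theta.badProd W = p := by
    rw [FA.Theta.badProd, show W.Δ.natAbs.primeFactors = {p} from Finset.ext fun q => by
      rw [Nat.mem_primeFactors, Finset.mem_singleton]
      refine ⟨fun ⟨hq, hd, _⟩ => (h.bad q hq).1 (Int.natCast_dvd.2 hd), ?_⟩
      rintro rfl
      exact ⟨h.prime, Int.natCast_dvd.1 h.dvd_Δ, Int.natAbs_ne_zero.2 h.ne_zero⟩,
      Finset.prod_singleton]
  obtain ⟨f, hf, -⟩ := FA.SS.semistableModular W h.ne_zero h.semistable
  have hp := h.prime
  revert f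
  rw [hN]
  intro f hf
  have : NeZero p := ⟨hp.ne_zero⟩
  by_contra hsmall
  refine hf.ne_zero (FA.Ribet.cuspForm_eq_zero_of_genusFormula ?_ f)
  rcases not_and_or.1 hsmall with hlt | hne
  · have : p < 11 := not_le.1 hlt
    interval_cases p
    all_goals first
      | exact FA.Ribet.genusFormula_7
      | exact FA.Ribet.genusFormula_eq_zero (Or.inl rfl) (Nat.dvd_of_mod_eq_zero rfl)
      | exact FA.Ribet.genusFormula_eq_zero (Or.inr rfl) (Nat.dvd_of_mod_eq_zero rfl)
      | exact absurd hp (by norm_num)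
  · rw [not_not.1 hne]
    exact FA.Ribet.genusFormula_13

theorem c₄_ne_zero : W.c₄ ≠ 0 := fun e => h.not_dvd_c₄ (e ▸ dvd_zero _)

end OneBadPrime

/-- An integral pair proportional to `(c₄, Δ)` is an integral multiple of it. -/
theorem exists_scale {W : WeierstrassCurve ℤ} {p : ℕ} (h : OneBadPrime W p) {c D : ℤ} {u : ℚ}
    (hc : (c : ℚ) = u ^ 4 * W.c₄) (hD : (D : ℚ) = u ^ 12 * W.Δ) :
    ∃ n : ℤ, c = n ^ 4 * W.c₄ ∧ D = n ^ 12 * W.Δ := by
  have hden : (u.den : ℤ) ^ 4 ∣ W.c₄ := by
    refine IsCoprime.dvd_of_dvd_mul_left (y := u.num ^ 4) ?_ ⟨c, ?_⟩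
    · exact (show IsCoprime u.num (u.den : ℤ) from
        Int.isCoprime_iff_nat_coprime.2 u.reduced).symm.pow
    · have := hc
      rw [← Rat.num_div_den u, div_pow, div_mul_eq_mul_div, eq_div_iff (by positivity)] at this
      exact_mod_cast (by linarith : ((u.num : ℚ) ^ 4 * W.c₄) = (u.den : ℚ) ^ 4 * c)
  have hden' : (u.den : ℤ) ^ 12 ∣ W.Δ := by
    refine IsCoprime.dvd_of_dvd_mul_left (y := u.num ^ 12) ?_ ⟨D, ?_⟩
    · exact (show IsCoprime u.num (u.den : ℤ) from
        Int.isCoprime_iff_nat_coprime.2 u.reduced).symm.pow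
    · have := hD
      rw [← Rat.num_div_den u, div_pow, div_mul_eq_mul_div, eq_div_iff (by positivity)] at this
      exact_mod_cast (by linarith : ((u.num : ℚ) ^ 12 * W.Δ) = (u.den : ℚ) ^ 12 * D)
  have h1 : u.den = 1 := Nat.eq_one_iff_not_exists_prime_dvd.2 fun q hq hd => by
    have hd' : (q : ℤ) ∣ (u.den : ℤ) := Int.natCast_dvd_natCast.2 hd
    exact h.semistable q hq ((hd'.trans (dvd_pow_self _ (by norm_num))).trans hden')
      ((hd'.trans (dvd_pow_self _ (by norm_num))).trans hden)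
  refine ⟨u.num, ?_, ?_⟩
  · rw [← Rat.coe_int_num_of_den_eq_one h1] at hc
    exact_mod_cast hc
  · rw [← Rat.coe_int_num_of_den_eq_one h1] at hD
    exact_mod_cast hD

/-- The invariants over `ℚ`. -/
theorem cast_invariants (W : WeierstrassCurve ℤ) :
    (ratCurve W).c₄ = (W.c₄ : ℚ) ∧ (ratCurve W).Δ = (W.Δ : ℚ) :=
  ⟨by rw [map_c₄, eq_intCast], by rw [map_Δ, eq_intCast]⟩

end FA.SetzerNeumann

end
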