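import Fermat.Agent.Root.SummaryEquationsSeven
import Fermat.Agent.Root.SummaryFermatSignatures

/-!
# `a² - 64 d = g` with `d g` a power of one prime

The equations behind the theorem of Setzer and Neumann. The only nontrivial one is
`u² + 64 = p ^ k`: for exponents with a prime factor `≥ 7` it is the modular method's, for `3` and
`5` a Gaussian root decides it.
-/

set_option autoImplicit false

noncomputable section

namespace FA.SetzerNeumann

theorem gauss_cube_small : ∀ b ∈ Finset.Icc (-8 : ℤ) 8, ∀ a ∈ Finset.Icc (-5 : ℤ) 5,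
    b * (3 * a ^ 2 - b ^ 2) = 8 → a % 2 = 0 := by
  decide

theorem gauss_fifth_small : ∀ b ∈ Finset.Icc (-8 : ℤ) 8, ∀ a ∈ Finset.Icc (-11 : ℤ) 11,
    b * (b ^ 4 - 10 * b ^ 2 * a ^ 2 + 5 * a ^ 4) = 8 → a % 2 = 0 := by
  decide +kernel

theorem square_small : ∀ P < 65, ∀ u < 65, u % 2 = 1 → P * P = u * u + 64 → P = 17 := by
  decide +kernel

theorem coprime_eight {u : ℤ} (hu : Odd u) : IsCoprime u 8 := by
  obtain ⟨t, rfl⟩ := hu
  rw [show (8 : ℤ) = 2 ^ 3 by norm_num]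
  exact (show IsCoprime (2 * t + 1) 2 from ⟨1, -t, by ring⟩).pow_right

/-- `u² + 64` is no cube and no fifth power for odd `u`. -/
theorem sq_add_ne_pow_small {u z : ℤ} (hu : Odd u) {r : ℕ} (hr : r = 3 ∨ r = 5) :
    u ^ 2 + 64 ≠ z ^ r := fun h => by
  have h' : u ^ 2 + (8 : ℤ) ^ 2 = z ^ r := by rw [← h]; norm_num
  have hbd : ∀ b t : ℤ, b * t = 8 → -8 ≤ b ∧ b ≤ 8 ∧ t ≤ 8 := fun b t e => by
    have h1 := Int.le_of_dvd (by norm_num) ((abs_dvd b 8).2 ⟨t, e.symm⟩)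
    have h2 := Int.le_of_dvd (by norm_num) ((abs_dvd t 8).2 ⟨b, by linarith⟩)
    exact ⟨(abs_le.1 h1).1, (abs_le.1 h1).2, (abs_le.1 h2).2⟩
  rcases hr with rfl | rfl
  · obtain ⟨a, b, -, hx, hy⟩ := FA.Signatures.cube_root (coprime_eight hu) h'
    obtain ⟨hb1, hb2, ht⟩ := hbd _ _ hy.symm
    have hb : b ^ 2 ≤ 64 := by nlinarith
    have ha : a ^ 2 < 36 := by nlinarith
    have := gauss_cube_small b (Finset.mem_Icc.2 ⟨hb1, hb2⟩) a
      (Finset.mem_Icc.2 ⟨by nlinarith, by nlinarith⟩) hy.symm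
    rw [hx] at hu
    exact Int.not_even_iff_odd.2 hu (Even.mul_right (Int.even_iff.2 this) _)
  · obtain ⟨a, b, -, hx, hy⟩ := FA.Signatures.fifth_root (coprime_eight hu) h'
    obtain ⟨hb1, hb2, ht⟩ := hbd _ _ hy.symm
    have hb : b ^ 2 ≤ 64 := by nlinarith
    have ha : a ^ 2 < 144 := by
      by_contra hc
      nlinarith [sq_nonneg b, mul_nonneg (show (0 : ℤ) ≤ a ^ 2 - 144 by linarith)
        (show (0 : ℤ) ≤ a ^ 2 by positivity)]
    have := gauss_fifth_small b (Finset.mem_Icc.2 ⟨hb1, hb2⟩) a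
      (Finset.mem_Icc.2 ⟨by nlinarith, by nlinarith⟩) hy.symm
    rw [hx] at hu
    exact Int.not_even_iff_odd.2 hu (Even.mul_right (Int.even_iff.2 this) _)

/-- **`u² + 64 = p ^ k`** for odd `u` only with `k = 1` or as `225 + 64 = 17²`. -/
theorem sq_add_eq_prime_pow {p : ℕ} (hp : p.Prime) {u : ℤ} (hu : Odd u) {k : ℕ}
    (h : u ^ 2 + 64 = (p : ℤ) ^ k) : k = 1 ∨ p = 17 ∧ k = 2 := by
  have hk0 : k ≠ 0 := by
    rintro rfl
    nlinarith [sq_nonneg u]
  rcases Nat.even_or_odd k with ⟨m, rfl⟩ | hodd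
  · right
    have hP : (u.natAbs * u.natAbs + 64 : ℤ) = ((p ^ m : ℕ) : ℤ) * (p ^ m : ℕ) := by
      rw [Int.natAbs_mul_self']
      push_cast
      rw [← pow_add, ← h]
      ring
    have hP' : u.natAbs * u.natAbs + 64 = p ^ m * p ^ m := by exact_mod_cast hP
    have hlt : u.natAbs < p ^ m := by
      by_contra hc
      nlinarith [Nat.mul_le_mul (not_lt.1 hc) (not_lt.1 hc)]
    have h64 : p ^ m + u.natAbs ≤ 64 := by
      obtain ⟨e, he⟩ := Nat.exists_eq_add_of_lt hlt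
      rw [he] at hP' ⊢
      nlinarith [Nat.zero_le (e * (u.natAbs + e + 1 + u.natAbs))]
    have h17 := square_small (p ^ m) (by omega) u.natAbs (by omega)
      (Nat.odd_iff.1 (Int.natAbs_odd.2 hu)) hP'.symm
    have := (Nat.Prime.pow_eq_iff (by norm_num : Nat.Prime 17)).1 h17
    exact ⟨this.1, by omega⟩
  · left
    by_contra hk1
    set r := k.minFac with hr
    have hrp : r.Prime := Nat.minFac_prime hk1
    obtain ⟨m, hm⟩ := Nat.minFac_dvd k
    rcases Nat.lt_or_ge r 7 with h7 | h7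
    · have hr2 : r ≠ 2 := fun e => Nat.not_even_iff_odd.2 hodd
        (even_iff_two_dvd.2 (e ▸ Nat.minFac_dvd k))
      have hr35 : r = 3 ∨ r = 5 := by
        have := hrp.two_le
        interval_cases r
        all_goals first | omega | exact absurd hrp (by norm_num)
      exact sq_add_ne_pow_small hu hr35 (z := (p : ℤ) ^ m) (by
        rw [h, ← pow_mul]; congr 1; rw [hm]; ring)
    · exact (FA.Summary.sq_add_two_pow_ne_pow_seven hrp h7 dvd_rfl (le_refl 6) hu
        (y := (p : ℤ) ^ m) (pow_ne_zero _ (Int.natCast_ne_zero.2 hp.ne_zero))).1 (by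
          rw [show (2 : ℤ) ^ 6 = 64 by norm_num, h, ← pow_mul]; congr 1; rw [hm]; ring)

/-- An integer supported on `p` and prime to it is a unit. -/
theorem natAbs_eq_one {p : ℕ} {t : ℤ} (hsupp : ∀ q : ℕ, q.Prime → (q : ℤ) ∣ t → q = p)
    (hpt : ¬(p : ℤ) ∣ t) : t = 1 ∨ t = -1 := by
  refine (Int.natAbs_eq_iff (n := 1)).1
    (Nat.eq_one_iff_not_exists_prime_dvd.2 fun q hq hd => ?_)
  exact hpt (hsupp q hq (Int.natCast_dvd.2 hd) ▸ Int.natCast_dvd.2 hd)

/-- An integer supported on `p` is up to sign a power of it. -/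
theorem exists_natAbs_eq_pow {p : ℕ} {t : ℤ} (ht : t ≠ 0)
    (hsupp : ∀ q : ℕ, q.Prime → (q : ℤ) ∣ t → q = p) : ∃ j, t.natAbs = p ^ j :=
  ⟨_, Nat.eq_prime_pow_of_unique_prime_dvd (Int.natAbs_ne_zero.2 ht)
    fun hq hd => hsupp _ hq (Int.natCast_dvd.2 hd)⟩

theorem dvd_sixteen {p j : ℕ} (hp : p.Prime) {m d t : ℤ} (hd : d.natAbs = p ^ j)
    (hpm : ¬(p : ℤ) ∣ m) (h : m * t = 16 * d) : m ∣ 16 := by
  have h1 : m.natAbs ∣ 16 * p ^ j := ⟨t.natAbs, by
    rw [← Int.natAbs_mul, h, Int.natAbs_mul, hd]; rfl⟩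
  have hco : Nat.Coprime m.natAbs (p ^ j) :=
    ((hp.coprime_iff_not_dvd.2 fun h' => hpm (Int.natCast_dvd.2 h')).symm).pow_right j
  exact Int.natAbs_dvd_natAbs.1 (hco.dvd_of_dvd_mul_right h1)

/-- **The equation.** -/
theorem solve {p : ℕ} (hp : p.Prime) {a d g : ℤ} (ha : Odd a) (h : a ^ 2 - 64 * d = g)
    (hc : ∀ q : ℕ, q.Prime → (q : ℤ) ∣ d → ¬(q : ℤ) ∣ g) (hd0 : d ≠ 0) (hg0 : g ≠ 0)
    (hsupp : ∀ q : ℕ, q.Prime → (q : ℤ) ∣ d * g → q = p) (hpdg : (p : ℤ) ∣ d * g) :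
    p = 17 ∧ (d = 17 ∧ g = 1 ∨ d = 1 ∧ g = 17 ∨ d = -1 ∧ g = 289) ∨
      d = -1 ∧ g = p ∧ (p : ℤ) = a ^ 2 + 64 := by
  have hsd : ∀ q : ℕ, q.Prime → (q : ℤ) ∣ d → q = p := fun q hq hd => hsupp q hq (hd.mul_right g)
  have hsg : ∀ q : ℕ, q.Prime → (q : ℤ) ∣ g → q = p := fun q hq hd => hsupp q hq (hd.mul_left d)
  rcases (Nat.prime_iff_prime_int.1 hp).dvd_or_dvd hpdg with hpd | hpg
  · have hg1 := natAbs_eq_one hsg (hc p hp hpd)
    obtain ⟨j, hj⟩ := exists_natAbs_eq_pow hd0 hsd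
    rcases hg1 with rfl | rfl
    · obtain ⟨m, rfl⟩ := ha
      have hm : m * (m + 1) = 16 * d := by linarith [sq (2 * m + 1)]
      have hbound : -17 ≤ m ∧ m ≤ 17 := by
        by_cases hpm : (p : ℤ) ∣ m
        · have hpm1 : ¬(p : ℤ) ∣ m + 1 := fun h1 => hp.one_lt.ne' (by
            have := Int.le_of_dvd one_pos ((Int.dvd_add_right hpm).1 h1)
            have := hp.one_lt
            omega)
          have h1 := Int.le_of_dvd (by norm_num) ((abs_dvd _ _).2
            (dvd_sixteen hp hj hpm1 (t := m) (by linarith)))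
          exact ⟨by linarith [(abs_le.1 h1).1], by linarith [(abs_le.1 h1).2]⟩
        · have h1 := Int.le_of_dvd (by norm_num) ((abs_dvd _ _).2 (dvd_sixteen hp hj hpm hm))
          exact ⟨by linarith [(abs_le.1 h1).1], by linarith [(abs_le.1 h1).2]⟩
      have hd : d = 15 ∨ d = 17 := by
        obtain ⟨hm1, hm2⟩ := hbound
        interval_cases m <;> omega
      rcases hd with rfl | rfl
      · have h3 := hsd 3 Nat.prime_three (by norm_num)
        have h5 := hsd 5 (by norm_num) (by norm_num)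
        omega
      · exact Or.inl ⟨(hsd 17 (by norm_num) (by norm_num)).symm, Or.inl ⟨rfl, rfl⟩⟩
    · obtain ⟨m, rfl⟩ := ha
      exact absurd h (fun h => by ring_nf at h; omega)
  · have hd1 := natAbs_eq_one hsd fun hpd => hc p hp hpd hpg
    obtain ⟨j, hj⟩ := exists_natAbs_eq_pow hg0 hsg
    rcases hd1 with rfl | rfl
    · have hg : g = (a - 8) * (a + 8) := by linarith [sq a]
      have key : ∀ t s : ℤ, g = t * s → (t - s = 16 ∨ s - t = 16) → ¬(p : ℤ) ∣ t →
          t = 1 ∨ t = -1 := fun t s e _ hpt =>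
        natAbs_eq_one (fun q hq hd => hsg q hq (e ▸ hd.mul_right s)) hpt
      have hnot : ¬((p : ℤ) ∣ a - 8 ∧ (p : ℤ) ∣ a + 8) := fun ⟨h1, h2⟩ => by
        have h16 : (p : ℤ) ∣ ((2 ^ 4 : ℕ) : ℤ) := by
          have := Int.dvd_sub h2 h1
          norm_num at this ⊢
          exact this
        have h2' : p = 2 := (Nat.prime_dvd_prime_iff_eq hp Nat.prime_two).1
          (hp.dvd_of_dvd_pow (Int.natCast_dvd_natCast.1 h16))
        obtain ⟨m, rfl⟩ := ha
        subst h2'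
        omega
      have ha' : a = 9 ∨ a = 7 ∨ a = -7 ∨ a = -9 := by
        by_cases h1 : (p : ℤ) ∣ a - 8
        · have := key (a + 8) (a - 8) (by linarith) (Or.inl (by ring))
            (fun h2 => hnot ⟨h1, h2⟩)
          omega
        · have := key (a - 8) (a + 8) hg (Or.inr (by ring)) h1
          omega
      have h3or : g = 17 ∨ g = -15 := by rcases ha' with rfl | rfl | rfl | rfl <;> omega
      rcases h3or with rfl | rfl
      · exact Or.inl ⟨(hsg 17 (by norm_num) (by norm_num)).symm, Or.inr (Or.inl ⟨rfl, rfl⟩)⟩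
      · have h3 := hsg 3 Nat.prime_three (by norm_num)
        have h5 := hsg 5 (by norm_num) (by norm_num)
        omega
    · have hg : g = a ^ 2 + 64 := by linarith
      have hg' : a ^ 2 + 64 = (p : ℤ) ^ j := by
        rw [← Nat.cast_pow, ← hj, Int.natAbs_of_nonneg (by rw [hg]; positivity), hg]
      rcases sq_add_eq_prime_pow hp ha hg' with rfl | ⟨rfl, rfl⟩
      · rw [pow_one] at hg'
        exact Or.inr ⟨rfl, hg.trans hg', hg'.symm⟩
      · exact Or.inl ⟨rfl, Or.inr (Or.inr ⟨rfl, by rw [hg, hg']; norm_num⟩)⟩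

end FA.SetzerNeumann

end
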