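import Fermat.Agent.Root.SummaryMestreOesterle

/-!
# Reducible torsion with one bad prime

A semistable equation with one bad prime `p` has reducible `l`-torsion only for `l = 2`
(`p = 17`, `u² + 64`), `l = 3` (`p = 19, 37`) and `l = 5` (`p = 11`).
-/

set_option autoImplicit false

noncomputable section

open WeierstrassCurve

namespace FA.SetzerNeumann

/-- Reducible `E[2]`: the list of Setzer and Neumann. -/
theorem reducible_two {W : WeierstrassCurve ℤ} {p : ℕ} (h : OneBadPrime W p)
    (hred : ¬ W.ModRepIsIrreducible 2) : p = 17 ∨ ∃ u : ℤ, (p : ℤ) = u ^ 2 + 64 := by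
  rcases classify h.prime h.semistable h.ne_zero h.bad
      (exists_root_of_reducible_two h.ne_zero hred) with ⟨e, -⟩ | ⟨e, -⟩
  · exact Or.inl e
  · exact Or.inr e

/-- All prime levels. -/
theorem reducible_cases {W : WeierstrassCurve ℤ} {p : ℕ} (h : OneBadPrime W p) {l : ℕ}
    (hl : l.Prime) (hred : ¬ W.ModRepIsIrreducible l) :
    l = 2 ∧ (p = 17 ∨ ∃ u : ℤ, (p : ℤ) = u ^ 2 + 64) ∨ l = 3 ∧ (p = 19 ∨ p = 37) ∨
      l = 5 ∧ p = 11 := by
  have h11 : l < 11 := by
    by_contra hge
    exact hred (FA.Thirteen.modRepIsIrreducible_all h.ne_zero h.semistable hl (not_lt.1 hge))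
  obtain rfl | rfl | rfl | rfl : l = 2 ∨ l = 3 ∨ l = 5 ∨ l = 7 := by
    have := hl.two_le
    interval_cases l <;> first | omega | exact absurd hl (by norm_num)
  · exact Or.inl ⟨rfl, reducible_two h hred⟩
  · exact Or.inr (Or.inl ⟨rfl, (reducible_three h hred).imp And.left And.left⟩)
  · exact Or.inr (Or.inr ⟨rfl, (reducible_five h hred).1⟩)
  · exact (reducible_seven h hred).elim

end FA.SetzerNeumann

end
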