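import Fermat.Agent.SetzerNeumann.Diophantine
import Fermat.Prelude.Def_FLTPrelim_Modularity
import Mathlib.AlgebraicGeometry.EllipticCurve.Weierstrass
import Mathlib.RingTheory.Polynomial.RationalRoot

/-!
# A root of the two-division cubic of a semistable equation with one bad prime

The root `X / 4` moves the cubic to `X (X² + A X + B)` with `A² - 3 B = c₄` and
`B² (A² - 4 B) = 256 Δ`. Semistability at two leaves `16 ∣ B` with `A` odd, or `A = 2 a` with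
`64 ∣ a² - B`; both give `a² - 64 d = g` with `d g` supported on the bad prime.
-/

set_option autoImplicit false

noncomputable section

namespace FA.SetzerNeumann

open WeierstrassCurve Polynomial

/-- Four times a root of the two-division cubic is an integer root of the monic cubic. -/
theorem exists_int_root {W : WeierstrassCurve ℤ} {x : ℚ}
    (hx : 4 * x ^ 3 + (W.b₂ : ℚ) * x ^ 2 + 2 * (W.b₄ : ℚ) * x + (W.b₆ : ℚ) = 0) :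
    ∃ X : ℤ, (X : ℚ) = 4 * x ∧ X ^ 3 + W.b₂ * X ^ 2 + 8 * W.b₄ * X + 16 * W.b₆ = 0 := by
  set P : ℤ[X] := X ^ 3 + C W.b₂ * X ^ 2 + C (8 * W.b₄) * X + C (16 * W.b₆) with hP
  have hm : P.Monic := by rw [hP]; monicity!
  have hr : aeval (4 * x) P = 0 := by
    simp only [hP, map_add, map_mul, map_pow, aeval_X, aeval_C, map_ofNat]
    simp only [algebraMap_int_eq, eq_intCast]
    linear_combination 16 * hx
  obtain ⟨X₀, hX⟩ := isInteger_of_is_root_of_monic hm hr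
  rw [eq_intCast] at hX
  refine ⟨X₀, hX, ?_⟩
  simp only [hP, map_add, map_mul, map_pow, aeval_X, aeval_C, ← hX] at hr
  simp only [algebraMap_int_eq, eq_intCast] at hr
  refine Int.cast_injective (α := ℚ) ?_
  push_cast
  push_cast at hr
  exact hr

/-- The shifted cubic. -/
theorem exists_shift {W : WeierstrassCurve ℤ} {X : ℤ}
    (hX : X ^ 3 + W.b₂ * X ^ 2 + 8 * W.b₄ * X + 16 * W.b₆ = 0) :
    ∃ A B : ℤ, A = 3 * X + W.b₂ ∧ B = 3 * X ^ 2 + 2 * W.b₂ * X + 8 * W.b₄ ∧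
      A ^ 2 - 3 * B = W.c₄ ∧ B ^ 2 * (A ^ 2 - 4 * B) = 256 * W.Δ := by
  refine ⟨3 * X + W.b₂, 3 * X ^ 2 + 2 * W.b₂ * X + 8 * W.b₄, rfl, rfl, by rw [c₄]; ring, ?_⟩
  have h8 := W.b_relation
  have e6 : (W.b₆ : ℚ) = -((X : ℚ) ^ 3 + W.b₂ * (X : ℚ) ^ 2 + 8 * W.b₄ * X) / 16 := by
    have := congrArg (Int.cast : ℤ → ℚ) hX
    push_cast at this
    linarith
  have e8 : (W.b₈ : ℚ) = ((W.b₂ : ℚ) * W.b₆ - (W.b₄ : ℚ) ^ 2) / 4 := by
    have := congrArg (Int.cast : ℤ → ℚ) h8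
    push_cast at this
    linarith
  refine Int.cast_injective (α := ℚ) ?_
  rw [Δ]
  push_cast
  rw [e8, e6]
  ring

/-- An even `c₄` is divisible by sixteen. -/
theorem sixteen_dvd_c₄ {W : WeierstrassCurve ℤ} (h : (2 : ℤ) ∣ W.c₄) : (16 : ℤ) ∣ W.c₄ := by
  rcases Int.even_or_odd W.a₁ with ⟨t, ht⟩ | ⟨t, ht⟩
  · refine ⟨(t ^ 2 + W.a₂) ^ 2 - 3 * (W.a₄ + t * W.a₃), ?_⟩
    simp only [c₄, b₂, b₄, ht]
    ring
  · exfalso
    obtain ⟨r, hr⟩ := h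
    simp only [c₄, b₂, b₄, ht] at hr
    ring_nf at hr
    omega

/-- **The two shapes.** -/
theorem two_shapes {W : WeierstrassCurve ℤ} (hs : W.IsSemistableModel) {A B : ℤ}
    (hc : A ^ 2 - 3 * B = W.c₄) (hΔ : B ^ 2 * (A ^ 2 - 4 * B) = 256 * W.Δ) :
    ∃ a d g : ℤ, Odd a ∧ a ^ 2 - 64 * d = g ∧
      (W.Δ = d ^ 2 * g ∧ W.c₄ = a ^ 2 - 48 * d ∧ A = a ∧ B = 16 * d ∨
        W.Δ = g ^ 2 * d ∧ W.c₄ = 4 * a ^ 2 - 3 * g ∧ A = 2 * a ∧ B = g) := by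
  rcases Int.even_or_odd A with ⟨a, rfl⟩ | hA
  · have hΔ' : B ^ 2 * (a ^ 2 - B) = 64 * W.Δ := by linarith
    rcases Int.even_or_odd B with ⟨B₁, rfl⟩ | hB
    · exfalso
      have hc2 : (2 : ℤ) ∣ W.c₄ := ⟨2 * a ^ 2 - 3 * B₁, by linear_combination -hc⟩
      have hΔodd : Odd W.Δ := Int.not_even_iff_odd.1 fun he => hs 2 Nat.prime_two he.two_dvd hc2
      obtain ⟨r, hr⟩ := sixteen_dvd_c₄ hc2
      rcases Int.even_or_odd B₁ with ⟨b, rfl⟩ | hB₁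
      swap
      · obtain ⟨t, rfl⟩ := hB₁
        ring_nf at hc
        omega
      have h4 : b ^ 2 * (a ^ 2 - 4 * b) = 4 * W.Δ := by linarith
      have hr4 : a ^ 2 - 3 * b = 4 * r := by linarith
      rcases Int.even_or_odd a with ⟨a', rfl⟩ | ha
      · have h1 : b ^ 2 * (a' ^ 2 - b) = W.Δ := by linarith
        rw [← h1, Int.odd_mul] at hΔodd
        obtain ⟨t, rfl⟩ := (Int.odd_pow' two_ne_zero).1 hΔodd.1
        ring_nf at hr4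
        omega
      · have hb : Even b := by
          have he : Even (b ^ 2 * (a ^ 2 - 4 * b)) := h4 ▸ ⟨2 * W.Δ, by ring⟩
          rw [Int.even_mul] at he
          rcases he with he | he
          · exact (Int.even_pow.1 he).1
          · exact absurd he (Int.not_even_iff_odd.2 (ha.pow.sub_even ⟨2 * b, by ring⟩))
        obtain ⟨t, rfl⟩ := hb
        obtain ⟨u, rfl⟩ := ha
        ring_nf at hr4
        omega
    · have h64 : (64 : ℤ) ∣ a ^ 2 - B := by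
        refine IsCoprime.dvd_of_dvd_mul_left ?_ (Dvd.intro _ hΔ'.symm)
        obtain ⟨t, rfl⟩ := hB
        rw [show (64 : ℤ) = 2 ^ 6 by norm_num]
        exact ((show IsCoprime (2 : ℤ) (2 * t + 1) from ⟨-t, 1, by ring⟩).pow_right).pow_left
      obtain ⟨d, hd⟩ := h64
      refine ⟨a, d, B, ?_, by linarith, Or.inr ⟨?_, by linarith, (two_mul a).symm, rfl⟩⟩
      · refine Int.not_even_iff_odd.1 fun ha => Int.not_even_iff_odd.2 hB ?_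
        rw [show B = a ^ 2 - 64 * d by linarith]
        exact (ha.pow_of_ne_zero two_ne_zero).sub ⟨32 * d, by ring⟩
      · rw [hd] at hΔ'
        linarith
  · obtain ⟨b, rfl⟩ : (16 : ℤ) ∣ B := by
      have h256 : (256 : ℤ) ∣ B ^ 2 := by
        refine IsCoprime.dvd_of_dvd_mul_right ?_ (Dvd.intro _ hΔ.symm)
        obtain ⟨t, rfl⟩ := hA
        rw [show (256 : ℤ) = 2 ^ 8 by norm_num]
        exact (show IsCoprime (2 : ℤ) ((2 * t + 1) ^ 2 - 4 * B) from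
          ⟨-2 * t ^ 2 - 2 * t + 2 * B, 1, by ring⟩).pow_left
      exact (Int.pow_dvd_pow_iff two_ne_zero).1 (by simpa using h256)
    exact ⟨A, b, A ^ 2 - 64 * b, hA, rfl, Or.inl ⟨by linarith, by linarith, rfl, rfl⟩⟩

/-- The shifted cubic at a root, with the parameters of its shape. -/
theorem exists_shape {p : ℕ} (hp : p.Prime) {W : WeierstrassCurve ℤ} (hW : W.IsSemistableModel)
    (hΔ0 : W.Δ ≠ 0) (hbad : ∀ q : ℕ, q.Prime → ((q : ℤ) ∣ W.Δ ↔ q = p)) {x : ℚ}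
    (hx : 4 * x ^ 3 + (W.b₂ : ℚ) * x ^ 2 + 2 * (W.b₄ : ℚ) * x + (W.b₆ : ℚ) = 0) :
    ∃ X A B a d g : ℤ, (X : ℚ) = 4 * x ∧
      X ^ 3 + W.b₂ * X ^ 2 + 8 * W.b₄ * X + 16 * W.b₆ = 0 ∧ A = 3 * X + W.b₂ ∧
      B = 3 * X ^ 2 + 2 * W.b₂ * X + 8 * W.b₄ ∧
      (W.Δ = d ^ 2 * g ∧ W.c₄ = a ^ 2 - 48 * d ∧ A = a ∧ B = 16 * d ∨
        W.Δ = g ^ 2 * d ∧ W.c₄ = 4 * a ^ 2 - 3 * g ∧ A = 2 * a ∧ B = g) ∧
      (p = 17 ∧ (d = 17 ∧ g = 1 ∨ d = 1 ∧ g = 17 ∨ d = -1 ∧ g = 289) ∨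
        d = -1 ∧ g = p ∧ (p : ℤ) = a ^ 2 + 64) := by
  obtain ⟨X, hXx, hX⟩ := exists_int_root hx
  obtain ⟨A, B, hA, hB, hc, hΔ⟩ := exists_shift hX
  obtain ⟨a, d, g, ha, he, hsh⟩ := two_shapes hW hc hΔ
  have hd0 : d ≠ 0 := by rintro rfl; rcases hsh with ⟨e, -⟩ | ⟨e, -⟩ <;> simp [e] at hΔ0
  have hg0 : g ≠ 0 := by rintro rfl; rcases hsh with ⟨e, -⟩ | ⟨e, -⟩ <;> simp [e] at hΔ0
  have hdvd : ∀ q : ℕ, q.Prime → ((q : ℤ) ∣ d * g ↔ (q : ℤ) ∣ W.Δ) := fun q hq => by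
    have hqi := Nat.prime_iff_prime_int.1 hq
    rcases hsh with ⟨e, -⟩ | ⟨e, -⟩ <;> rw [e, hqi.dvd_mul, hqi.dvd_mul,
      hqi.dvd_pow_iff_dvd two_ne_zero]
    exact or_comm
  have hco : ∀ q : ℕ, q.Prime → (q : ℤ) ∣ d → ¬(q : ℤ) ∣ g := fun q hq hqd hqg => by
    have hqi := Nat.prime_iff_prime_int.1 hq
    refine hW q hq ((hdvd q hq).1 (hqd.mul_right g)) ?_
    have hqa : (q : ℤ) ∣ a := hqi.dvd_of_dvd_pow
      ((show a ^ 2 = g + 64 * d by linarith) ▸ dvd_add hqg (hqd.mul_left 64))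
    rcases hsh with ⟨-, e, -⟩ | ⟨-, e, -⟩ <;> rw [e]
    · exact dvd_sub (dvd_pow hqa two_ne_zero) (hqd.mul_left 48)
    · exact dvd_sub ((dvd_pow hqa two_ne_zero).mul_left 4) (hqg.mul_left 3)
  exact ⟨X, A, B, a, d, g, hXx, hX, hA, hB, hsh, solve hp ha he hco hd0 hg0
    (fun q hq h => (hbad q hq).1 ((hdvd q hq).1 h)) ((hdvd p hp).2 ((hbad p hp).2 rfl))⟩

/-- **Setzer–Neumann**, for equations. -/
theorem classify {p : ℕ} (hp : p.Prime) {W : WeierstrassCurve ℤ} (hW : W.IsSemistableModel)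
    (hΔ0 : W.Δ ≠ 0) (hbad : ∀ q : ℕ, q.Prime → ((q : ℤ) ∣ W.Δ ↔ q = p))
    (hx : ∃ x : ℚ, 4 * x ^ 3 + (W.b₂ : ℚ) * x ^ 2 + 2 * (W.b₄ : ℚ) * x + (W.b₆ : ℚ) = 0) :
    p = 17 ∧ (W.Δ = 17 ∨ W.Δ = 17 ^ 2 ∨ W.Δ = -17 ^ 4) ∨
      (∃ u : ℤ, (p : ℤ) = u ^ 2 + 64) ∧ (W.Δ = p ∨ W.Δ = -(p : ℤ) ^ 2) := by
  obtain ⟨x, hx⟩ := hx
  obtain ⟨X, A, B, a, d, g, -, -, -, -, hsh, hsol⟩ := exists_shape hp hW hΔ0 hbad hx
  rcases hsol with
    ⟨rfl, ⟨rfl, rfl⟩ | ⟨rfl, rfl⟩ | ⟨rfl, rfl⟩⟩ | ⟨rfl, rfl, hu⟩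
  all_goals rcases hsh with ⟨e, -⟩ | ⟨e, -⟩
  · exact Or.inl ⟨rfl, Or.inr (Or.inl (by rw [e]; norm_num))⟩
  · exact Or.inl ⟨rfl, Or.inl (by rw [e]; norm_num)⟩
  · exact Or.inl ⟨rfl, Or.inl (by rw [e]; norm_num)⟩
  · exact Or.inl ⟨rfl, Or.inr (Or.inl (by rw [e]; norm_num))⟩
  · exact Or.inl ⟨rfl, Or.inr (Or.inl (by rw [e]; norm_num))⟩
  · exact Or.inl ⟨rfl, Or.inr (Or.inr (by rw [e]; norm_num))⟩
  · exact Or.inr ⟨⟨a, hu⟩, Or.inl (by rw [e]; ring)⟩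
  · exact Or.inr ⟨⟨a, hu⟩, Or.inr (by rw [e]; ring)⟩

end FA.SetzerNeumann

end
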