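import Fermat.Agent.SetzerNeumann.Common

/-!
# A point of order three: `p = 19` or `37`

Scaled to be minimal, `y² + a₁ x y + a₃ y = x³` has the invariants of the semistable equation.
-/

set_option autoImplicit false

noncomputable section

open WeierstrassCurve FA.Frob

namespace FA.SetzerNeumann

/-- The invariants of the minimal flex form have no common twelfth and fourth powers. -/
theorem three_minimal {a₁ a₃ : ℤ} {q : ℕ} (hq : q.Prime)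
    (hmin : (q : ℤ) ∣ a₁ → ¬(q : ℤ) ^ 3 ∣ a₃)
    (hc : (q : ℤ) ^ 4 ∣ a₁ * (a₁ ^ 3 - 24 * a₃))
    (hD : (q : ℤ) ^ 12 ∣ a₃ ^ 3 * (a₁ ^ 3 - 27 * a₃)) : False := by
  have hqi := Nat.prime_iff_prime_int.1 hq
  have hq0 : (q : ℤ) ≠ 0 := hqi.ne_zero
  -- the powers of `q` dividing the small constants
  have hsmall : ∀ j k : ℕ, (q : ℤ) ^ j ∣ ((3 ^ k : ℕ) : ℤ) → j ≠ 0 → q = 3 ∧ j ≤ k :=
      fun j k h hj => by
    have h' : q ^ j ∣ 3 ^ k := by exact_mod_cast h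
    obtain rfl : q = 3 := (Nat.prime_dvd_prime_iff_eq hq Nat.prime_three).1
      (hq.dvd_of_dvd_pow ((dvd_pow_self q hj).trans h'))
    exact ⟨rfl, (Nat.pow_dvd_pow_iff_le_right (by norm_num)).1 h'⟩
  by_cases h1 : (q : ℤ) ∣ a₁
  swap
  · have hc' := IsCoprime.dvd_of_dvd_mul_left
      (((hqi.coprime_iff_not_dvd).2 h1).pow_left (m := 4)) hc
    have h3 : ¬(q : ℤ) ∣ a₃ := fun h3 => h1 (hqi.dvd_of_dvd_pow (n := 3) (by
      have := dvd_add ((dvd_pow_self (q : ℤ) (by norm_num : 4 ≠ 0)).trans hc') (h3.mul_left 24)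
      rwa [sub_add_cancel] at this))
    have hD' := IsCoprime.dvd_of_dvd_mul_left
      ((((hqi.coprime_iff_not_dvd).2 h3).pow_left (m := 12)).pow_right (n := 3)) hD
    have h4 : (q : ℤ) ^ 4 ∣ ((3 ^ 1 : ℕ) : ℤ) * a₃ := by
      have := dvd_sub hc' ((pow_dvd_pow _ (by norm_num : 4 ≤ 12)).trans hD')
      rw [show a₁ ^ 3 - 24 * a₃ - (a₁ ^ 3 - 27 * a₃) = 3 * a₃ by ring] at this
      simpa using this
    have := hsmall 4 1 (IsCoprime.dvd_of_dvd_mul_right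
      (((hqi.coprime_iff_not_dvd).2 h3).pow_left) h4) (by norm_num)
    omega
  obtain ⟨b, rfl⟩ := h1
  have hmin' := hmin (dvd_mul_right _ _)
  by_cases e0 : (q : ℤ) ∣ a₃
  swap
  · have hco : ∀ m, IsCoprime ((q : ℤ) ^ m) a₃ := fun m =>
      ((hqi.coprime_iff_not_dvd).2 e0).pow_left
    have hD' := IsCoprime.dvd_of_dvd_mul_left ((hco 12).pow_right (n := 3)) hD
    have h27 : (q : ℤ) ^ 3 ∣ ((3 ^ 3 : ℕ) : ℤ) * a₃ := by
      have := dvd_sub (dvd_mul_right ((q : ℤ) ^ 3) (b ^ 3))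
        ((pow_dvd_pow _ (by norm_num : 3 ≤ 12)).trans hD')
      rw [show (q : ℤ) ^ 3 * b ^ 3 - ((q * b) ^ 3 - 27 * a₃) = 27 * a₃ by ring] at this
      simpa using this
    obtain ⟨rfl, -⟩ := hsmall 3 3 ((hco 3).dvd_of_dvd_mul_right h27) (by norm_num)
    simp only [Nat.cast_ofNat] at hc hD' e0 hqi hco
    have h9 : (3 : ℤ) ^ 9 ∣ b ^ 3 - a₃ := by
      rw [show (3 * b) ^ 3 - 27 * a₃ = 3 ^ 3 * (b ^ 3 - a₃) by ring,
        show (3 : ℤ) ^ 12 = 3 ^ 3 * 3 ^ 9 by norm_num] at hD'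
      exact (mul_dvd_mul_iff_left (by norm_num)).1 hD'
    have hb : ¬(3 : ℤ) ∣ b := fun hb => e0 (by
      have := dvd_sub (dvd_pow hb (by norm_num : 3 ≠ 0))
        ((dvd_pow_self (3 : ℤ) (by norm_num : 9 ≠ 0)).trans h9)
      rwa [sub_sub_cancel] at this)
    rw [show 3 * b * ((3 * b) ^ 3 - 24 * a₃) = 3 ^ 2 * (b * (9 * b ^ 3 - 8 * a₃)) by ring,
      show (3 : ℤ) ^ 4 = 3 ^ 2 * 3 ^ 2 by norm_num, mul_dvd_mul_iff_left (by norm_num)] at hc
    have hc' := IsCoprime.dvd_of_dvd_mul_left ((hqi.coprime_iff_not_dvd.2 hb).pow_left) hc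
    have : (3 : ℤ) ^ 2 ∣ 8 * a₃ := by
      have := dvd_sub (dvd_mul_right ((3 : ℤ) ^ 2) (b ^ 3)) hc'
      rwa [show (3 : ℤ) ^ 2 * b ^ 3 - (9 * b ^ 3 - 8 * a₃) = 8 * a₃ by ring] at this
    exact e0 ((dvd_pow_self (3 : ℤ) two_ne_zero).trans
      (IsCoprime.dvd_of_dvd_mul_left ⟨1, -1, by norm_num⟩ this))
  obtain ⟨e, rfl⟩ := e0
  by_cases e1 : (q : ℤ) ∣ e
  swap
  · have hco : ∀ m, IsCoprime ((q : ℤ) ^ m) e := fun m =>
      ((hqi.coprime_iff_not_dvd).2 e1).pow_left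
    rw [show ((q : ℤ) * e) ^ 3 * ((q * b) ^ 3 - 27 * (q * e)) =
        (q : ℤ) ^ 4 * (e ^ 3 * ((q : ℤ) ^ 2 * b ^ 3 - 27 * e)) by ring,
      show (q : ℤ) ^ 12 = (q : ℤ) ^ 4 * (q : ℤ) ^ 8 by ring,
      mul_dvd_mul_iff_left (pow_ne_zero _ hq0)] at hD
    have hD' := IsCoprime.dvd_of_dvd_mul_left ((hco 8).pow_right (n := 3)) hD
    have h27 : (q : ℤ) ^ 2 ∣ ((3 ^ 3 : ℕ) : ℤ) * e := by
      have := dvd_sub (dvd_mul_right ((q : ℤ) ^ 2) (b ^ 3))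
        ((pow_dvd_pow _ (by norm_num : 2 ≤ 8)).trans hD')
      rw [sub_sub_cancel] at this
      simpa using this
    obtain ⟨rfl, -⟩ := hsmall 2 3 ((hco 2).dvd_of_dvd_mul_right h27) (by norm_num)
    simp only [Nat.cast_ofNat] at hD' e1
    have h6 : (3 : ℤ) ^ 6 ∣ b ^ 3 - 3 * e := by
      rw [show (3 : ℤ) ^ 2 * b ^ 3 - 27 * e = 3 ^ 2 * (b ^ 3 - 3 * e) by ring,
        show (3 : ℤ) ^ 8 = 3 ^ 2 * 3 ^ 6 by norm_num] at hD'
      exact (mul_dvd_mul_iff_left (by norm_num)).1 hD'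
    obtain ⟨t, ht⟩ := h6
    obtain ⟨b', rfl⟩ : (3 : ℤ) ∣ b :=
      Int.prime_three.dvd_of_dvd_pow (n := 3) ⟨e + 3 ^ 5 * t, by linear_combination ht⟩
    exact e1 ⟨3 * b' ^ 3 - 3 ^ 4 * t, by linarith⟩
  obtain ⟨f, rfl⟩ := e1
  have hf : ¬(q : ℤ) ∣ f := fun ⟨g, hg⟩ => hmin' ⟨g, by rw [hg]; ring⟩
  have hco : ∀ m, IsCoprime ((q : ℤ) ^ m) f := fun m =>
    ((hqi.coprime_iff_not_dvd).2 hf).pow_left
  rw [show ((q : ℤ) * (q * f)) ^ 3 * ((q * b) ^ 3 - 27 * (q * (q * f))) =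
      (q : ℤ) ^ 8 * (f ^ 3 * ((q : ℤ) * b ^ 3 - 27 * f)) by ring,
    show (q : ℤ) ^ 12 = (q : ℤ) ^ 8 * (q : ℤ) ^ 4 by ring,
    mul_dvd_mul_iff_left (pow_ne_zero _ hq0)] at hD
  have hD' := IsCoprime.dvd_of_dvd_mul_left ((hco 4).pow_right (n := 3)) hD
  have h27 : (q : ℤ) ^ 1 ∣ ((3 ^ 3 : ℕ) : ℤ) * f := by
    have := dvd_sub (dvd_mul_right (q : ℤ) (b ^ 3))
      ((dvd_pow_self _ (by norm_num : 4 ≠ 0)).trans hD')
    rw [sub_sub_cancel] at this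
    simpa using this
  obtain ⟨rfl, -⟩ := hsmall 1 3 ((hco 1).dvd_of_dvd_mul_right h27) (by norm_num)
  simp only [Nat.cast_ofNat] at hD' hf
  obtain ⟨t, ht⟩ := hD'
  obtain ⟨b', rfl⟩ : (3 : ℤ) ∣ b :=
    Int.prime_three.dvd_of_dvd_pow (n := 3) ⟨3 * f + 9 * t, by linarith⟩
  exact hf ⟨b' ^ 3 - t, by linarith⟩

/-- The flex form can be scaled to be minimal. -/
theorem exists_minimal_pair : ∀ (M : ℕ) (A₁ A₃ : ℚ) (u : ℚ) (a₁ a₃ : ℤ), a₃.natAbs ≤ M →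
    a₃ ≠ 0 → u ≠ 0 → (a₁ : ℚ) = u * A₁ → (a₃ : ℚ) = u ^ 3 * A₃ →
    ∃ (v : ℚ) (b₁ b₃ : ℤ), b₃ ≠ 0 ∧ (b₁ : ℚ) = v * A₁ ∧ (b₃ : ℚ) = v ^ 3 * A₃ ∧
      ∀ q : ℕ, q.Prime → (q : ℤ) ∣ b₁ → ¬(q : ℤ) ^ 3 ∣ b₃ := by
  intro M
  induction M with
  | zero =>
    intro A₁ A₃ u a₁ a₃ hM h0
    exact absurd (Int.natAbs_eq_zero.1 (by omega)) h0
  | succ M ih =>
    intro A₁ A₃ u a₁ a₃ hM h0 hu e1 e3
    by_cases hmin : ∀ q : ℕ, q.Prime → (q : ℤ) ∣ a₁ → ¬(q : ℤ) ^ 3 ∣ a₃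
    · exact ⟨u, a₁, a₃, h0, e1, e3, hmin⟩
    · push Not at hmin
      obtain ⟨q, hq, ⟨b₁, rfl⟩, b₃, rfl⟩ := hmin
      have hq' : (q : ℚ) ≠ 0 := Nat.cast_ne_zero.2 hq.ne_zero
      refine ih A₁ A₃ (u / q) b₁ b₃ ?_ (right_ne_zero_of_mul h0) (div_ne_zero hu hq') ?_ ?_
      · rw [Int.natAbs_mul, Int.natAbs_pow, Int.natAbs_natCast] at hM
        have h8 : 2 ≤ q ^ 3 := hq.two_le.trans (Nat.le_self_pow (by norm_num) q)
        have h1 : 1 ≤ b₃.natAbs := Int.natAbs_pos.2 (right_ne_zero_of_mul h0)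
        nlinarith
      · push_cast at e1
        field_simp
        linarith
      · push_cast at e3
        field_simp
        linarith

/-- An integer supported on one prime that divides a cube minus `27`. -/
theorem cube_sub_twentySeven {p : ℕ} (hp : p.Prime) (h11 : 11 ≤ p) {b : ℤ}
    (hsupp : ∀ q : ℕ, q.Prime → (q : ℤ) ∣ b ^ 3 - 27 → q = p) (hpd : (p : ℤ) ∣ b ^ 3 - 27) :
    p = 19 ∨ p = 37 := by
  have hfac : b ^ 3 - 27 = (b - 3) * (b ^ 2 + 3 * b + 9) := by ring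
  rw [hfac] at hsupp hpd
  have hnot : ¬((p : ℤ) ∣ b - 3 ∧ (p : ℤ) ∣ b ^ 2 + 3 * b + 9) := fun ⟨h1, h2⟩ => by
    have h27 : (p : ℤ) ∣ ((3 ^ 3 : ℕ) : ℤ) := by
      have := dvd_sub h2 (h1.mul_right (b + 6))
      rw [show b ^ 2 + 3 * b + 9 - (b - 3) * (b + 6) = 27 by ring] at this
      exact_mod_cast this
    have := (Nat.prime_dvd_prime_iff_eq hp Nat.prime_three).1
      (hp.dvd_of_dvd_pow (Int.natCast_dvd_natCast.1 h27))
    omega
  by_cases h1 : (p : ℤ) ∣ b - 3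
  · rcases natAbs_eq_one (fun q hq hd => hsupp q hq (hd.mul_left _))
      (fun h2 => hnot ⟨h1, h2⟩) with e | e <;> nlinarith [sq_nonneg (2 * b + 3)]
  · rcases natAbs_eq_one (fun q hq hd => hsupp q hq (hd.mul_right _)) h1 with e | e
    · obtain rfl : b = 4 := by linarith
      right
      exact (hsupp 37 (by norm_num) (by norm_num)).symm
    · obtain rfl : b = 2 := by linarith
      left
      exact (hsupp 19 (by norm_num) (by norm_num)).symm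

/-- An integer supported on one prime that is a twenty-seventh of a cube minus `1`. -/
theorem cube_sub_one {p : ℕ} (hp : p.Prime) {b f : ℤ} (hf : f ≠ 0) (he : b ^ 3 - 1 = 27 * f)
    (hsupp : ∀ q : ℕ, q.Prime → (q : ℤ) ∣ f → q = p) : p = 19 ∨ p = 37 := by
  obtain ⟨k, rfl⟩ : ∃ k, b = 3 * k + 1 := ⟨(b - 1) / 3, by
    have : (b % 3 = 1) := by
      have hb : ((b : ZMod 3) ^ 3 - 1 = 0) := by
        have h27 : ((27 : ℤ) : ZMod 3) = 0 := by decide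
        have := congrArg (Int.cast : ℤ → ZMod 3) he
        push_cast at this h27
        rw [this, h27, zero_mul]
      have key : ∀ x : ZMod 3, x ^ 3 - 1 = 0 → x = 1 := by decide
      have := congrArg ZMod.val (key _ hb)
      rw [ZMod.val_one] at this
      have h' := ZMod.val_intCast (n := 3) b
      omega
    omega⟩
  have hk : k * (3 * k ^ 2 + 3 * k + 1) = 3 * f := by linarith
  obtain ⟨s, rfl⟩ : (3 : ℤ) ∣ k := IsCoprime.dvd_of_dvd_mul_right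
    (z := 3 * k ^ 2 + 3 * k + 1) ⟨-k ^ 2 - k, 1, by ring⟩ ⟨f, hk⟩
  have hsg : s * (27 * s ^ 2 + 9 * s + 1) = f := by linarith
  subst hsg
  by_cases h1 : (p : ℤ) ∣ s
  · rcases natAbs_eq_one (fun q hq hd => hsupp q hq (hd.mul_left _)) (fun h2 => by
      have := dvd_sub h2 (h1.mul_right (27 * s + 9))
      rw [show 27 * s ^ 2 + 9 * s + 1 - s * (27 * s + 9) = 1 by ring] at this
      exact hp.not_dvd_one (by exact_mod_cast this)) with e | e
    · have : s = 0 := by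
        by_contra hs
        rcases lt_or_gt_of_ne hs with h | h <;> nlinarith
      exact absurd (by rw [this, zero_mul]) hf
    · nlinarith [sq_nonneg (6 * s + 1)]
  · rcases natAbs_eq_one (fun q hq hd => hsupp q hq (hd.mul_right _)) h1 with rfl | rfl
    · right
      exact (hsupp 37 (by norm_num) (by norm_num)).symm
    · left
      exact (hsupp 19 (by norm_num) (by norm_num)).symm

/-- **A point of order three only for `19` and `37`.** -/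
theorem prime_of_three {W : WeierstrassCurve ℤ} {p : ℕ} (h : OneBadPrime W p)
    (T : (ratCurve W).toAffine.Point) (hT : T ≠ 0) (h3 : 3 • T = 0) : p = 19 ∨ p = 37 := by
  have := ratCurve_isElliptic_of_Δ h.ne_zero
  obtain ⟨x, y, hns, -, hA3, hA2⟩ := FA.Torsion.flex_of_three h3 hT
  obtain ⟨hc, hΔ⟩ := FA.Torsion.flex_invariants hns.1 hA3 hA2
  rw [(cast_invariants W).1] at hc
  rw [(cast_invariants W).2] at hΔ
  generalize FA.Thirteen.tateA1 (ratCurve W) x y = A₁ at hc hΔ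
  generalize hA : FA.Thirteen.tateA3 (ratCurve W) x y = A₃ at hc hΔ hA3
  set N : ℚ := (A₁.den : ℚ) * A₃.den with hN
  have hN0 : N ≠ 0 := mul_ne_zero (Nat.cast_ne_zero.2 A₁.den_nz) (Nat.cast_ne_zero.2 A₃.den_nz)
  obtain ⟨v, a₁, a₃, h0, e1, e3, hmin⟩ := exists_minimal_pair _ A₁ A₃ N
    (A₁.num * A₃.den) (A₁.den ^ 3 * A₃.den ^ 2 * A₃.num) le_rfl
    (mul_ne_zero (by positivity) (by rwa [ne_eq, Rat.num_eq_zero])) hN0
    (by
      push_cast
      rw [hN]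
      linear_combination (-(A₃.den : ℚ)) * A₁.mul_den_eq_num)
    (by
      push_cast
      rw [hN]
      linear_combination (-((A₁.den : ℚ) ^ 3 * (A₃.den : ℚ) ^ 2)) * A₃.mul_den_eq_num)
  obtain ⟨n, hn4, hn12⟩ := exists_scale h (c := a₁ * (a₁ ^ 3 - 24 * a₃))
    (D := a₃ ^ 3 * (a₁ ^ 3 - 27 * a₃)) (u := v)
    (by push_cast; rw [e1, e3, hc]; ring) (by push_cast; rw [e1, e3, hΔ]; ring)
  have hn : n.natAbs = 1 := Nat.eq_one_iff_not_exists_prime_dvd.2 fun q hq hd => by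
    have hd' := Int.natCast_dvd.2 hd
    exact three_minimal hq (hmin q hq) (hn4 ▸ (pow_dvd_pow_of_dvd hd' 4).mul_right _)
      (hn12 ▸ (pow_dvd_pow_of_dvd hd' 12).mul_right _)
  have hn1 : n ^ 4 = 1 := by rcases Int.natAbs_eq_iff.1 hn with rfl | rfl <;> norm_num
  have hn2 : n ^ 12 = 1 := by rw [show n ^ 12 = (n ^ 4) ^ 3 by ring, hn1, one_pow]
  rw [hn1, one_mul] at hn4
  rw [hn2, one_mul] at hn12
  have hsupp : ∀ q : ℕ, q.Prime → (q : ℤ) ∣ a₃ ^ 3 * (a₁ ^ 3 - 27 * a₃) → q = p :=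
    fun q hq hd => (h.bad q hq).1 (hn12 ▸ hd)
  obtain ⟨h11, -⟩ := h.bound
  by_cases hpa : (p : ℤ) ∣ a₃
  · have hX := natAbs_eq_one (fun q hq hd => hsupp q hq (hd.mul_left _)) fun hpX => by
      refine h.not_dvd_c₄ (hn4 ▸ (Prime.dvd_of_dvd_pow (n := 3)
        (Nat.prime_iff_prime_int.1 h.prime) ?_).mul_right _)
      have := dvd_add hpX (hpa.mul_left 27)
      rwa [sub_add_cancel] at this
    have hsupp' : ∀ q : ℕ, q.Prime → (q : ℤ) ∣ a₃ → q = p := fun q hq hd =>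
      hsupp q hq ((dvd_pow hd (by norm_num)).mul_right _)
    rcases hX with e | e
    · exact cube_sub_one h.prime h0 (b := a₁) (by linarith) hsupp'
    · exact cube_sub_one h.prime (neg_ne_zero.2 h0) (b := -a₁) (by ring_nf; linarith)
        fun q hq hd => hsupp' q hq (dvd_neg.1 hd)
  · have ha : a₃ = 1 ∨ a₃ = -1 := natAbs_eq_one
      (fun q hq hd => hsupp q hq ((dvd_pow hd (by norm_num)).mul_right _)) hpa
    have hD : ∀ q : ℕ, q.Prime → (q : ℤ) ∣ W.Δ → (q : ℤ) ∣ (a₃ * a₁) ^ 3 - 27 := fun q hq hd => by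
      rw [← hn12] at hd
      rcases ha with rfl | rfl
      · simpa using hd
      · convert hd using 1
        ring
    refine cube_sub_twentySeven h.prime h11 (b := a₃ * a₁) (fun q hq hd => hsupp q hq ?_)
      (hD p h.prime h.dvd_Δ)
    rcases ha with rfl | rfl
    · simpa using hd
    · convert hd using 1
      ring

end FA.SetzerNeumann

end
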