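import Fermat.Agent.SetzerNeumann.Model
import Fermat.Agent.SetzerNeumann.Common
import Fermat.Agent.Torsion.TwoTen

/-!
# A point of order four with one bad prime

If `2 Q = T` has order two then `(4 (x(Q) - x(T)))² = B` in the notation of the shifted cubic, so
`B` is a square `c²`, and `c⁴ (A² - 4 c²) = 256 Δ` with `Δ = p, -p²` leaves `p = 17`.
-/

set_option autoImplicit false

noncomputable section

open WeierstrassCurve

namespace FA.SetzerNeumann

/-- The halving of a point of order two. -/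
theorem quarter {V : WeierstrassCurve ℚ} {Q : V.toAffine.Point} (hQ : addOrderOf Q = 4) :
    ∃ x e : ℚ, 4 * e ^ 3 + V.b₂ * e ^ 2 + 2 * V.b₄ * e + V.b₆ = 0 ∧
      (4 * (x - e)) ^ 2 = 48 * e ^ 2 + 8 * V.b₂ * e + 8 * V.b₄ ∧
      IsSquare (4 * x ^ 3 + V.b₂ * x ^ 2 + 2 * V.b₄ * x + V.b₆) := by
  have h2 : 2 • Q ≠ 0 := fun e => by
    have := Nat.le_of_dvd two_pos (hQ ▸ addOrderOf_dvd_of_nsmul_eq_zero e)
    omega
  have h22 : 2 • (2 • Q) = 0 := by
    rw [← mul_nsmul, show 2 * 2 = addOrderOf Q from hQ.symm, addOrderOf_nsmul_eq_zero]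
  rcases Q with _ | ⟨x, y, h⟩
  · exact absurd (nsmul_zero 2) h2
  have hy : y ≠ V.toAffine.negY x y := fun hy => h2 (by
    rw [two_nsmul, Affine.Point.add_self_of_Y_eq hy])
  rw [two_nsmul (Affine.Point.some x y h), Affine.Point.add_self_of_Y_ne hy] at h22
  obtain ⟨-, hroot⟩ := FA.Torsion.TwoTen.root_of_two_nsmul h22
  rw [Affine.slope_of_Y_ne rfl hy] at hroot
  simp only [Affine.negY] at hy
  have hv : 2 * y + V.a₁ * x + V.a₃ ≠ 0 := fun e => hy (by linear_combination e)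
  have heq := (Affine.equation_iff x y).1 h.1
  have hsq : (2 * y + V.a₁ * x + V.a₃) ^ 2 =
      4 * x ^ 3 + V.b₂ * x ^ 2 + 2 * V.b₄ * x + V.b₆ := by
    simp only [b₂, b₄, b₆]
    linear_combination 4 * heq
  generalize hl : (3 * x ^ 2 + 2 * V.a₂ * x + V.a₄ - V.a₁ * y) / (y - V.toAffine.negY x y) = l
    at hroot
  have hl' : l * (2 * y + V.a₁ * x + V.a₃) = 3 * x ^ 2 + 2 * V.a₂ * x + V.a₄ - V.a₁ * y := by
    rw [← hl, show y - V.toAffine.negY x y = 2 * y + V.a₁ * x + V.a₃ by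
      simp only [Affine.negY]; ring, div_mul_cancel₀ _ hv]
  generalize he : V.toAffine.addX x x l = e at hroot
  simp only [Affine.addX] at he
  have hF : (2 * l + V.a₁) * (2 * y + V.a₁ * x + V.a₃) =
      6 * x ^ 2 + V.b₂ * x + V.b₄ := by
    simp only [b₂, b₄]
    linear_combination 2 * hl'
  have hL : (2 * l + V.a₁) ^ 2 = 4 * e + 8 * x + V.b₂ := by
    simp only [b₂]
    linear_combination 4 * he
  have hkey : (6 * x ^ 2 + V.b₂ * x + V.b₄) ^ 2 - (4 * e + 8 * x + V.b₂) *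
      (4 * x ^ 3 + V.b₂ * x ^ 2 + 2 * V.b₄ * x + V.b₆) = 0 := by
    rw [← hF, ← hL, ← hsq]
    ring
  refine ⟨x, e, hroot, ?_, ⟨_, hsq.symm.trans (sq _)⟩⟩
  have h0 : (2 * (x - e) ^ 2 - 6 * e ^ 2 - V.b₂ * e - V.b₄) ^ 2 = 0 := by
    linear_combination hkey + (4 * e + 8 * x + V.b₂) * hroot
  linear_combination 8 * (pow_eq_zero_iff two_ne_zero).1 h0

/-- **A point of order four only for `17`.** -/
theorem prime_of_four {W : WeierstrassCurve ℤ} {p : ℕ} (h : OneBadPrime W p)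
    (Q : (W.map (Int.castRingHom ℚ)).toAffine.Point) (hQ : addOrderOf Q = 4) : p = 17 := by
  obtain ⟨x, e, hroot, hc, -⟩ := quarter hQ
  simp only [map_b₂, map_b₄, map_b₆, eq_intCast] at hroot hc
  obtain ⟨X, hX, hX'⟩ := exists_int_root hroot
  obtain ⟨A, B, -, hB, -, hΔ⟩ := exists_shift hX'
  obtain ⟨c, rfl⟩ : IsSquare B := Rat.isSquare_intCast_iff.1 ⟨4 * (x - e), by
    rw [hB, ← sq, hc]
    push_cast
    rw [hX]
    ring⟩
  have hΔ' : c ^ 4 * (A ^ 2 - 4 * c ^ 2) = 256 * W.Δ := by linear_combination hΔ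
  have hp := h.prime
  obtain ⟨h11, -⟩ := h.bound
  rcases classify hp h.semistable h.ne_zero h.bad ⟨e, hroot⟩ with ⟨rfl, -⟩ | ⟨-, hD⟩
  · rfl
  have hp0 : (p : ℤ) ≠ 0 := Int.natCast_ne_zero.2 hp.ne_zero
  have hc4 : c.natAbs = 1 ∨ c.natAbs = 2 ∨ c.natAbs = 4 := by
    have hpc : ¬p ∣ c.natAbs := fun hd => by
      have h4 : (p : ℤ) ^ 2 * p ^ 2 ∣ 256 * W.Δ := by
        rw [← pow_add]
        exact hΔ' ▸ (pow_dvd_pow_of_dvd (Int.natCast_dvd.2 hd) 4).mul_right _
      have h256 : (p : ℤ) ^ 2 ∣ ((256 : ℕ) : ℤ) := by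
        rcases hD with e' | e' <;> rw [e'] at h4
        · refine (mul_dvd_mul_iff_right (pow_ne_zero 2 hp0)).1 (h4.trans ?_)
          exact Dvd.intro (p : ℤ) (by push_cast; ring)
        · refine (mul_dvd_mul_iff_right (pow_ne_zero 2 hp0)).1 (h4.trans ?_)
          exact Dvd.intro (-1) (by push_cast; ring)
      have h2 : p ∣ 2 ^ 8 := (dvd_pow_self p two_ne_zero).trans
        (Int.natCast_dvd_natCast.1 (by exact_mod_cast h256))
      have := Nat.le_of_dvd two_pos (hp.dvd_of_dvd_pow h2)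
      omega
    have hco : (c.natAbs ^ 4).Coprime (p ^ 2) :=
      (((hp.coprime_iff_not_dvd).2 hpc).symm.pow_left 4).pow_right 2
    have h4 : c.natAbs ^ 4 ∣ 256 * p ^ 2 := by
      have hd : c ^ 4 ∣ 256 * (p : ℤ) ^ 2 := by
        rcases hD with e' | e' <;> rw [e'] at hΔ'
        · exact Dvd.intro ((A ^ 2 - 4 * c ^ 2) * p) (by linear_combination (p : ℤ) * hΔ')
        · exact Dvd.intro (-(A ^ 2 - 4 * c ^ 2)) (by linear_combination -hΔ')
      simpa [Int.natAbs_mul, Int.natAbs_pow] using Int.natAbs_dvd_natAbs.2 hd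
    have := hco.dvd_of_dvd_mul_right h4
    rw [show 256 = 4 ^ 4 by norm_num, Nat.pow_dvd_pow_iff (by norm_num)] at this
    have hle := Nat.le_of_dvd (by norm_num) this
    interval_cases c.natAbs <;> omega
  have hprime : ∀ a b : ℤ, a * b = p → a.natAbs = 1 ∨ b.natAbs = 1 := fun a b e' => by
    have : a.natAbs * b.natAbs = p := by rw [← Int.natAbs_mul, e', Int.natAbs_natCast]
    exact (Nat.prime_mul_iff.1 (this.symm ▸ hp)).imp And.right And.right |>.symm
  have hp11 : (11 : ℤ) ≤ p := by exact_mod_cast h11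
  have hc2 : c ^ 2 = (c.natAbs : ℤ) ^ 2 := (Int.natAbs_sq c).symm
  have hc4' : c ^ 4 = (c.natAbs : ℤ) ^ 4 := by rw [show c ^ 4 = (c ^ 2) ^ 2 by ring, hc2]; ring
  rw [hc2, hc4'] at hΔ'
  suffices hpz : (p : ℤ) = 17 by exact_mod_cast hpz
  rcases hD with hD | hD <;> rw [hD] at hΔ'
  swap
  · exfalso
    rcases hc4 with e' | e' | e' <;> rw [e'] at hΔ' <;> push_cast at hΔ' <;>
      nlinarith [sq_nonneg A]
  rcases hc4 with e' | e' | e' <;> rw [e'] at hΔ' <;> push_cast at hΔ'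
  · obtain ⟨a, rfl⟩ : Even A := by
      have : Even (A ^ 2) := ⟨2 + 128 * p, by linarith⟩
      simpa [Int.even_pow] using this
    obtain ⟨m, rfl⟩ : Odd a := by
      refine Int.not_even_iff_odd.1 ?_
      rintro ⟨b, rfl⟩
      ring_nf at hΔ'
      omega
    have hm : m * (m + 1) = 16 * p := by linarith
    have h15 : (p : ℤ) = 15 → False := fun e'' => by
      obtain rfl : p = 15 := by exact_mod_cast e''
      exact absurd hp (by norm_num)
    have hpi := Nat.prime_iff_prime_int.1 hp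
    have hsmall : ∀ k : ℤ, k * (k * p + 1) = 16 ∨ k * (k * p - 1) = 16 → -1 ≤ k ∧ k ≤ 1 :=
      fun k hk => by
        by_contra hcon
        have h2 : 2 ≤ |k| := by
          rcases not_and_or.1 hcon with h' | h' <;> rw [le_abs] <;> omega
        rcases hk with hk | hk <;> nlinarith [sq_abs k, le_abs_self k, neg_abs_le k]
    rcases hpi.dvd_or_dvd (Dvd.intro_left 16 hm.symm) with ⟨k, rfl⟩ | ⟨k, hk⟩
    · have hk : k * (k * p + 1) = 16 := mul_left_cancel₀ hp0 (by linear_combination hm)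
      obtain ⟨k1, k2⟩ := hsmall k (Or.inl hk)
      interval_cases k <;> first | linarith | exact (h15 (by linarith)).elim
    · obtain rfl : m = p * k - 1 := by linarith
      have hk : k * (k * p - 1) = 16 := mul_left_cancel₀ hp0 (by linear_combination hm)
      obtain ⟨k1, k2⟩ := hsmall k (Or.inr hk)
      interval_cases k <;> first | linarith | exact (h15 (by linarith)).elim
  · obtain ⟨a, rfl⟩ : (4 : ℤ) ∣ A := by
      refine (Int.pow_dvd_pow_iff two_ne_zero).1 ⟨1 + p, ?_⟩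
      linarith
    rcases hprime (a - 1) (a + 1) (by linarith) with e'' | e'' <;>
      rcases Int.natAbs_eq_iff.1 e'' with e3 | e3 <;> push_cast at e3
    all_goals (rcases (show a = 0 ∨ a = 2 ∨ a = -2 by omega) with rfl | rfl | rfl <;> linarith)
  · rcases hprime (A - 8) (A + 8) (by linarith) with e'' | e'' <;>
      rcases Int.natAbs_eq_iff.1 e'' with e3 | e3 <;> push_cast at e3
    all_goals
      rcases (show A = 9 ∨ A = 7 ∨ A = -7 ∨ A = -9 by omega) with rfl | rfl | rfl | rfl <;> linarith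

end FA.SetzerNeumann

end
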